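import Fermat.Agent.MazurPrinciple.Away.EigenFun
import Fermat.Agent.BadRed.AtP.UpLevel

/-!
# A multiple of an eigen class represented by a unit on both components

For a representative `f` of an eigen class and a good prime `ℓ`, the quotient of `T ℓ f` by
`f ^ (ℓ + 1)` is a unit on both components and represents `a ℓ - ℓ - 1` times the class.
-/

set_option autoImplicit false
set_option linter.unusedSectionVars false
set_option maxHeartbeats 800000

noncomputable section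

namespace FermatAgent.MazurPrinciple.Away

open AlgebraicCurve ModularCurve IsLocalRing
open FermatAgent.Curve (divisorOf IsFunctionField1)
open FermatAgent.ModCurveTorsion (galN)
open FermatAgent.BadRed.Semistable
open FermatAgent.BadRed
open FermatAgent.ModFun FermatAgent.ES

local notation "Qb" => AlgebraicClosure ℚ
local notation "𝐅" N:max => laurentBaseChange Qb (modularFunctionFieldFull N)

attribute [local instance] ModCurveTorsion.isFunctionField1_laurent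
attribute [local instance] isAlgClosed_residue

variable {q p N : ℕ} [Fact q.Prime] [hp : Fact p.Prime] [NeZero N] [NeZero (q * N)]
  {A : ValuationSubring Qb} (hA : A.LiesOverPrime q) (hN : q.Coprime N)
  [IsFunctionField1 (ResidueField A) (FibField A N)]
  {ℓ : ℕ} [hℓ' : Fact ℓ.Prime] [NeZero (ℓ * (q * N))] (hℓ : ℓ.Coprime (q * N))

/-- The ratio of the norm to the power is a unit on the first component. -/
theorem isUnitAt_hecke_ratio {f : 𝐅 (q * N)} (hf : f ≠ 0) :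
    IsUnitAt (levelData q A hA hN).g₁ (AtP.heckeNorm Qb hℓ f / f ^ (ℓ + 1)) := by
  set g₁ := (levelData q A hA hN).g₁
  have : NeZero ℓ := ⟨hℓ'.out.ne_zero⟩
  obtain ⟨s, hs0, hsu⟩ := AtP.exists_unitAt_smul g₁ hf
  have hT := (AtP.levelHecke₁ q A hA hN ⊤ ⊤ (q : A) 1 (mul_one _).symm hℓ).isUnitAt _ hsu
  obtain ⟨ζ, hζ⟩ := HasEnoughRootsOfUnity.exists_primitiveRoot Qb ℓ
  have hζu : IsPrimitiveRoot (hζ.isUnit hℓ'.out.ne_zero).unit ℓ :=
    IsPrimitiveRoot.coe_units_iff.mp (by rw [IsUnit.unit_spec]; exact hζ)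
  have e : AtP.heckeNorm Qb hℓ f / f ^ (ℓ + 1) =
      AtP.heckeNorm Qb hℓ (s • f) * ((s • f) ^ (ℓ + 1))⁻¹ := by
    rw [Algebra.smul_def, map_mul, AtP.heckeNorm_algebraMap hℓ hζu, mul_pow, ← map_pow,
      mul_inv, div_eq_mul_inv, mul_mul_mul_comm,
      mul_inv_cancel₀ ((_root_.map_ne_zero _).mpr (pow_ne_zero _ hs0)), one_mul]
  rw [e]
  exact IsUnitAt.mul hT ((IsUnitAt.pow hsu (ℓ + 1)).inv residue_surjective)

/-- The ratio of the norm to the power is a unit on the second component. -/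
theorem isUnitAt_hecke_ratio₂ {f : 𝐅 (q * N)} (hf : f ≠ 0) :
    IsUnitAt (levelData q A hA hN).g₂ (AtP.heckeNorm Qb hℓ f / f ^ (ℓ + 1)) := by
  have : NeZero (ℓ * N) := ⟨Nat.mul_ne_zero hℓ'.out.ne_zero (NeZero.ne N)⟩
  have : NeZero (q * (ℓ * N)) := ⟨Nat.mul_ne_zero (Fact.out : q.Prime).ne_zero (NeZero.ne _)⟩
  have hql : q.Coprime (ℓ * N) :=
    Nat.Coprime.mul_right (Nat.Coprime.coprime_mul_right_right hℓ).symm hN
  obtain ⟨h, h0⟩ := isUnitAt_hecke_ratio hA hN hℓ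
    ((map_ne_zero_iff _ (atkinLehnerBar hN Qb).injective).mpr hf)
  obtain ⟨h₂, e⟩ := levelData_red₂ hA hN (x := AtP.heckeNorm Qb hℓ f / f ^ (ℓ + 1))
    (by rw [map_div₀, map_pow, ← AtP.heckeNorm_atkinLehnerBar hN hql hℓ]) h
  exact ⟨h₂, by rw [e]; exact h0⟩

variable {S : Set ℕ} {a : ℕ → ℤ}

include hA hN hℓ in
/-- **The multiple of an eigen class with a representative integral at both components.** -/
theorem exists_unit_multiple {C : IntermediateField ℚ Qb}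
    {D : Divisor.degZero (K := Qb) (F := 𝐅 (q * N))} {f : 𝐅 (q * N)} (hf : f ≠ 0)
    (hfC : f ∈ fixedFun C (q * N))
    (hfD : p • (D : Divisor Qb (𝐅 (q * N))) = divisorOf f)
    (hx : Pic0.mk D ∈ eigenGroup (q * N) S a p) (hℓS : ℓ ∉ S) :
    ∃ (D' : Divisor.degZero (K := Qb) (F := 𝐅 (q * N))) (t : 𝐅 (q * N)),
      t ∈ fixedFun C (q * N) ∧ t ≠ 0 ∧
      IsUnitAt (levelData q A hA hN).g₁ t ∧ IsUnitAt (levelData q A hA hN).g₂ t ∧
      p • (D' : Divisor Qb (𝐅 (q * N))) = divisorOf t ∧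
      Pic0.mk D' = (a ℓ - ((ℓ : ℤ) + 1)) • Pic0.mk D ∧ IsEigenFunAway p S a t := by
  have := FermatAgent.Curve.instHasPrincipalDivisors (K := Qb) (F := 𝐅 (q * N))
  have : NeZero ℓ := ⟨hℓ'.out.ne_zero⟩
  obtain ⟨ζ, hζ⟩ := HasEnoughRootsOfUnity.exists_primitiveRoot Qb ℓ
  have hζu : IsPrimitiveRoot (hζ.isUnit hℓ'.out.ne_zero).unit ℓ :=
    IsPrimitiveRoot.coe_units_iff.mp (by rw [IsUnit.unit_spec]; exact hζ)
  have hT0 : AtP.heckeNorm Qb hℓ f ≠ 0 := by
    rw [← torsion_heckeNorm_eq hℓ]; exact ModCurveTorsion.heckeNorm_ne_zero Qb (q * N) ℓ hf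
  let TD : Divisor.degZero (K := Qb) (F := 𝐅 (q * N)) :=
    ⟨ModCurveTorsion.heckeDiv Qb (q * N) ℓ D,
      ModCurveTorsion.heckeDiv_mem_degZero Qb (q * N) ℓ D.2⟩
  set t := AtP.heckeNorm Qb hℓ f / f ^ (ℓ + 1)
  have ht0 : t ≠ 0 := div_ne_zero hT0 (pow_ne_zero _ hf)
  have htC : t ∈ fixedFun C (q * N) :=
    (fixedFun C _).div_mem (AtP.heckeNorm_mem_fixedFun C hℓ hζu hfC) (pow_mem hfC _)
  have hD : p • ((TD - (ℓ + 1) • D : Divisor.degZero (K := Qb) (F := 𝐅 (q * N))) :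
      Divisor Qb (𝐅 (q * N))) = divisorOf t := by
    have h1 : p • (TD : Divisor Qb (𝐅 (q * N))) = divisorOf (AtP.heckeNorm Qb hℓ f) := by
      show p • ModCurveTorsion.heckeDiv Qb (q * N) ℓ D = _
      rw [← map_nsmul, hfD, ModCurveTorsion.heckeDiv_divisorOf Qb (q * N) ℓ hf,
        torsion_heckeNorm_eq hℓ]
    rw [AddSubgroup.coe_sub, AddSubmonoidClass.coe_nsmul, smul_sub, h1, smul_comm, hfD,
      ← divisorOf_pow]
    ext v
    rw [Finsupp.sub_apply, Curve.divisorOf_apply, Curve.divisorOf_apply, Curve.divisorOf_apply,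
      Curve.ord_div v hT0 (pow_ne_zero _ hf)]
  have hcl : Pic0.mk (TD - (ℓ + 1) • D) = (a ℓ - ((ℓ : ℤ) + 1)) • Pic0.mk D := by
    have h2 := hx.2 ℓ hℓ'.out (hℓ'.out.coprime_iff_not_dvd.mp hℓ) hℓS
    rw [heckeAt_prime _ hℓ'.out] at h2
    replace h2 : heckeOperatorAlong Qb (q * N) ℓ (Pic0.mk D) = a ℓ • Pic0.mk D := h2
    rw [AtP.pic0_mk_sub, AtP.pic0_mk_nsmul,
      ← ModCurveTorsion.heckeOperatorAlong_mk Qb (q * N) ℓ D, h2, sub_smul, ← natCast_zsmul]
    push_cast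
    rfl
  exact ⟨_, t, htC, ht0, isUnitAt_hecke_ratio hA hN hℓ hf, isUnitAt_hecke_ratio₂ hA hN hℓ hf, hD,
    hcl, isEigenFunAway_of_mem_eigenGroup ht0 htC hD (hcl ▸ zsmul_mem hx _)⟩

end FermatAgent.MazurPrinciple.Away

end
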