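import Fermat.Agent.MazurPrinciple.Away.Moving
import Fermat.Agent.MazurPrinciple.ResidualDescend
import Fermat.Agent.MazurPrinciple.InertiaClosed
import Fermat.Agent.MazurPrinciple.LevelLink
import Fermat.Agent.BadRed.AtP.GlobalPow
import Fermat.Agent.BadRed.Carayol.Instance.Final

/-!
# Orders of the reductions at a level with regular nodes

A unit at both components over the inertia field whose divisor is `p` times a divisor has
reductions with orders divisible by `p` on both fibres of a level with regular nodes.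
-/

set_option autoImplicit false

noncomputable section

namespace FermatAgent.MazurPrinciple.Away

open Polynomial AlgebraicCurve ModularCurve IsLocalRing
open FermatAgent.Curve (IsFunctionField1 divisorOf)
open FermatAgent.ModCurveTorsion (galN)
open FermatAgent.BadRed.Semistable FermatAgent.BadRed.Carayol FermatAgent.BadRed.Carayol.Instance
open FermatAgent.BadRed
open FermatAgent.ModFun

local notation "Qb" => AlgebraicClosure ℚ
local notation "𝐅" N:max => laurentBaseChange Qb (modularFunctionFieldFull N)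

attribute [local instance] ModCurveTorsion.isFunctionField1_laurent
attribute [local instance] isAlgClosed_residue

variable {A : ValuationSubring Qb}

/-- The inertia group fixes the functions over the inertia field. -/
theorem galN_smul_of_mem_inertiaField {L : ℕ} [NeZero L] {x : 𝐅 L}
    (hx : x ∈ fixedFun (FermatAgent.MazurPrinciple.inertiaField A) L)
    {σ : AlgebraicClosure ℚ ≃ₐ[ℚ] AlgebraicClosure ℚ} (hσ : σ ∈ A.inertiaSubgroupIn ℚ) :
    galN L σ • x = x :=
  hx σ ((IntermediateField.mem_fixingSubgroup_iff _ _).mpr fun _ hy =>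
    FermatAgent.MazurPrinciple.mem_inertiaField.mp hy σ hσ)

/-- A function over the inertia field whose divisor is `n` times a divisor is divisible there. -/
theorem exists_divisibleOn {L n : ℕ} [NeZero L] (hn : n ≠ 0)
    {D : Divisor.degZero (K := Qb) (F := 𝐅 L)} {t : 𝐅 L}
    (htC : t ∈ fixedFun (FermatAgent.MazurPrinciple.inertiaField A) L) (ht : t ≠ 0)
    (hD : n • (D : Divisor Qb (𝐅 L)) = divisorOf t) :
    ∃ f : LevelField (inertiaField A) L, fromInertia A L f = t ∧
      DivisibleOn (inertiaField A) f n := by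
  have := FermatAgent.Curve.instHasPrincipalDivisors (K := Qb) (F := 𝐅 L)
  have hDfix : ∀ σ ∈ A.inertiaSubgroupIn ℚ, galN L σ • (D : Divisor Qb (𝐅 L)) = D := fun σ hσ => by
    have h : n • (galN L σ • (D : Divisor Qb (𝐅 L))) = n • (D : Divisor Qb (𝐅 L)) := by
      rw [smul_comm, hD, ModCurveTorsion.smul_divisorOf, galN_smul_of_mem_inertiaField htC hσ]
    exact Finsupp.ext fun v => by
      have := DFunLike.congr_fun h v
      simp only [Finsupp.smul_apply, nsmul_eq_mul] at this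
      exact mul_left_cancel₀ (Nat.cast_ne_zero.mpr hn) this
  have hnx : n • (Pic0.mk D : JZero L) = 0 := by
    rw [← AtP.pic0_mk_nsmul]
    exact (QuotientAddGroup.eq_zero_iff _).mpr (AddSubgroup.mem_addSubgroupOf.mpr
      ⟨t, ht, fun v => by rw [← Curve.divisorOf_apply, ← hD]; rfl⟩)
  have hfix : ∀ σ ∈ A.inertiaSubgroupIn ℚ, σ • (Pic0.mk D : JZero L) = Pic0.mk D := fun σ hσ => by
    rw [galois_smul_pic0_def, SemilinearAut.pic0_smul_mk]
    exact congrArg Pic0.mk (Subtype.ext (hDfix σ hσ))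
  obtain ⟨D', s, hD's, hD'fix, hs0, hsD, hdiv⟩ :=
    exists_function_of_fixed_torsion A L (Pic0.mk D) hnx hfix
  -- the two functions differ by a power
  obtain ⟨G₀, hG₀, hGD₀⟩ := AddSubgroup.mem_addSubgroupOf.mp
    (QuotientAddGroup.eq.mp (show (Pic0.mk D' : JZero L) = Pic0.mk D from hD's))
  obtain ⟨G, hG, hGD, hGfix⟩ := exists_fixed_fun A L
    (D := ((-D' + D : Divisor.degZero (K := Qb) (F := 𝐅 L)) : Divisor Qb (𝐅 L)))
    (fun σ hσ => by
      rw [AddSubgroup.coe_add, AddSubgroup.coe_neg, smul_add, smul_neg, hD'fix σ hσ, hDfix σ hσ])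
    hG₀ (Finsupp.ext hGD₀)
  obtain ⟨g, hg⟩ := mem_range_fromInertia A L hGfix
  obtain ⟨t', ht'⟩ := mem_range_fromInertia A L
    fun σ hσ => galN_smul_of_mem_inertiaField htC hσ
  have hg0 : g ≠ 0 := fun e => hG (by rw [← hg, e, map_zero])
  have ht'0 : t' ≠ 0 := fun e => ht (by rw [← ht', e, map_zero])
  obtain ⟨c, hc⟩ : ∃ c : Qb, algebraMap Qb (𝐅 L) c = fromInertia A L (t' / (s * g ^ n)) := by
    refine Curve.forall_ord_eq_zero_iff.mp fun v => ?_
    have e1 := DFunLike.congr_fun hD v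
    have e2 := DFunLike.congr_fun hsD v
    have e3 := DFunLike.congr_fun hGD v
    have hs' : fromInertia A L s ≠ 0 := (_root_.map_ne_zero _).mpr hs0
    simp only [AddSubgroup.coe_add, AddSubgroup.coe_neg, Finsupp.add_apply, Finsupp.neg_apply,
      Finsupp.smul_apply, nsmul_eq_mul, Curve.divisorOf_apply] at e1 e2 e3
    rw [map_div₀, map_mul, map_pow, ht', hg, Curve.ord_div v ht (mul_ne_zero hs' (pow_ne_zero _ hG)),
      v.ord_mul hs' (pow_ne_zero _ hG), Curve.ord_pow', ← e1, ← e2, ← e3]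
    ring
  refine ⟨t', ht', fun V hV => ?_⟩
  obtain ⟨g₁, hg₁⟩ := hdiv V hV
  have hu : ∀ x : LevelField (inertiaField A) L, (∃ a : inertiaField A, a ≠ 0 ∧
      algebraMap _ _ a = x) → V.valuation x = 1 := by
    rintro _ ⟨a, ha, rfl⟩
    refine le_antisymm ((V.valuation_le_one_iff _).mpr (hV a)) ?_
    have h1 := (V.valuation_le_one_iff _).mpr (hV a⁻¹)
    rwa [map_inv₀, map_inv₀, inv_le_one₀ (zero_lt_iff.mpr
      ((_root_.map_ne_zero _).mpr ((_root_.map_ne_zero _).mpr ha)))] at h1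
  have hcfix : c ∈ inertiaField A := by
    rw [← algebraMap_mem_fixedFun (M := L), hc]
    refine fun σ hσ => Subtype.ext ?_
    rw [ModCurveTorsion.coe_galN_smul, coe_fromInertia, coeffMap_coeffMap]
    exact coeffMap_congr (RingHom.ext fun a =>
      (IntermediateField.mem_fixingSubgroup_iff _ _).mp hσ _ a.2) _
  have he : t' / (s * g ^ n) = algebraMap (inertiaField A) _ ⟨c, hcfix⟩ :=
    fromInertia_injective A L (by rw [← hc, fromInertia_algebraMap])
  have hc0 : (⟨c, hcfix⟩ : inertiaField A) ≠ 0 := fun e => by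
    rw [e, map_zero, div_eq_zero_iff] at he
    exact he.elim ht'0 (mul_ne_zero hs0 (pow_ne_zero _ hg0))
  refine ⟨g₁ * g, ?_⟩
  rw [div_eq_iff (mul_ne_zero hs0 (pow_ne_zero _ hg0))] at he
  rw [he, map_mul, hu _ ⟨_, hc0, rfl⟩, one_mul, map_mul, hg₁, map_pow, map_mul, mul_pow]

variable {q : ℕ} [Fact q.Prime] [NeZero q] (hA : A.LiesOverPrime q) {N M : ℕ} [NeZero N] [NeZero M]
  [NeZero (q * N)] [NeZero (q * M)] (hd : N ∣ M) (hN : q.Coprime N) (hM : q.Coprime M)
  [IsFunctionField1 (ResidueField A) (FibField A N)]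
  [IsFunctionField1 (ResidueField A) (FibField A M)]
  (H : Hauptmodul q) (hH : H.IsCoord) {R : ℤ[X]} (hR : IsCuspPoly H R) (hR0 : R.coeff 0 = 0)
  (hc : H.L ∣ M)

include hA hd hN hM hH hR hR0 hc in
/-- **Orders divisible by `p` on both fibres of the auxiliary level.** -/
theorem dvd_ord_fibBase {p : ℕ} [hp : Fact p.Prime]
    {D : Divisor.degZero (K := Qb) (F := 𝐅 (q * N))} {t : 𝐅 (q * N)}
    (htC : t ∈ fixedFun (FermatAgent.MazurPrinciple.inertiaField A) (q * N))
    (hD : p • (D : Divisor Qb (𝐅 (q * N))) = divisorOf t)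
    (h₁ : FermatAgent.MazurPrinciple.IsUnitAt (levelData q A hA hN).g₁ t)
    (h₂ : FermatAgent.MazurPrinciple.IsUnitAt (levelData q A hA hN).g₂ t)
    (Q : Place (ResidueField A) (FibField A M)) :
    (p : ℤ) ∣ Q.ord (fibBase A hd ((levelData q A hA hN).g₁.red ⟨t, h₁.1⟩)) ∧
      (p : ℤ) ∣ Q.ord (fibBase A hd ((levelData q A hA hN).g₂.red ⟨t, h₂.1⟩)) := by
  have := charP_residue_place q A hA
  have : Infinite (ResidueField A) := IsAlgClosed.instInfinite
  have := isDiscreteValuationRing_inertiaRing Fact.out hA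
  have : IsAlgClosed (ResidueField (inertiaRing A)) :=
    isAlgClosed_residue_inertiaRing Fact.out hA
  have hqM : ¬ q ∣ M := (Nat.Prime.coprime_iff_not_dvd Fact.out).mp hM
  set C := levelLink hA hM H hc hqM hR
  set cd := uChartData hqM H hc hR hR0 hA hH (etaleAway_uElt hA hqM H hc hR hR0 hH)
  obtain ⟨f₀, hf₀, hdiv⟩ := exists_divisibleOn hp.out.ne_zero htC h₁.ne_zero hD
  have h2 : q * N ∣ M * q := by rw [mul_comm M]; exact Nat.mul_dvd_mul_left q hd
  set f := levelIncl (inertiaField A) h2 f₀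
  have hf₀0 : f₀ ≠ 0 := fun e => h₁.ne_zero (by rw [← hf₀, e, map_zero])
  have hf0 : f ≠ 0 := (_root_.map_ne_zero _).mpr hf₀0
  have hfdiv : DivisibleOn (inertiaField A) f p := fun V hV => by
    obtain ⟨g, hg⟩ := hdiv (V.comap (levelIncl (inertiaField A) h2).toRingHom) fun c => by
      rw [ValuationSubring.mem_comap]
      exact (levelIncl (inertiaField A) h2).commutes c ▸ hV c
    exact ⟨levelIncl (inertiaField A) h2 g, map_valuation_eq _ V hf₀0 hg⟩
  set u := AtP.upLevel (p := q) hd Qb t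
  have hu : C.hom f = u := Subtype.ext (by
    show ((levelHom A q M f : 𝐅 (q * M)) : LaurentSeries Qb) = _
    rw [coe_levelHom, coe_levelIncl, AtP.coe_upLevel, ← hf₀, coe_fromInertia])
  obtain ⟨hu1, er₁⟩ := exists_red_upLevel hA hd hN hM h₁.1
  have hw1 : atkinLehnerBar hN Qb t ∈ (levelData q A hA hN).g₁.integers := h₂.1
  obtain ⟨hwu, erw⟩ := exists_red_upLevel hA hd hN hM hw1
  obtain ⟨hu2, er₂'⟩ := levelData_red₂ hA hM (x := u)
    (AtP.atkinLehnerBar_upLevel (K := Qb) hN hM hd t) hwu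
  have er₂ : (levelData q A hA hM).g₂.red ⟨u, hu2⟩ =
      fibBase A hd ((levelData q A hA hN).g₂.red ⟨t, h₂.1⟩) := er₂'.trans erw
  have hinj := (fibBase A hd).toRingHom.injective
  have hU₁ : FermatAgent.MazurPrinciple.IsUnitAt (levelData q A hA hM).g₁ u :=
    ⟨hu1, by rw [er₁]; exact (map_ne_zero_iff _ hinj).mpr h₁.2⟩
  have hU₂ : FermatAgent.MazurPrinciple.IsUnitAt (levelData q A hA hM).g₂ u :=
    ⟨hu2, by rw [er₂]; exact (map_ne_zero_iff _ hinj).mpr h₂.2⟩
  have hex : ∀ {g : GaussRed A (residue A) (𝐅 (q * M)) (FibField A M)},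
      FermatAgent.MazurPrinciple.IsUnitAt g u →
      ∃ x : LevelField (inertiaField A) (M * q),
        FermatAgent.MazurPrinciple.IsUnitAt g (C.hom (f / x ^ p)) := fun hg =>
    ⟨1, by rwa [one_pow, div_one, hu]⟩
  obtain ⟨h, hh0, hi, hnodes, -, -, ho₁, ho₂⟩ := exists_good_root C
    (maximalIdeal_inertiaRing Fact.out hA) cd hf0 hp.out.pos hfdiv (hex hU₁) (hex hU₂)
  set r := C.hom (f / h ^ p)
  have key : u = r * C.hom h ^ p := by
    rw [← map_pow, ← map_mul, div_mul_cancel₀ _ (pow_ne_zero p hh0), hu]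
  have hr0 : r ≠ 0 := (_root_.map_ne_zero _).mpr (div_ne_zero hf0 (pow_ne_zero p hh0))
  have fin : ∀ {g : GaussRed A (residue A) (𝐅 (q * M)) (FibField A M)}
      (hg : FermatAgent.MazurPrinciple.IsUnitAt g u)
      (hr : FermatAgent.MazurPrinciple.IsUnitAt g r),
      (p : ℤ) ∣ Q.ord (g.red ⟨r, hr.1⟩) → (p : ℤ) ∣ Q.ord (g.red ⟨u, hg.1⟩) := by
    intro g hg hr hord
    have hhp : FermatAgent.MazurPrinciple.IsUnitAt g (C.hom h ^ p) := by
      have := IsUnitAt.mul hg (hr.inv residue_surjective)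
      rwa [key, mul_comm r, mul_assoc, mul_inv_cancel₀ hr0, mul_one] at this
    obtain ⟨hh, hh'⟩ := AtP.isUnitAt_of_pow residue_surjective hp.out.ne_zero hhp
    rw [show g.red ⟨u, hg.1⟩ = g.red ⟨r, hr.1⟩ * g.red ⟨C.hom h, hh⟩ ^ p by
      rw [← map_pow, ← map_mul]; exact congrArg g.red (Subtype.ext key),
      Q.ord_mul hr.2 (pow_ne_zero _ hh'), Curve.ord_pow']
    exact dvd_add hord (dvd_mul_right _ _)
  rw [← er₁, ← er₂]
  exact ⟨fin hU₁ ⟨hi.1, hnodes.1⟩ (ho₁ Q), fin hU₂ ⟨hi.2, hnodes.2.1⟩ (ho₂ Q)⟩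

end FermatAgent.MazurPrinciple.Away

end
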