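import Fermat.Agent.MazurPrinciple.Away.Final
import Fermat.Agent.MazurPrinciple.Away.HeckeRatio
import Fermat.Agent.MazurPrinciple.Away.NodeOrders
import Fermat.Agent.Wiring.Final.Gaps

/-!
# The toric input from the residual step, and the removal of `q ≢ 1 mod p`

An inertia invariant eigen class has a multiple prime to `p` with a representative that is a unit
on both components; at a level with regular nodes its reductions have orders divisible by `p`, so
they are `p`-th powers when the system is absent at level `N`, and the class is toric.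
-/

set_option autoImplicit false
set_option linter.unusedSectionVars false
set_option maxHeartbeats 800000

noncomputable section

namespace FermatAgent.MazurPrinciple.Away

open Polynomial AlgebraicCurve ModularCurve IsLocalRing
open FermatAgent.Curve (divisorOf IsFunctionField1)
open FermatAgent.BadRed.Semistable FermatAgent.BadRed.Carayol.Instance
open FermatAgent.ModFun FermatAgent.ES

local notation "Qb" => AlgebraicClosure ℚ
local notation "𝐅" N:max => laurentBaseChange Qb (modularFunctionFieldFull N)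

attribute [local instance] ModCurveTorsion.isFunctionField1_laurent
attribute [local instance] isAlgClosed_residue

/-- The level multiplier of the coordinate. -/
def auxLevel (q : ℕ) : ℕ := if q = 2 then 9 else 4

theorem auxLevel_coprime {q : ℕ} (hq : q.Prime) : q.Coprime (auxLevel q) := by
  rw [auxLevel]
  split_ifs with h
  · subst h; norm_num
  · refine hq.coprime_iff_not_dvd.mpr fun h' => h ?_
    exact (Nat.prime_dvd_prime_iff_eq hq Nat.prime_two).mp
      (hq.dvd_of_dvd_pow (show q ∣ 2 ^ 2 from h'))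

variable {q p N M : ℕ} [Fact q.Prime] [hp : Fact p.Prime] [NeZero N] [NeZero M] [NeZero (q * N)]
  [NeZero (q * M)] {A : ValuationSubring Qb} (hA : A.LiesOverPrime q) (hd : N ∣ M)
  (hN : q.Coprime N) (hM : q.Coprime M) [IsFunctionField1 (ResidueField A) (FibField A N)]
  [IsFunctionField1 (ResidueField A) (FibField A M)]

/-- Reductions with orders divisible by `p` at the auxiliary level are `p`-th powers. -/
def ResidualStep (p : ℕ) (S : Set ℕ) (a : ℕ → ℤ) : Prop :=
  ∀ (f : 𝐅 (q * N)), IsEigenFunAway p S a f →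
    ∀ h : IsUnitAt (levelData q A hA hN).g₁ f,
      (∀ Q : Place (ResidueField A) (FibField A N), Q.ord (jFib (ResidueField A) N) < 0 →
        (p : ℤ) ∣ Q.ord ((levelData q A hA hN).g₁.red ⟨f, h.1⟩)) →
      (∀ Q : Place (ResidueField A) (FibField A M),
        (p : ℤ) ∣ Q.ord (fibBase A hd ((levelData q A hA hN).g₁.red ⟨f, h.1⟩))) →
      ∃ ψ, (levelData q A hA hN).g₁.red ⟨f, h.1⟩ = ψ ^ p

include hN in
/-- At the cusps the orders of a unit at both components with divisor `p D` are divisible. -/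
theorem dvd_ord_cusp {t : 𝐅 (q * N)} {D : Divisor Qb (𝐅 (q * N))} (hD : p • D = divisorOf t)
    (h₁ : IsUnitAt (levelData q A hA hN).g₁ t) (h₂ : IsUnitAt (levelData q A hA hN).g₂ t)
    (Q : Place (ResidueField A) (FibField A N)) (hQ : Q.ord (jFib (ResidueField A) N) < 0) :
    (p : ℤ) ∣ Q.ord ((levelData q A hA hN).g₁.red ⟨t, h₁.1⟩) ∧
      (p : ℤ) ∣ Q.ord ((levelData q A hA hN).g₂.red ⟨t, h₂.1⟩) := by
  have := charP_residue_place q A hA
  have : Infinite (ResidueField A) := IsAlgClosed.instInfinite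
  set d := levelData q A hA hN
  have hmap := d.mapDomain_divisorOf ⟨h₁.1, h₂.1⟩ h₁.2 h₂.2
  rw [← hD, ← d.redDiv_apply, map_nsmul] at hmap
  have hz : d.C.z₁ = jFib (ResidueField A) N := level_twist_J hN (placeHom q A hA)
  have hz₂ : d.C.z₂ = jFib (ResidueField A) N ^ q :=
    congrArg (· ^ q) (level_twist_J hN (placeHom q A hA))
  have hx : ∀ i, d.C.x i ≠ Q := fun i e => by
    have h := d.C.x_finite i
    rw [hz, e] at h
    omega
  have hy : ∀ i, d.C.y i ≠ Q := fun i e => by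
    have h := d.C.y_finite i
    rw [hz₂, e, Curve.ord_pow'] at h
    nlinarith [(Fact.out : q.Prime).pos]
  have e1 := DFunLike.congr_fun hmap (.left Q hx)
  have e2 := DFunLike.congr_fun hmap (.right Q hy)
  rw [Glued.secDiv_left, Finsupp.smul_apply, nsmul_eq_mul, Nat.cast_zero, zero_mul, add_zero] at e1
  rw [Glued.secDiv_right, Finsupp.smul_apply, nsmul_eq_mul, Nat.cast_zero, zero_mul, add_zero] at e2
  exact ⟨⟨_, e1.symm⟩, ⟨_, e2.symm⟩⟩

/-- Two roots make a class toric. -/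
def ImageStep (hco : q.Coprime N) [IsFunctionField1 (KRes q) (modularFunctionFieldFullC (KRes q) N)]
    (p : ℕ) : Prop :=
  ∀ (D : Divisor.degZero (K := Qb) (F := 𝐅 (q * N))) (t : 𝐅 (q * N))
    (_ : p • (D : Divisor Qb (𝐅 (q * N))) = divisorOf t)
    (h₁ : IsUnitAt (levelData q (place₀ q) (liesOverPrime_place₀ q) hco).g₁ t)
    (h₂ : IsUnitAt (levelData q (place₀ q) (liesOverPrime_place₀ q) hco).g₂ t),
    (∃ ψ, (levelData q (place₀ q) (liesOverPrime_place₀ q) hco).g₁.red ⟨t, h₁.1⟩ = ψ ^ p) →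
    (∃ ψ, (levelData q (place₀ q) (liesOverPrime_place₀ q) hco).g₂.red ⟨t, h₂.1⟩ = ψ ^ p) →
    haveI := FermatAgent.Curve.instHasPrincipalDivisors (K := Qb) (F := 𝐅 (q * N))
    ∃ c, HasTor q N hco (Pic0.mk D) c

omit hp in
/-- A class some prime-to-`p` multiple of which is toric is toric. -/
theorem exists_hasTor_of_zsmul [Fact p.Prime] {hco : q.Coprime N}
    [IsFunctionField1 (KRes q) (modularFunctionFieldFullC (KRes q) N)] {x : JZero (q * N)}
    (hx : p • x = 0) {b : ℤ} (hb : ¬ (p : ℤ) ∣ b) (h : ∃ c, HasTor q N hco (b • x) c) :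
    ∃ c, HasTor q N hco x c := by
  obtain ⟨c, hc⟩ := h
  obtain ⟨u, v, huv⟩ : IsCoprime b (p : ℤ) :=
    ((Nat.prime_iff_prime_int.mp Fact.out).coprime_iff_not_dvd.mpr hb).symm
  have hux : u • (b • x) = x := by
    rw [smul_smul, show u * b = 1 - v * p by linarith, sub_zsmul, one_zsmul, mul_zsmul,
      natCast_zsmul, hx, zsmul_zero, neg_zero, add_zero]
  rw [← hux]
  obtain ⟨m, rfl | rfl⟩ := u.eq_nat_or_neg
  · exact ⟨_, by rw [natCast_zsmul]; exact hc.nsmul m⟩
  · exact ⟨_, by rw [neg_zsmul, natCast_zsmul]; exact (hc.nsmul m).neg⟩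

variable [IsFunctionField1 (KRes q) (modularFunctionFieldFullC (KRes q) N)]
  [IsFunctionField1 (ResidueField (place₀ q)) (FibField (place₀ q) N)]
  [IsFunctionField1 (ResidueField (place₀ q)) (FibField (place₀ q) M)]
  (H : Hauptmodul q) (hH : H.IsCoord) {R : ℤ[X]} (hR : IsCuspPoly H R) (hR0 : R.coeff 0 = 0)
  (hc : H.L ∣ M) (W : WeierstrassCurve ℤ) (hΔ : (W.map (Int.castRingHom ℚ)).Δ ≠ 0)

include hd hM hH hR hR0 hc hΔ in
/-- **The toric input.** -/
theorem toricInput_of_residualStep {S : Set ℕ} (hS : S.Finite)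
    (hMS : ∀ l : ℕ, l.Prime → l ∣ q * N → l ∈ S) (hirr : W.ModRepIsIrreducible p) (hp2 : p ≠ 2)
    (hres : ResidualStep (M := M) (liesOverPrime_place₀ q) hd hN p S W.apOfModel)
    (himg : ImageStep hN p) : ToricInput hN S W.apOfModel p := by
  intro x hx hfix
  have := FermatAgent.Curve.instHasPrincipalDivisors (K := Qb) (F := 𝐅 (q * N))
  have hA := liesOverPrime_place₀ q
  obtain ⟨D, f, rfl, hfC, hf0, hfD⟩ := exists_inertia_rep (A := place₀ q) hx.1 hfix
  obtain ⟨ℓ, hℓ, hℓS, -, hℓp, -, hℓa⟩ := Ihara.exists_ne_succ W hΔ hp2 hirr hS one_pos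
  have : Fact ℓ.Prime := ⟨hℓ⟩
  have : NeZero (ℓ * (q * N)) := ⟨Nat.mul_ne_zero hℓ.ne_zero (NeZero.ne _)⟩
  have hℓc : ℓ.Coprime (q * N) := hℓ.coprime_iff_not_dvd.mpr fun h => hℓS (hMS ℓ hℓ h)
  obtain ⟨D', t, htC, -, h₁, h₂, htD, hcl, heig⟩ :=
    exists_unit_multiple hA hN hℓc hf0 hfC hfD hx hℓS
  have hord := dvd_ord_fibBase hA hd hN hM H hH hR hR0 hc htC htD h₁ h₂
  have hcusp := dvd_ord_cusp hA hN htD h₁ h₂
  obtain ⟨ψ₁, e₁⟩ := hres t heig h₁ (fun Q hQ => (hcusp Q hQ).1) fun Q => (hord Q).1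
  obtain ⟨ψ₂, e₂⟩ := hres (atkinLehnerBar hN Qb t) (heig.atkinLehner hN) h₂
    (fun Q hQ => (hcusp Q hQ).2) fun Q => (hord Q).2
  refine exists_hasTor_of_zsmul (b := W.apOfModel ℓ - ((ℓ : ℤ) + 1)) hx.1 (fun h => hℓa ?_)
    (hcl ▸ himg D' t htD h₁ h₂ ⟨ψ₁, e₁⟩ ⟨ψ₂, e₂⟩)
  rw [← sub_eq_zero]
  have := (ZMod.intCast_zmod_eq_zero_iff_dvd _ p).mpr h
  simpa using this

omit [Fact q.Prime] hp [NeZero N] [NeZero M] [NeZero (q * N)] [NeZero (q * M)] in
/-- The coordinate at a prime. -/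
theorem exists_coord (hq : q.Prime) :
    ∃ (H : Hauptmodul q) (R : ℤ[X]), H.IsCoord ∧ IsCuspPoly H R ∧ R.coeff 0 = 0 ∧
      H.L ∣ auxLevel q := by
  have : Fact q.Prime := ⟨hq⟩
  by_cases h : q = 2
  · subst h
    exact ⟨hauptmodul9 2 rfl, _, hauptmodul9_isCoord 2 rfl, hauptmodul9_isCuspPoly rfl, by simp,
      dvd_rfl⟩
  · have hodd : ¬ 2 ∣ q := fun h' => h ((Nat.prime_dvd_prime_iff_eq Nat.prime_two hq).mp h').symm
    exact ⟨hauptmodul4 q hodd, _, hauptmodul4_isCoord q hodd, hauptmodul4_isCuspPoly hodd, by simp,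
      by rw [auxLevel, if_neg h]; exact dvd_rfl⟩

end FermatAgent.MazurPrinciple.Away

namespace FermatAgent.MazurPrinciple.Away

open FermatAgent.BadRed.Semistable

/-- The two steps for every system and level. -/
def AwaySteps : Prop :=
  ∀ (W : WeierstrassCurve ℤ) (p : ℕ) [Fact p.Prime], p ≠ 2 → W.Δ ≠ 0 → W.IsSemistableModel →
    W.ModRepIsIrreducible p → ∀ (q N : ℕ) [Fact q.Prime] [NeZero N] [NeZero (q * N)]
      (hN : q.Coprime N)
      [Curve.IsFunctionField1 (KRes q) (ModularCurve.modularFunctionFieldFullC (KRes q) N)],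
      q ≠ p → Squarefree (q * N) →
    ¬ HasCongruentForm W.apOfModel p N (badSet W p (q * N)) →
      (∀ [Curve.IsFunctionField1 (IsLocalRing.ResidueField (place₀ q))
            (FibField (place₀ q) (Nat.lcm (auxLevel q) N))] [NeZero (Nat.lcm (auxLevel q) N)]
          [NeZero (q * Nat.lcm (auxLevel q) N)],
        ResidualStep (M := Nat.lcm (auxLevel q) N) (liesOverPrime_place₀ q)
          (Nat.dvd_lcm_right _ N) hN p (badSet W p (q * N)) W.apOfModel) ∧
      ImageStep hN p

/-- **Removing `q ≢ 1 mod p` from the level.** -/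
theorem qLoweringNe_of_steps (h : AwaySteps) : Wiring.Final.QLoweringNe := by
  intro W p hp hp2 hW hss hirr M q hM hq hqp hq1 hqM hunr hres
  have : Fact q.Prime := ⟨hq⟩
  obtain ⟨N, rfl⟩ := hqM
  rw [Nat.mul_div_cancel_left N hq.pos]
  have hN0 : N ≠ 0 := (Nat.mul_ne_zero_iff.mp hM.ne_zero).2
  have : NeZero N := ⟨hN0⟩
  have : NeZero (q * N) := ⟨hM.ne_zero⟩
  have hco : q.Coprime N := Nat.coprime_of_squarefree_mul hM
  have hΔ : (W.map (Int.castRingHom ℚ)).Δ ≠ 0 := by
    rw [WeierstrassCurve.map_Δ]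
    exact (map_ne_zero_iff _ Int.cast_injective).mpr hW
  refine isResiduallyModularOfLevel_of_toricInput W hΔ hirr hp2 hco (Ne.symm hqp) hq1 hunr
    (fun {_} hno => ?_) hres
  obtain ⟨hres', himg⟩ := h W p hp2 hW hss hirr q N hco hqp hM hno
  set L := Nat.lcm (auxLevel q) N
  have hL0 : NeZero L := ⟨Nat.lcm_ne_zero (by rw [auxLevel]; split_ifs <;> norm_num) hN0⟩
  have : NeZero (q * L) := ⟨Nat.mul_ne_zero hq.ne_zero (NeZero.ne L)⟩
  have hML : q.Coprime L := hq.coprime_iff_not_dvd.mpr fun h' => by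
    rcases hq.dvd_mul.mp (h'.trans (Nat.lcm_dvd_mul _ N)) with h'' | h''
    · exact hq.coprime_iff_not_dvd.mp (auxLevel_coprime hq) h''
    · exact hq.coprime_iff_not_dvd.mp hco h''
  have := isFunctionField1_fib q (place₀ q) (liesOverPrime_place₀ q) hML
  have := isFunctionField1_fib q (place₀ q) (liesOverPrime_place₀ q) hco
  obtain ⟨H, R, hH, hR, hR0, hHL⟩ := exists_coord (q := q) hq
  exact toricInput_of_residualStep (Nat.dvd_lcm_right _ N) hco hML H hH hR hR0
    (hHL.trans (Nat.dvd_lcm_left _ N)) W hΔ (finite_badSet W hW _ _)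
    (fun l => mem_badSet_of_dvd W) hirr hp2 hres' himg

end FermatAgent.MazurPrinciple.Away

end
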