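import Fermat.Agent.MazurPrinciple.ResidualDescend
import Fermat.Agent.MazurPrinciple.InertiaClosed
import Fermat.Agent.BadRed.AtP.HeckeComm

/-!
# Eigen functions of level `q N` for an exponent prime to the residue characteristic

An inertia invariant eigen class of order `p` has a representative over the inertia field whose
norm under `T ℓ` is a constant times its `a ℓ`-th power times a `p`-th power, all over that field.
-/

set_option autoImplicit false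
set_option linter.unusedSectionVars false
set_option maxHeartbeats 800000

noncomputable section

namespace FermatAgent.MazurPrinciple.Away

open AlgebraicCurve ModularCurve
open FermatAgent.Curve (divisorOf IsFunctionField1)
open FermatAgent.ModCurveTorsion (galN)
open FermatAgent.BadRed
open FermatAgent.ModFun FermatAgent.ES

local notation "Qb" => AlgebraicClosure ℚ
local notation "GQ" => AlgebraicClosure ℚ ≃ₐ[ℚ] AlgebraicClosure ℚ
local notation "𝐅" N:max => laurentBaseChange Qb (modularFunctionFieldFull N)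

attribute [local instance] ModCurveTorsion.isFunctionField1_laurent

variable {q p N : ℕ} [Fact q.Prime] [hp : Fact p.Prime] [NeZero N] [NeZero (q * N)]

/-- An eigen function of level `q N`: `T ℓ f = c f ^ (a ℓ) g ^ p` outside `S`. -/
def IsEigenFunAway (p : ℕ) (S : Set ℕ) (a : ℕ → ℤ) (f : 𝐅 (q * N)) : Prop :=
  ∀ (ℓ : ℕ) [Fact ℓ.Prime] [NeZero (ℓ * (q * N))] (hℓ : ℓ.Coprime (q * N)), ℓ ∉ S →
    ∃ (c : Qb) (g : 𝐅 (q * N)), AtP.heckeNorm Qb hℓ f = c • (f ^ a ℓ * g ^ p)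

variable {S : Set ℕ} {a : ℕ → ℤ}

theorem IsEigenFunAway.atkinLehner (hN : q.Coprime N) {f : 𝐅 (q * N)}
    (hf : IsEigenFunAway p S a f) : IsEigenFunAway p S a (atkinLehnerBar hN Qb f) := by
  intro ℓ hℓ' _ hℓ hℓS
  obtain ⟨c, g, e⟩ := hf ℓ hℓ hℓS
  have : NeZero (ℓ * N) := ⟨Nat.mul_ne_zero hℓ'.out.ne_zero (NeZero.ne N)⟩
  have : NeZero (q * (ℓ * N)) := ⟨Nat.mul_ne_zero (Fact.out : q.Prime).ne_zero (NeZero.ne _)⟩
  have hql : q.Coprime (ℓ * N) :=
    Nat.Coprime.mul_right (Nat.Coprime.coprime_mul_right_right hℓ).symm hN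
  refine ⟨c, atkinLehnerBar hN Qb g, ?_⟩
  rw [AtP.heckeNorm_atkinLehnerBar hN hql hℓ, e, Algebra.smul_def, map_mul, AlgEquiv.commutes,
    map_mul, map_zpow₀, map_pow, ← Algebra.smul_def]

/-- The eigen relation of a representative, over the field of constants. -/
theorem exists_heckeNorm_eq {C : IntermediateField ℚ Qb}
    {D : Divisor.degZero (K := Qb) (F := 𝐅 (q * N))} {f : 𝐅 (q * N)} (hf : f ≠ 0)
    (hfC : f ∈ fixedFun C (q * N))
    (hfD : p • (D : Divisor Qb (𝐅 (q * N))) = divisorOf f)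
    (hx : Pic0.mk D ∈ eigenGroup (q * N) S a p) {ℓ : ℕ} [hℓ' : Fact ℓ.Prime]
    [NeZero (ℓ * (q * N))] (hℓ : ℓ.Coprime (q * N)) (hℓS : ℓ ∉ S) :
    ∃ c ∈ C, ∃ g ∈ fixedFun C (q * N), c ≠ 0 ∧ g ≠ 0 ∧
      AtP.heckeNorm Qb hℓ f = c • (f ^ a ℓ * g ^ p) := by
  have := FermatAgent.Curve.instHasPrincipalDivisors (K := Qb) (F := 𝐅 (q * N))
  have : NeZero ℓ := ⟨hℓ'.out.ne_zero⟩
  have h2 := hx.2 ℓ hℓ'.out (hℓ'.out.coprime_iff_not_dvd.mp hℓ) hℓS
  rw [heckeAt_prime _ hℓ'.out] at h2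
  replace h2 : heckeOperatorAlong Qb (q * N) ℓ (Pic0.mk D) = a ℓ • Pic0.mk D := h2
  rw [ModCurveTorsion.heckeOperatorAlong_mk] at h2
  have h3 : Pic0.mk ((⟨_, ModCurveTorsion.heckeDiv_mem_degZero Qb (q * N) ℓ D.2⟩ :
      Divisor.degZero (K := Qb) (F := 𝐅 (q * N))) - a ℓ • D) = 0 := by
    rw [AtP.pic0_mk_sub, h2, sub_eq_zero]
    exact (map_zsmul (QuotientAddGroup.mk' _) (a ℓ) D).symm
  obtain ⟨g₀, hg₀, hgD₀⟩ :=
    AddSubgroup.mem_addSubgroupOf.mp ((QuotientAddGroup.eq_zero_iff _).mp h3)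
  have hDfix : ∀ σ ∈ C.fixingSubgroup,
      galN (q * N) σ • (D : Divisor Qb (𝐅 (q * N))) = D := fun σ hσ =>
    galN_smul_eq_of_nsmul hp.out.ne_zero hfD hfC hσ
  obtain ⟨g, hg, hgD, hgC⟩ := Carayol.exists_fixed_fun_of (q * N) (C.fixingSubgroup : Set GQ)
    (D := ModCurveTorsion.heckeDiv Qb (q * N) ℓ D - a ℓ • (D : Divisor Qb (𝐅 (q * N))))
    (fun σ hσ => by
      rw [smul_sub, ModCurveTorsion.galN_heckeDiv, hDfix σ hσ,
        smul_comm (galN (q * N) σ) (a ℓ), hDfix σ hσ]) hg₀ (Finsupp.ext hgD₀)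
  replace hgC : g ∈ fixedFun C (q * N) := mem_fixedFun.mpr hgC
  have hT0 : AtP.heckeNorm Qb hℓ f ≠ 0 := by
    rw [← torsion_heckeNorm_eq hℓ]; exact ModCurveTorsion.heckeNorm_ne_zero Qb (q * N) ℓ hf
  have hTdiv : p • ModCurveTorsion.heckeDiv Qb (q * N) ℓ D =
      divisorOf (AtP.heckeNorm Qb hℓ f) := by
    rw [← map_nsmul, hfD, ModCurveTorsion.heckeDiv_divisorOf Qb (q * N) ℓ hf,
      torsion_heckeNorm_eq hℓ]
  have hfg : f ^ a ℓ * g ^ p ≠ 0 := mul_ne_zero (zpow_ne_zero _ hf) (pow_ne_zero _ hg)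
  obtain ⟨c, hc⟩ := AtP.exists_eq_smul_of_divisorOf_eq (K := Qb) hT0 hfg (Finsupp.ext fun v => by
    have e1 := DFunLike.congr_fun hgD v
    have e2 := DFunLike.congr_fun hTdiv v
    have e3 := DFunLike.congr_fun hfD v
    simp only [Finsupp.sub_apply, Finsupp.smul_apply,
      smul_eq_mul, nsmul_eq_mul, Curve.divisorOf_apply] at e1 e2 e3
    rw [Curve.divisorOf_apply, Curve.divisorOf_apply,
      v.ord_mul (zpow_ne_zero _ hf) (pow_ne_zero _ hg), v.ord_zpow, Curve.ord_pow', ← e1, ← e2,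
      ← e3]
    ring)
  have hc0 : c ≠ 0 := fun e => hT0 (by rw [hc, e, zero_smul])
  obtain ⟨ζ, hζ⟩ := HasEnoughRootsOfUnity.exists_primitiveRoot Qb ℓ
  have hζu : IsPrimitiveRoot (hζ.isUnit hℓ'.out.ne_zero).unit ℓ :=
    IsPrimitiveRoot.coe_units_iff.mp (by rw [IsUnit.unit_spec]; exact hζ)
  have hcC : algebraMap Qb (𝐅 (q * N)) c ∈ fixedFun C (q * N) := by
    have e : algebraMap Qb (𝐅 (q * N)) c = AtP.heckeNorm Qb hℓ f / (f ^ a ℓ * g ^ p) := by
      rw [hc, Algebra.smul_def, mul_div_cancel_right₀ _ hfg]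
    rw [e]
    exact (fixedFun C _).div_mem (AtP.heckeNorm_mem_fixedFun C hℓ hζu hfC)
      (mul_mem (zpow_mem hfC _) (pow_mem hgC _))
  exact ⟨c, algebraMap_mem_fixedFun.mp hcC, g, hgC, hc0, hg, hc⟩

theorem isEigenFunAway_of_mem_eigenGroup {C : IntermediateField ℚ Qb}
    {D : Divisor.degZero (K := Qb) (F := 𝐅 (q * N))} {f : 𝐅 (q * N)} (hf : f ≠ 0)
    (hfC : f ∈ fixedFun C (q * N))
    (hfD : p • (D : Divisor Qb (𝐅 (q * N))) = divisorOf f)
    (hx : Pic0.mk D ∈ eigenGroup (q * N) S a p) : IsEigenFunAway p S a f := by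
  intro ℓ _ _ hℓ hℓS
  obtain ⟨c, -, g, -, -, -, h⟩ := exists_heckeNorm_eq hf hfC hfD hx hℓ hℓS
  exact ⟨c, g, h⟩

variable {A : ValuationSubring Qb}

/-- An inertia invariant class of order `p` has a representative over the inertia field. -/
theorem exists_inertia_rep {x : JZero (q * N)} (hpx : p • x = 0)
    (hfix : ∀ σ ∈ A.inertiaSubgroupIn ℚ, σ • x = x) :
    ∃ (D : Divisor.degZero (K := Qb) (F := 𝐅 (q * N))) (f : 𝐅 (q * N)), Pic0.mk D = x ∧
      f ∈ fixedFun (inertiaField A) (q * N) ∧ f ≠ 0 ∧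
      p • (D : Divisor Qb (𝐅 (q * N))) = divisorOf f := by
  have := FermatAgent.Curve.instHasPrincipalDivisors (K := Qb) (F := 𝐅 (q * N))
  have hfix' : ∀ σ ∈ (inertiaField A).fixingSubgroup, σ • x = x := fun σ hσ =>
    hfix σ (mem_inertia_of_fixes ((IntermediateField.mem_fixingSubgroup_iff _ _).mp hσ))
  obtain ⟨D, hDx, hD⟩ := Carayol.exists_fixed_divisor_of (q * N)
    ((inertiaField A).fixingSubgroup : Set GQ) x hfix'
  subst hDx
  rw [← AtP.pic0_mk_nsmul] at hpx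
  obtain ⟨f, hf, hfD⟩ :=
    AddSubgroup.mem_addSubgroupOf.mp ((QuotientAddGroup.eq_zero_iff _).mp hpx)
  obtain ⟨g, hg, hgD, hgfix⟩ := Carayol.exists_fixed_fun_of (q * N)
    ((inertiaField A).fixingSubgroup : Set GQ)
    (D := p • (D : Divisor Qb (𝐅 (q * N)))) (fun σ hσ => by rw [smul_comm, hD σ hσ]) hf
    (Finsupp.ext hfD)
  exact ⟨D, g, rfl, hgfix, hg, hgD⟩

end FermatAgent.MazurPrinciple.Away

end
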