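import Fermat.Agent.MazurPrinciple.Away.SwapLevel
import Fermat.Agent.MazurPrinciple.InertiaDet

/-!
# No unramified plane is toric when `q ≢ 1 mod p`

If every inertia invariant eigen class of level `q N'` is toric at `q`, Frobenius acts on the plane
of `E[p]` as `∓ q` on the two eigen parts of Atkin-Lehner; its determinant is `q`, so `q = q²`.
-/

set_option autoImplicit false

noncomputable section

open ModularCurve AlgebraicCurve Matrix

namespace FermatAgent.MazurPrinciple.Away

open FermatAgent.Curve FermatAgent.Curve.RR FermatAgent.BadRed.Semistable FermatAgent.ModCurveTorsion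
open FermatAgent.Ihara (torMat span_torMat)

local notation "Qb" => AlgebraicClosure ℚ
local notation "GQ" => AlgebraicClosure ℚ ≃ₐ[ℚ] AlgebraicClosure ℚ

section Scalar

variable {M : ℕ} [NeZero M] {S : Set ℕ} {p : ℕ} [Fact p.Prime] (W : WeierstrassCurve ℤ)
  (hΔ : (W.map (Int.castRingHom ℚ)).Δ ≠ 0) (hirr : W.ModRepIsIrreducible p) (hS : S.Finite)
  (hgood : ∀ l, l.Prime → l ∉ S → W.IsGoodPrimeFor l)

include hirr hS hgood in
/-- An element acting as a scalar on a stable part of the plane has its square as determinant. -/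
theorem det_eq_sq_of_scalar (hp2 : p ≠ 2) (Q : Submodule (ZMod p) (eigenGroup M S W.apOfModel p))
    (hQ : ∀ g : GQ, ∀ y ∈ Q, galOn g y ∈ Q) {x : eigenGroup M S W.apOfModel p} (hx : x ∈ Q)
    (hxne : x ≠ 0) {σ₀ : GQ} {w : ZMod p} (_hw0 : w ≠ 0)
    (hσ₀ : ∀ y ∈ Q, galOn σ₀ y = w • y) : (torMat W (p := p) hΔ σ₀).det = w ^ 2 := by
  by_contra hw1
  set A := torMat W (p := p) hΔ
  have hdet : ∀ g, (A g).det ≠ 0 := fun g => by
    exact left_ne_zero_of_mul_eq_one (b := (A g⁻¹).det)
      (by rw [← Matrix.det_mul, ← map_mul A, mul_inv_cancel, map_one A, Matrix.det_one])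
  have hq := fun g y => LinearMap.congr_fun (galOn_quad (M := M) (p := p) W hΔ hirr hS hgood g) y
  have hscal : ∀ g, ∃ c : ZMod p, ∀ y ∈ Q, galOn g y = c • y := fun g => by
    have key : ∀ y ∈ Q, (w * (w * (A g).trace - (A (g * σ₀)).trace)) • galOn g y =
        ((A g).det * (w ^ 2 - (A σ₀).det)) • y := by
      intro y hy
      have hy' := hQ g y hy
      have hgg := hq (g * σ₀) y
      have hg := hq g y
      simp only [LinearMap.add_apply, LinearMap.sub_apply, Module.End.mul_apply,
        LinearMap.smul_apply, Module.End.one_apply, LinearMap.zero_apply] at hg hgg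
      rw [show (A (g * σ₀)).det = (A g).det * (A σ₀).det by rw [map_mul, Matrix.det_mul],
        map_mul galOn, Module.End.mul_apply, Module.End.mul_apply, hσ₀ y hy] at hgg
      simp only [map_smul] at hgg
      rw [hσ₀ _ hy'] at hgg
      simp only [map_smul, smul_smul] at hgg
      linear_combination (norm := module) hgg - (w ^ 2) • hg
    have hc : w * (w * (A g).trace - (A (g * σ₀)).trace) ≠ 0 := fun h => by
      have := key x hx
      rw [h] at this
      have := smul_eq_zero.mp (this.symm.trans (zero_smul (ZMod p) (galOn g x)))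
      exact this.elim (mul_ne_zero (hdet g) (sub_ne_zero.mpr fun e => hw1 e.symm)) hxne
    exact ⟨(w * (w * (A g).trace - (A (g * σ₀)).trace))⁻¹ *
      ((A g).det * (w ^ 2 - (A σ₀).det)), fun y hy => by
        rw [mul_smul, ← key y hy, inv_smul_smul₀ hc]⟩
  choose c hc using hscal
  have huniq : ∀ {r s : ZMod p}, r • x = s • x → r = s := fun h =>
    smul_left_injective (ZMod p) hxne h
  have hc1 : c 1 = 1 := huniq (by rw [← hc 1 x hx, map_one, Module.End.one_apply, one_smul])
  have hcmul : ∀ g k, c (g * k) = c g * c k := fun g k => huniq (by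
    rw [← hc _ x hx, map_mul, Module.End.mul_apply, hc k x hx, map_smul, hc g x hx, smul_smul,
      mul_comm])
  have htr : ∀ g, (A g).trace = c g + (A g).det * c g⁻¹ := fun g => by
    have hg := hq g x
    simp only [LinearMap.add_apply, LinearMap.sub_apply, Module.End.mul_apply, LinearMap.smul_apply,
      Module.End.one_apply, LinearMap.zero_apply] at hg
    rw [hc g x hx, map_smul, hc g x hx, smul_smul, smul_smul, ← sub_smul, ← add_smul,
      smul_eq_zero] at hg
    have h := hg.resolve_right hxne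
    have hinv : c g * c g⁻¹ = 1 := by rw [← hcmul, mul_inv_cancel, hc1]
    linear_combination (-(c g⁻¹)) * h + (c g - (A g).trace) * hinv
  let B : GQ →* Matrix (Fin 2) (Fin 2) (ZMod p) :=
    { toFun := fun g => Matrix.diagonal ![c g, (A g).det * c g⁻¹]
      map_one' := by
        rw [map_one, Matrix.det_one, inv_one, hc1, ← Matrix.diagonal_one]
        congr 1; ext i; fin_cases i <;> simp
      map_mul' := fun g k => by
        rw [Matrix.diagonal_mul_diagonal, map_mul, Matrix.det_mul, hcmul, _root_.mul_inv_rev, hcmul]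
        congr 1; ext i; fin_cases i <;> simp; ring }
  obtain ⟨P, hP, hPA⟩ := GalRep.exists_conj_of_trace_eq A B (span_torMat W hΔ hp2 hirr) fun g => by
    rw [htr g]
    simp [B]
  refine Ihara.not_commute_all A (span_torMat W hΔ hp2 hirr) fun g k => hP.mul_left_cancel ?_
  rw [← mul_assoc, hPA, mul_assoc, hPA, ← mul_assoc P, hPA, mul_assoc, hPA, ← mul_assoc,
    ← mul_assoc, show B g * B k = B k * B g from by
      show Matrix.diagonal _ * Matrix.diagonal _ = Matrix.diagonal _ * Matrix.diagonal _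
      simp [Matrix.diagonal_mul_diagonal, mul_comm]]

end Scalar

section Main

attribute [local instance] neZero_prime charZero_of_algebraRat isFunctionField1_laurent isAlgClosed_kRes charP_kRes

variable {q : ℕ} [Fact q.Prime] {N' : ℕ} [NeZero N'] (hco : q.Coprime N') [NeZero (q * N')]
  [IsFunctionField1 (KRes q) (modularFunctionFieldFullC (KRes q) N')]
  {S : Set ℕ} {p : ℕ} [Fact p.Prime]

/-- Every eigen class fixed by inertia is toric. -/
def ToricInput (S : Set ℕ) (a : ℕ → ℤ) (p : ℕ) : Prop :=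
  ∀ x ∈ eigenGroup (q * N') S a p,
    (∀ σ ∈ (place₀ q).inertiaSubgroupIn ℚ, σ • x = x) → ∃ c, HasTor q N' hco x c

variable (W : WeierstrassCurve ℤ) (hΔ : (W.map (Int.castRingHom ℚ)).Δ ≠ 0)

/-- The determinant of Frobenius. -/
theorem det_torMat_frobenius (hirr : W.ModRepIsIrreducible p) (hpq : p ≠ q) {σ : GQ}
    (hσ : (place₀ q).IsFrobeniusAt σ q) : (torMat W (p := p) hΔ σ).det = (q : ZMod p) := by
  have : NeZero p := ⟨(Fact.out : p.Prime).ne_zero⟩
  obtain ⟨ζ, hζ⟩ := TW.exists_primitiveRoot_qbar p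
  rw [det_torMat W hΔ hirr, TW.cycloChar_eq_of_apply hζ
    (Ihara.frobenius_root_of_unity (Fact.out : p.Prime).ne_zero
      ((Nat.coprime_primes Fact.out Fact.out).mpr hpq.symm) (liesOverPrime_place₀ q) hσ
      hζ.pow_eq_one)]

/-- **An unramified toric plane forces `q ≡ 1 mod p`.** -/
theorem false_of_toricInput (hirr : W.ModRepIsIrreducible p) (hp2 : p ≠ 2) (hpq : p ≠ q)
    (hq1 : q % p ≠ 1) (hS : S.Finite) (hMS : ∀ l : ℕ, l.Prime → l ∣ q * N' → l ∈ S)
    (hpS : p ∈ S) (hgood : ∀ l, l.Prime → l ∉ S → W.IsGoodPrimeFor l)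
    (hcong : HasCongruentForm W.apOfModel p (q * N') S)
    (hunr : ∀ σ ∈ (place₀ q).inertiaSubgroupIn ℚ, torMat W (p := p) hΔ σ = 1)
    (htor : ToricInput hco S W.apOfModel p) : False := by
  obtain ⟨x₁, hx₁, hx₁0⟩ := exists_mem_eigenGroup_ne_zero hMS hcong
  obtain ⟨x, hx, hxne⟩ := exists_mem_planeGroup_ne_zero W hΔ hirr hS hgood
    (x₀ := ⟨x₁, hx₁⟩) fun e => hx₁0 (congrArg Subtype.val e)
  obtain ⟨σ, hσ⟩ := RT.exists_isFrobeniusAt (Fact.out : q.Prime) (liesOverPrime_place₀ q)
  have hqp : (q : ZMod p) ≠ 0 := fun e => hpq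
    ((Nat.prime_dvd_prime_iff_eq Fact.out Fact.out).mp ((ZMod.natCast_eq_zero_iff q p).mp e))
  let w : eigenGroup (q * N') S W.apOfModel p →ₗ[ZMod p] eigenGroup (q * N') S W.apOfModel p :=
    AddMonoidHom.toZModLinearMap p
      { toFun := fun y => ⟨alJ hco y, map_mem_eigenGroup (alJ hco) (galois_smul_alJ hco) hMS hpS y.2⟩
        map_zero' := Subtype.ext (map_zero (alJ hco))
        map_add' := fun y z => Subtype.ext (map_add (alJ hco) _ _) }
  have hw : ∀ g y, galOn g (w y) = w (galOn g y) := fun g y =>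
    Subtype.ext (galois_smul_alJ hco g y)
  have hww : ∀ y, w (w y) = y := fun y => Subtype.ext (alJ_alJ hco y)
  have hfrob : ∀ y ∈ planeGroup (M := q * N') (S := S) (p := p) W hΔ,
      galOn σ y = -(q : ZMod p) • w y := fun y hy => Subtype.ext (by
    obtain ⟨c, hc⟩ := htor y y.2 fun g hg => by
      rw [← coe_galOn]
      exact congrArg Subtype.val (hy g (hunr g hg))
    rw [coe_galOn, neg_smul, Nat.cast_smul_eq_nsmul]
    exact frobenius_smul_eq ((Nat.coprime_primes Fact.out Fact.out).mpr hpq) hσ y.2.1 hc)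
  have hmem : ∀ y ∈ planeGroup (M := q * N') (S := S) (p := p) W hΔ,
      w y ∈ planeGroup (M := q * N') (S := S) (p := p) W hΔ := fun y hy g hg => by
    rw [hw, hy g hg]
  have hε : ∃ ε : ZMod p, ε ^ 2 = 1 ∧ ∃ y ∈ planeGroup (M := q * N') (S := S) (p := p) W hΔ,
      y ≠ 0 ∧ w y = ε • y := by
    by_cases h : w x + x = 0
    · exact ⟨-1, by ring, x, hx, hxne, by rw [neg_one_smul, eq_neg_of_add_eq_zero_left h]⟩
    · exact ⟨1, one_pow 2, w x + x, add_mem (hmem x hx) hx, h, by
        rw [map_add, hww, one_smul, add_comm]⟩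
  obtain ⟨ε, hε2, y, hy, hyne, hwy⟩ := hε
  let Q : Submodule (ZMod p) (eigenGroup (q * N') S W.apOfModel p) :=
    planeGroup W hΔ ⊓ LinearMap.ker (w - ε • 1)
  have hQmem : ∀ {z}, z ∈ Q ↔ z ∈ planeGroup W hΔ ∧ w z = ε • z := fun {z} => by
    rw [Submodule.mem_inf, LinearMap.mem_ker, LinearMap.sub_apply, LinearMap.smul_apply,
      Module.End.one_apply, sub_eq_zero]
  have h := det_eq_sq_of_scalar W hΔ hirr hS hgood hp2 Q (fun g z hz => by
      rw [hQmem] at hz ⊢
      exact ⟨galOn_mem_planeGroup W hΔ g hz.1, by rw [← hw, hz.2, map_smul]⟩)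
    (hQmem.mpr ⟨hy, hwy⟩) hyne (w := -(q : ZMod p) * ε)
    (mul_ne_zero (neg_ne_zero.mpr hqp) fun e => by simp [e] at hε2)
    fun z hz => by
      rw [hfrob z (hQmem.mp hz).1, (hQmem.mp hz).2, smul_smul]
  rw [det_torMat_frobenius W hΔ hirr hpq hσ, mul_pow, hε2, mul_one, neg_sq] at h
  have h1 : (q : ZMod p) = ((1 : ℕ) : ZMod p) := by
    rw [Nat.cast_one]
    exact mul_left_cancel₀ hqp (by rw [mul_one, ← sq, ← h])
  rw [ZMod.natCast_eq_natCast_iff', Nat.one_mod_eq_one.mpr (Fact.out : p.Prime).ne_one] at h1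
  exact hq1 h1

end Main

end FermatAgent.MazurPrinciple.Away

end
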