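import Fermat.Agent.MazurPrinciple.Away.Endgame
import Fermat.Agent.RTLift.Finish.Interface

/-!
# Removing `q ≢ 1 mod p` from the level, given the toric input
-/

set_option autoImplicit false
set_option linter.unusedSectionVars false
set_option maxHeartbeats 800000

noncomputable section

open ModularCurve AlgebraicCurve Matrix

namespace FermatAgent.MazurPrinciple.Away

open FermatAgent.Curve FermatAgent.Curve.RR FermatAgent.BadRed.Semistable
open FermatAgent.ModCurveTorsion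
open FermatAgent.Ihara (torMat torMat_frobenius)
open FermatAgent.RTLift.Finish (UnramifiedMod)

local notation "Qb" => AlgebraicClosure ℚ
local notation "GQ" => AlgebraicClosure ℚ ≃ₐ[ℚ] AlgebraicClosure ℚ

variable {p : ℕ} [hp : Fact p.Prime] (W : WeierstrassCurve ℤ)
  (hΔ : (W.map (Int.castRingHom ℚ)).Δ ≠ 0)

/-- Inertia acts trivially on an unramified `E[p]`. -/
theorem torMat_eq_one_of_unramifiedMod {q : ℕ} (h : UnramifiedMod W p q)
    {A : ValuationSubring Qb} (hA : A.LiesOverPrime q) {σ : GQ}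
    (hσ : σ ∈ A.inertiaSubgroupIn ℚ) : torMat W (p := p) hΔ σ = 1 := by
  have h1 : (Conductor.torsionRep W (p := p) hΔ).ρ σ = 1 :=
    LinearMap.ext fun x => h A hA σ hσ x
  rw [torMat, GalRep.matrixHom_apply, h1, map_one]

include hΔ in
/-- A congruence outside `S` holds at a good prime of `S` outside the level. -/
theorem hasCongruentForm_diff (hirr : W.ModRepIsIrreducible p) {N : ℕ} [NeZero N] {S : Set ℕ}
    (hS : S.Finite) (hgood : ∀ l, l.Prime → l ∉ S → W.IsGoodPrimeFor l)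
    (hMS : ∀ l : ℕ, l.Prime → l ∣ N → l ∈ S) {q : ℕ} (hq : q.Prime) (hqp : q ≠ p)
    (hqN : ¬ q ∣ N) (hWq : W.IsGoodPrimeFor q) (h : HasCongruentForm W.apOfModel p N S) :
    HasCongruentForm W.apOfModel p N (S \ {q}) := by
  by_contra hno
  obtain ⟨x, hx, hx0⟩ := exists_mem_eigenGroup_ne_zero hMS h
  refine hx0 (eigenGroup_eq_bot (S := S \ {q}) (a := W.apOfModel)
    (fun l hl hlN => ⟨hMS l hl hlN, fun e => hqN (e ▸ hlN)⟩) hno
    ⟨hx.1, fun l hl hlN hlS => ?_⟩)
  by_cases hlS' : l ∈ S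
  · obtain rfl : l = q := by
      by_contra hne
      exact hlS ⟨hlS', hne⟩
    obtain ⟨B, τ, hB, hτ⟩ := RT.exists_place_isFrobeniusAt hl
    have hlNp : ¬ l ∣ N * p := fun h => (hl.dvd_mul.mp h).elim hqN
      fun h => hqp ((Nat.prime_dvd_prime_iff_eq hl hp.out).mp h)
    have h1 := ES.torsionFrobQuadratic N p l hl hlNp B hB τ hτ 1 x (by rw [pow_one]; exact hx.1)
    rw [← heckeAt_prime N hl, ← galois_smul_heckeAt] at h1
    obtain ⟨ht, hd⟩ := torMat_frobenius W hΔ hirr hl hWq hqp hB hτ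
    have h2 := congrArg Subtype.val
      (LinearMap.congr_fun (galOn_quad (M := N) (p := p) W hΔ hirr hS hgood τ) ⟨x, hx⟩)
    simp only [LinearMap.add_apply, LinearMap.sub_apply, Module.End.mul_apply, LinearMap.smul_apply,
      Module.End.one_apply, LinearMap.zero_apply, ht, hd, Int.cast_smul_eq_zsmul,
      Nat.cast_smul_eq_nsmul, AddSubgroup.coe_add, AddSubgroup.coe_sub, AddSubgroup.coe_zsmul,
      AddSubgroup.coe_nsmul, ZeroMemClass.coe_zero, coe_galOn] at h2
    rw [show W.apOfModel l • τ • x = τ • (W.apOfModel l • x) from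
      (map_zsmul (DistribSMul.toAddMonoidHom (JZero N) τ) _ _).symm] at h2
    have h3 := h1.trans h2.symm
    rw [add_left_inj, sub_right_inj] at h3
    exact smul_left_cancel τ h3
  · exact hx.2 l hl hlN hlS'

/-- The primes away from which congruences are asked at level `M`. -/
def badSet (p M : ℕ) : Set ℕ := {l | l = p ∨ (l.Prime ∧ (l : ℤ) ∣ W.Δ) ∨ l ∈ M.primeFactors}

theorem finite_badSet (hW : W.Δ ≠ 0) (p M : ℕ) : (badSet W p M).Finite := by
  refine (((Set.finite_singleton p).union (Set.finite_Iic W.Δ.natAbs)).union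
    M.primeFactors.finite_toSet).subset fun l hl => ?_
  rcases hl with rfl | ⟨-, hl⟩ | hl
  · exact Or.inl (Or.inl rfl)
  · exact Or.inl (Or.inr (Nat.le_of_dvd (Int.natAbs_pos.mpr hW) (Int.natCast_dvd.mp hl)))
  · exact Or.inr hl

theorem good_of_notMem_badSet {M l : ℕ} (hl : l.Prime) (h : l ∉ badSet W p M) :
    W.IsGoodPrimeFor l := fun hd => h (Or.inr (Or.inl ⟨hl, hd⟩))

theorem mem_badSet_of_dvd {M l : ℕ} [NeZero M] (hl : l.Prime) (h : l ∣ M) : l ∈ badSet W p M :=
  Or.inr (Or.inr (Nat.mem_primeFactors.mpr ⟨hl, h, NeZero.ne M⟩))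

/-- A congruence outside a finite set is residual modularity. -/
theorem isResiduallyModularOfLevel_of_hasCongruentForm {W : WeierstrassCurve ℤ}
    (hΔ : (W.map (Int.castRingHom ℚ)).Δ ≠ 0) (hirr : W.ModRepIsIrreducible p)
    {N : ℕ} [NeZero N] {S : Set ℕ} (hS : S.Finite)
    (h : HasCongruentForm W.apOfModel p N S) : W.IsResiduallyModularOfLevel p N := by
  classical
  have hW : W.Δ ≠ 0 := fun h0 => hΔ (by rw [WeierstrassCurve.map_Δ, h0, map_zero])
  set S₁ : Set ℕ := S ∪ badSet W p N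
  have hS₁ : S₁.Finite := hS.union (finite_badSet W hW _ _)
  have key : ∀ T : Finset ℕ, (∀ l ∈ T, l.Prime ∧ W.IsGoodPrimeFor l ∧ ¬ l ∣ N ∧ l ≠ p) →
      HasCongruentForm W.apOfModel p N (S₁ \ ↑T) := fun T => by
    induction T using Finset.induction with
    | empty =>
      intro _
      obtain ⟨f, 𝔪, hf, h𝔪, hp', hfa⟩ := h
      exact ⟨f, 𝔪, hf, h𝔪, hp', fun l hl hlN hlS => hfa l hl hlN fun h' =>
        hlS ⟨Or.inl h', by simp⟩⟩
    | insert l T hlT ih =>
      intro hT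
      obtain ⟨hl, hgl, hlN, hlp⟩ := hT l (Finset.mem_insert_self _ _)
      have := hasCongruentForm_diff W hΔ hirr (hS₁.subset Set.sdiff_subset)
        (fun l' hl' hl'S => by
          by_cases h' : l' ∈ S₁
          · exact (hT l' (Finset.mem_insert_of_mem (by
              by_contra h''
              exact hl'S ⟨h', h''⟩))).2.1
          · exact good_of_notMem_badSet W hl' fun hb => h' (Or.inr hb))
        (fun l' hl' hd => ⟨Or.inr (mem_badSet_of_dvd W hl' hd), fun h' =>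
          (hT l' (Finset.mem_insert_of_mem h')).2.2.1 hd⟩)
        hl hlp hlN hgl (ih fun x hx => hT x (Finset.mem_insert_of_mem hx))
      rwa [sdiff_sdiff, show (↑T : Set ℕ) ⊔ {l} = ↑(insert l T) from by
        rw [Finset.coe_insert]; exact (Set.union_comm _ _)] at this
  obtain ⟨f, 𝔪, hf, h𝔪, hp', hfa⟩ := key
    (hS₁.toFinset.filter fun l => l.Prime ∧ W.IsGoodPrimeFor l ∧ ¬ l ∣ N ∧ l ≠ p)
    fun l hl => (Finset.mem_filter.mp hl).2
  refine ⟨f, 𝔪, hf, h𝔪, hp', fun l hl hgood hlN hlp => hfa l hl hlN fun hm => hm.2 ?_⟩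
  rw [Finset.coe_filter]
  exact ⟨hS₁.mem_toFinset.mpr hm.1, hl, hgood, hlN, hlp⟩

include hΔ in
/-- **`q ≢ 1 mod p` leaves the level when `E[p]` is unramified there**, given the toric input. -/
theorem isResiduallyModularOfLevel_of_toricInput (hirr : W.ModRepIsIrreducible p) (hp2 : p ≠ 2)
    {q : ℕ} [Fact q.Prime] {N' : ℕ} [NeZero N'] (hco : q.Coprime N') [NeZero (q * N')]
    (hpq : p ≠ q) (hq1 : q % p ≠ 1) (hunr : UnramifiedMod W p q)
    (htor : ∀ [IsFunctionField1 (KRes q) (modularFunctionFieldFullC (KRes q) N')],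
      ¬ HasCongruentForm W.apOfModel p N' (badSet W p (q * N')) →
        ToricInput hco (badSet W p (q * N')) W.apOfModel p)
    (hres : W.IsResiduallyModularOfLevel p (q * N')) : W.IsResiduallyModularOfLevel p N' := by
  have := isFunctionField1_kFib q N' hco
  have hW : W.Δ ≠ 0 := fun h => hΔ (by rw [WeierstrassCurve.map_Δ, h, map_zero])
  set S := badSet W p (q * N')
  have hS : S.Finite := finite_badSet W hW _ _
  have hgood : ∀ l, l.Prime → l ∉ S → W.IsGoodPrimeFor l := fun l => good_of_notMem_badSet W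
  have hMS : ∀ l : ℕ, l.Prime → l ∣ q * N' → l ∈ S := fun l => mem_badSet_of_dvd W
  have hqN : ¬ q ∣ N' := (Nat.Prime.coprime_iff_not_dvd Fact.out).mp hco
  have hcong : HasCongruentForm W.apOfModel p (q * N') S := by
    obtain ⟨f, 𝔪, hf, h𝔪, hp', hfa⟩ := hres
    exact ⟨f, 𝔪, hf, h𝔪, hp', fun l hl hlM hlS =>
      hfa l hl (hgood l hl hlS) hlM fun e => hlS (Or.inl e)⟩
  have h' : HasCongruentForm W.apOfModel p N' S := by
    by_contra hno
    exact false_of_toricInput hco W hΔ hirr hp2 hpq hq1 hS hMS (Or.inl rfl) hgood hcong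
      (fun σ hσ => torMat_eq_one_of_unramifiedMod W hΔ hunr (liesOverPrime_place₀ q) hσ) (htor hno)
  have hmem : ∀ l : ℕ, l.Prime → W.IsGoodPrimeFor l → ¬ l ∣ N' → l ≠ p → l ∈ S → l = q := by
    intro l hl hg hlN hlp hlS
    rcases hlS with e | ⟨-, hd⟩ | hd
    · exact absurd e hlp
    · exact absurd hd hg
    · refine ((Nat.prime_dvd_prime_iff_eq hl Fact.out).mp ?_)
      exact (hl.dvd_mul.mp (Nat.dvd_of_mem_primeFactors hd)).resolve_right hlN
  by_cases hWq : W.IsGoodPrimeFor q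
  · obtain ⟨f, 𝔪, hf, h𝔪, hp', hfa⟩ := hasCongruentForm_diff W hΔ hirr hS hgood
      (fun l hl hlN => hMS l hl (dvd_mul_of_dvd_right hlN q)) Fact.out hpq.symm hqN hWq h'
    exact ⟨f, 𝔪, hf, h𝔪, hp', fun l hl hg hlN hlp =>
      hfa l hl hlN fun hlS => hlS.2 (hmem l hl hg hlN hlp hlS.1)⟩
  · obtain ⟨f, 𝔪, hf, h𝔪, hp', hfa⟩ := h'
    exact ⟨f, 𝔪, hf, h𝔪, hp', fun l hl hg hlN hlp =>
      hfa l hl hlN fun hlS => hWq (hmem l hl hg hlN hlp hlS ▸ hg)⟩

end FermatAgent.MazurPrinciple.Away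

end
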