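import Fermat.Agent.MazurPrinciple.GoodSub
import Fermat.Agent.MazurPrinciple.Smooth
import Fermat.Agent.BadRed.Semistable.Toric

/-!
# A torsion class whose function reduces to powers is toric

If `p D = div t` with `t` a unit on both components whose two reductions are `p`-th powers, the
class of `D` has a toric invariant: the sections of `m D∞ - D` reduce onto all pairs of sections
with twisted equalities at the nodes, and one of them moves `D` off the nodes.
-/

set_option autoImplicit false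
set_option linter.unusedSectionVars false

noncomputable section

open AlgebraicCurve WithZero

namespace FermatAgent.MazurPrinciple.Away

open FermatAgent.Curve FermatAgent.Curve.RR FermatAgent.BadRed.Semistable
open scoped Classical

section Twisted

variable {k F₁ F₂ : Type*} [Field k] [Field F₁] [Field F₂] [Algebra k F₁] [Algebra k F₂]
  [IsAlgClosed k] [IsFunctionField1 k F₁] [IsFunctionField1 k F₂]
  (C : Glued k F₁ F₂)

/-- Pairs of sections with prescribed ratios of values at the nodes. -/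
def twisted (c : C.ι → k) (n : ℕ) : Submodule k (F₁ × F₂) where
  carrier := {p | p.1 ∈ riemannRochSpace (n • C.D₁) ∧ p.2 ∈ riemannRochSpace (n • C.D₂) ∧
    ∀ i, valueAt (C.x i) p.1 = c i * valueAt (C.y i) p.2}
  zero_mem' := ⟨zero_mem _, zero_mem _, fun i => by
    rw [show ((0 : F₁ × F₂).1) = algebraMap k F₁ 0 by simp, valueAt_algebraMap,
      show ((0 : F₁ × F₂).2) = algebraMap k F₂ 0 by simp, valueAt_algebraMap, mul_zero]⟩
  add_mem' := by
    rintro p q ⟨h1, h2, h3⟩ ⟨h1', h2', h3'⟩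
    refine ⟨add_mem h1 h1', add_mem h2 h2', fun i => ?_⟩
    rw [Prod.fst_add, Prod.snd_add,
      valueAt_add _ (mem_of_le_one (C.le_one_x h1 i)) (mem_of_le_one (C.le_one_x h1' i)),
      valueAt_add _ (mem_of_le_one (C.le_one_y h2 i)) (mem_of_le_one (C.le_one_y h2' i)),
      h3 i, h3' i, mul_add]
  smul_mem' := by
    rintro r p ⟨h1, h2, h3⟩
    refine ⟨Submodule.smul_mem _ r h1, Submodule.smul_mem _ r h2, fun i => ?_⟩
    rw [Prod.smul_fst, Prod.smul_snd, valueAt_smul (C.le_one_x h1 i),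
      valueAt_smul (C.le_one_y h2 i), h3 i, mul_left_comm]

theorem twisted_one (n : ℕ) : twisted C (fun _ => 1) n = C.glue n :=
  SetLike.ext fun p => by
    show (_ ∧ _ ∧ _) ↔ _
    simp only [one_mul]
    exact Iff.rfl

variable [RRSetting k F₁] [RRSetting k F₂]

/-- Sections take every system of values at the nodes. -/
theorem exists_values {n : ℕ} (hn : C.bound ≤ n) (c : C.ι → k) :
    ∃ g ∈ riemannRochSpace (n • C.D₁), ∀ i, valueAt (C.x i) g = c i := by
  let E : Divisor k F₁ := ∑ i, Finsupp.single (C.x i) (1 : ℤ)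
  have hE : 0 ≤ E := Finset.sum_nonneg fun i _ => by simp
  have hdE : Divisor.degree E = (Fintype.card C.ι : ℤ) := by simp [E, deg_eq_one]
  have hdpos := degree_poleDiv_pos (K := k) C.transcendental₁
  have hge : (n : ℤ) ≤ n * Divisor.degree C.D₁ :=
    le_mul_of_one_le_right (Int.natCast_nonneg n) hdpos
  have hd : 2 * (genusFF k F₁ : ℤ) - 1 ≤ Divisor.degree (n • C.D₁ - E) := by
    rw [map_sub, hdE, map_nsmul, nsmul_eq_mul]
    unfold Glued.bound at hn
    omega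
  let T : Place k F₁ → F₁ := fun v =>
    if h : ∃ i, C.x i = v then algebraMap k F₁ (c h.choose) else 0
  obtain ⟨g, hg, hgv⟩ := exists_interpolate hE hd (Finset.univ.image C.x) T
  refine ⟨g, hg, fun i => ?_⟩
  have hT : T (C.x i) = algebraMap k F₁ (c i) := by
    have h : ∃ j, C.x j = C.x i := ⟨i, rfl⟩
    simp only [T, dif_pos h]
    rw [C.x_injective h.choose_spec]
  have hTle : (C.x i).adicValuation (T (C.x i)) ≤ 1 := by
    rw [hT]; exact (C.x i).adicValuation_algebraMap_le_one _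
  have h1 := hgv (C.x i) (Finset.mem_image_of_mem _ (Finset.mem_univ i)) (by simpa using hTle)
  have hEi : E (C.x i) = 1 := by
    simp [E, Finsupp.finsetSum_apply, Finsupp.single_apply, C.x_injective.eq_iff]
  have h2 : (C.x i).adicValuation (g - T (C.x i)) < 1 :=
    lt_one_of_le_exp_neg (by simp [hEi]) h1
  rw [valueAt_eq_of_sub_lt_one hTle h2, hT, valueAt_algebraMap]

/-- The linear map whose kernel is `twisted`. -/
def ratioMap (c : C.ι → k) (n : ℕ) :
    (riemannRochSpace (n • C.D₁) × riemannRochSpace (n • C.D₂)) →ₗ[k] (C.ι → k) where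
  toFun p i := valueAt (C.x i) (p.1 : F₁) - c i * valueAt (C.y i) (p.2 : F₂)
  map_add' p q := funext fun i => by
    simp only [Prod.fst_add, Prod.snd_add, Submodule.coe_add, Pi.add_apply]
    rw [valueAt_add _ (mem_of_le_one (C.le_one_x p.1.2 i)) (mem_of_le_one (C.le_one_x q.1.2 i)),
      valueAt_add _ (mem_of_le_one (C.le_one_y p.2.2 i)) (mem_of_le_one (C.le_one_y q.2.2 i))]
    ring
  map_smul' r p := funext fun i => by
    simp only [Prod.smul_fst, Prod.smul_snd, Submodule.coe_smul, Pi.smul_apply, smul_eq_mul,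
      RingHom.id_apply]
    rw [valueAt_smul (C.le_one_x p.1.2 i), valueAt_smul (C.le_one_y p.2.2 i)]
    ring

/-- The kernel is `twisted`. -/
def kerEquiv (c : C.ι → k) (n : ℕ) : LinearMap.ker (ratioMap C c n) ≃ₗ[k] twisted C c n where
  toFun p := ⟨((p.1.1 : F₁), (p.1.2 : F₂)), p.1.1.2, p.1.2.2, fun i =>
    sub_eq_zero.mp (congrFun (LinearMap.mem_ker.mp p.2) i)⟩
  map_add' _ _ := rfl
  map_smul' _ _ := rfl
  invFun p := ⟨(⟨p.1.1, p.2.1⟩, ⟨p.1.2, p.2.2.1⟩), funext fun i => sub_eq_zero.mpr (p.2.2.2 i)⟩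
  left_inv _ := rfl
  right_inv _ := rfl

/-- The dimension does not depend on the ratios. -/
theorem finrank_twisted {n : ℕ} (hn : C.bound ≤ n) (c : C.ι → k) :
    Module.Finite k (twisted C c n) ∧
      Module.finrank k (twisted C c n) = Module.finrank k (C.glue n) := by
  have key : ∀ c : C.ι → k, Module.finrank k (twisted C c n) + Fintype.card C.ι =
      Module.finrank k (riemannRochSpace (n • C.D₁) × riemannRochSpace (n • C.D₂)) := fun c => by
    have hsurj : Function.Surjective (ratioMap C c n) := fun v => by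
      obtain ⟨g, hg, hv⟩ := exists_values C hn v
      refine ⟨(⟨g, hg⟩, 0), funext fun i => ?_⟩
      show valueAt (C.x i) g -
        c i * valueAt (C.y i) ((0 : riemannRochSpace (n • C.D₂)) : F₂) = v i
      rw [hv i, Submodule.coe_zero, show (0 : F₂) = algebraMap k F₂ 0 by simp, valueAt_algebraMap,
        mul_zero, sub_zero]
    have hrk := LinearMap.finrank_range_add_finrank_ker (ratioMap C c n)
    rw [LinearMap.range_eq_top.mpr hsurj, finrank_top, Module.finrank_pi] at hrk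
    rw [← (kerEquiv C c n).finrank_eq]
    omega
  refine ⟨Module.Finite.equiv (kerEquiv C c n), ?_⟩
  have h1 := key c
  have h2 := key fun _ => 1
  rw [twisted_one] at h2
  omega

end Twisted

variable {K : Type*} [Field K] [IsAlgClosed K] {A : ValuationSubring K} {k : Type*}
    [Field k] [IsAlgClosed k] {π : A →+* k} {F F₁ F₂ : Type*} [Field F] [Field F₁] [Field F₂]
    [Algebra K F] [Algebra k F₁] [Algebra k F₂] [IsFunctionField1 K F] [IsFunctionField1 k F₁]
    [IsFunctionField1 k F₂] [RRSetting K F] [RRSetting k F₁] [RRSetting k F₂] [Infinite k]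
variable (d : NodalDatum A π F F₁ F₂)

/-- An effective divisor without reduction at the nodes is good. -/
theorem isGood_of_redDiv_node {E : Divisor K F} (hE : 0 ≤ E)
    (h : ∀ i, d.redDiv E (.node i) = 0) : d.IsGood E := fun P hP i hi => by
  have h1 := d.le_redDiv hE P
  rw [hi, h i] at h1
  exact hP (le_antisymm h1 (Finsupp.le_def.mp hE P))

theorem redDiv_node_D {n : ℕ} (hn : d.n₀ ≤ n) (i : d.C.ι) :
    d.redDiv (n • d.D) (.node i) = 0 := by
  rw [redDiv_nsmul_D d hn, Glued.secDiv_node, Prod.fst_one, Prod.snd_one, Place.ord_one,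
    Place.ord_one, add_zero]

theorem valueAt_pow' {L : Type*} [Field L] [Algebra k L] [IsFunctionField1 k L] (v : Place k L)
    {f : L} (hf : v.adicValuation f ≤ 1) (n : ℕ) : valueAt v (f ^ n) = valueAt v f ^ n := by
  induction n with
  | zero => rw [pow_zero, pow_zero, ← map_one (algebraMap k L), valueAt_algebraMap]
  | succ n ih =>
    rw [pow_succ, pow_succ, valueAt_mul v (mem_of_le_one (by rw [map_pow]; exact pow_le_one₀ zero_le hf))
      (mem_of_le_one hf), ih]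

theorem mem_rr_of_pow {L : Type*} [Field L] [Algebra k L] [IsFunctionField1 k L] {p : ℕ}
    (hp : p ≠ 0) {n : ℕ} {D : Divisor k L} {f : L}
    (h : f ^ p ∈ riemannRochSpace ((p * n) • D)) : f ∈ riemannRochSpace (n • D) := fun v => by
  refine (pow_le_pow_iff_left₀ zero_le zero_le hp).mp ?_
  rw [← map_pow, ← exp_nsmul]
  refine (h v).trans (le_of_eq (congrArg exp ?_))
  simp only [Finsupp.smul_apply, smul_smul]

variable {p : ℕ} (hp : p ≠ 0)
include hp

/-- Division by a root: a section of `m D∞ - D` gives ratios which are sections with equal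
`p`-th powers of values. -/
theorem ratio_spec {D' : Divisor K F} {t : F} (ht : IsDiscUnit d t)
    (hD : p • D' = divisorOf t) {ψ₁ : F₁} {ψ₂ : F₂}
    (e₁ : d.g₁.red ⟨t, ht.1.1⟩ = ψ₁ ^ p) (e₂ : d.g₂.red ⟨t, ht.1.2⟩ = ψ₂ ^ p)
    {m : ℕ} (hm : d.n₀ ≤ p * m) {G : F} (hG : G ∈ d.int)
    (hGd : G ∈ riemannRochSpace (m • d.D - D')) :
    (d.g₁.red ⟨G, hG.1⟩ / ψ₁) ∈ riemannRochSpace (m • d.C.D₁) ∧
    (d.g₂.red ⟨G, hG.2⟩ / ψ₂) ∈ riemannRochSpace (m • d.C.D₂) ∧
    ∀ i, valueAt (d.C.x i) (d.g₁.red ⟨G, hG.1⟩ / ψ₁) ^ p =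
      valueAt (d.C.y i) (d.g₂.red ⟨G, hG.2⟩ / ψ₂) ^ p := by
  obtain ⟨ti, t1, t2⟩ := ht.inv
  have ht0 := ht.ne_zero
  set w := G ^ p * t⁻¹ with hw
  have hwi : w ∈ d.int := mul_mem (pow_mem hG p) ti
  have hwL : w ∈ riemannRochSpace ((p * m) • d.D) := fun v => by
    rcases eq_or_ne G 0 with h0 | h0
    · simp [hw, h0, zero_pow hp]
    have hw0 : w ≠ 0 := mul_ne_zero (pow_ne_zero _ h0) (inv_ne_zero ht0)
    refine v.adicValuation_le_exp_iff.mpr (Or.inr ?_)
    have h1 := neg_le_ord_of_le_exp h0 (hGd v)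
    have h2 := DFunLike.congr_fun hD v
    rw [hw, v.ord_mul (pow_ne_zero _ h0) (inv_ne_zero ht0), Curve.ord_pow', v.ord_inv]
    simp only [Finsupp.sub_apply, Finsupp.smul_apply, nsmul_eq_mul, divisorOf_apply] at h1 h2 ⊢
    push_cast
    rw [← h2]
    nlinarith [mul_le_mul_of_nonneg_left h1 (Nat.cast_nonneg (α := ℤ) p)]
  have hg := d.red_mem_glue hm hwi hwL
  have hinv : d.red ⟨t⁻¹, ti⟩ * d.red ⟨t, ht.1⟩ = 1 := by
    rw [← map_mul, show (⟨t⁻¹, ti⟩ * ⟨t, ht.1⟩ : d.int) = 1 from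
      Subtype.ext (inv_mul_cancel₀ ht0), map_one]
  have hi₁ : d.g₁.red ⟨t⁻¹, ti.1⟩ = (ψ₁ ^ p)⁻¹ :=
    eq_inv_of_mul_eq_one_left (by rw [← e₁]; exact congrArg Prod.fst hinv)
  have hi₂ : d.g₂.red ⟨t⁻¹, ti.2⟩ = (ψ₂ ^ p)⁻¹ :=
    eq_inv_of_mul_eq_one_left (by rw [← e₂]; exact congrArg Prod.snd hinv)
  have hr₁ : (d.red ⟨w, hwi⟩).1 = (d.g₁.red ⟨G, hG.1⟩ / ψ₁) ^ p := by
    show d.g₁.red (⟨G, hG.1⟩ ^ p * ⟨t⁻¹, ti.1⟩) = _
    rw [map_mul, map_pow, hi₁, div_pow, div_eq_mul_inv]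
  have hr₂ : (d.red ⟨w, hwi⟩).2 = (d.g₂.red ⟨G, hG.2⟩ / ψ₂) ^ p := by
    show d.g₂.red (⟨G, hG.2⟩ ^ p * ⟨t⁻¹, ti.2⟩) = _
    rw [map_mul, map_pow, hi₂, div_pow, div_eq_mul_inv]
  obtain ⟨g1, g2, g3⟩ := hg
  rw [hr₁] at g1
  rw [hr₂] at g2
  have r1 := mem_rr_of_pow hp g1
  have r2 := mem_rr_of_pow hp g2
  refine ⟨r1, r2, fun i => ?_⟩
  have h := g3 i
  rw [hr₁, hr₂] at h
  rwa [valueAt_pow' _ (d.C.le_one_x r1 i), valueAt_pow' _ (d.C.le_one_y r2 i)] at h

/-- The case where `D + l D∞` is effective. -/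
theorem exists_hasToric_of_roots_effective {D' : Divisor.degZero (K := K) (F := F)} {t : F}
    (ht : IsDiscUnit d t) (hD : p • (D' : Divisor K F) = divisorOf t)
    {l : ℕ} (hl : 0 ≤ (D' : Divisor K F) + l • d.D) {ψ₁ : F₁} {ψ₂ : F₂}
    (e₁ : d.g₁.red ⟨t, ht.1.1⟩ = ψ₁ ^ p) (e₂ : d.g₂.red ⟨t, ht.1.2⟩ = ψ₂ ^ p) :
    ∃ c, d.HasToric (Pic0.mk D') c := by
  classical
  have hψ₁ : ψ₁ ≠ 0 := fun h => ht.2.1 (e₁.trans (by rw [h, zero_pow hp]))
  have hψ₂ : ψ₂ ≠ 0 := fun h => ht.2.2 (e₂.trans (by rw [h, zero_pow hp]))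
  have hp1 : 1 ≤ p := Nat.one_le_iff_ne_zero.mpr hp
  set Z : Divisor K F := (D' : Divisor K F) + l • d.D with hZ
  set m : ℕ := d.N₀ + (Divisor.degree Z).toNat with hm
  have hm0 : d.n₀ ≤ p * m :=
    le_trans (by unfold NodalDatum.N₀ at hm; omega) (Nat.le_mul_of_pos_left m hp1)
  have hmb : d.C.bound ≤ m := by unfold NodalDatum.N₀ at hm; omega
  set P := d.redImage (d.sub (m + l) Z)
  have hsub : ∀ G, G ∈ d.sub (m + l) Z ↔ G ∈ riemannRochSpace (m • d.D - (D' : Divisor K F)) :=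
    fun G => by
      rw [NodalDatum.sub, hZ, add_smul, add_sub_add_right_eq_sub]
  -- divide by the roots
  let μ : (F₁ × F₂) →ₗ[k] (F₁ × F₂) := LinearMap.prodMap
    (LinearMap.mulLeft k ψ₁⁻¹) (LinearMap.mulLeft k ψ₂⁻¹)
  have hμ : ∀ q, μ q = (q.1 / ψ₁, q.2 / ψ₂) := fun q => by
    simp only [μ, LinearMap.prodMap_apply, LinearMap.mulLeft_apply, div_eq_inv_mul]
  have hμinj : Function.Injective μ := fun q q' h => by
    rw [hμ, hμ, Prod.mk.injEq, div_left_inj' hψ₁, div_left_inj' hψ₂] at h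
    exact Prod.ext h.1 h.2
  set P' := P.map μ
  have hP' : ∀ r ∈ P', r.1 ∈ riemannRochSpace (m • d.C.D₁) ∧
      r.2 ∈ riemannRochSpace (m • d.C.D₂) ∧
      ∀ i, valueAt (d.C.x i) r.1 ^ p = valueAt (d.C.y i) r.2 ^ p := by
    rintro r ⟨q, ⟨G, hG, hGV, rfl⟩, rfl⟩
    rw [hμ]
    exact ratio_spec d hp ht hD e₁ e₂ hm0 hG ((hsub G).mp hGV)
  have hline : ∀ i, ∃ c : k, c ≠ 0 ∧ ∀ r ∈ P',
      valueAt (d.C.x i) r.1 = c * valueAt (d.C.y i) r.2 := by
    intro i
    have hz : ∀ r ∈ P', valueAt (d.C.y i) r.2 = 0 → valueAt (d.C.x i) r.1 = 0 := fun r hr h => by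
      have := (hP' r hr).2.2 i
      rwa [h, zero_pow hp, pow_eq_zero_iff hp] at this
    by_cases hall : ∀ r ∈ P', valueAt (d.C.y i) r.2 = 0
    · exact ⟨1, one_ne_zero, fun r hr => by rw [hz r hr (hall r hr), hall r hr, mul_zero]⟩
    push Not at hall
    obtain ⟨r₀, hr₀, hb⟩ := hall
    refine ⟨valueAt (d.C.x i) r₀.1 / valueAt (d.C.y i) r₀.2, div_ne_zero (fun h => hb ?_) hb,
      fun r hr => ?_⟩
    · have := (hP' r₀ hr₀).2.2 i
      rwa [h, zero_pow hp, eq_comm, pow_eq_zero_iff hp] at this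
    set s := valueAt (d.C.y i) r.2 / valueAt (d.C.y i) r₀.2
    have hs : valueAt (d.C.y i) (r - s • r₀).2 = 0 := by
      rw [Prod.snd_sub, Prod.smul_snd, valueAt_sub _ (mem_of_le_one (d.C.le_one_y (hP' r hr).2.1 i))
        (mem_of_le_one (d.C.le_one_y (Submodule.smul_mem _ s (hP' r₀ hr₀).2.1) i)),
        valueAt_smul (d.C.le_one_y (hP' r₀ hr₀).2.1 i), div_mul_cancel₀ _ hb, sub_self]
    have := hz _ (P'.sub_mem hr (P'.smul_mem s hr₀)) hs
    rw [Prod.fst_sub, Prod.smul_fst, valueAt_sub _ (mem_of_le_one (d.C.le_one_x (hP' r hr).1 i))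
      (mem_of_le_one (d.C.le_one_x (Submodule.smul_mem _ s (hP' r₀ hr₀).1) i)),
      valueAt_smul (d.C.le_one_x (hP' r₀ hr₀).1 i), sub_eq_zero] at this
    rw [this, div_mul_eq_mul_div, div_mul_eq_mul_div, mul_comm]
  choose c hc0 hc using hline
  have hle : P' ≤ twisted d.C c m := fun r hr => ⟨(hP' r hr).1, (hP' r hr).2.1, fun i => hc i r hr⟩
  obtain ⟨hfin, hdim⟩ := finrank_twisted d.C hmb c
  have heq : P' = twisted d.C c m := by
    refine Submodule.eq_of_le_of_finrank_le hle (le_of_eq ?_)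
    rw [hdim, ← (Submodule.equivMapOfInjective μ hμinj P).finrank_eq, ← Int.natCast_inj,
      d.finrank_sub hl (by rw [hm]; omega), d.C.finrank_glue (n := m) hmb,
      d.C.finrank_glue (n := m + l) (by omega)]
    have he : Divisor.degree d.D = Divisor.degree d.C.D₁ + Divisor.degree d.C.D₂ := d.degree_eq
    rw [hZ, map_add, D'.2, map_nsmul, he, nsmul_eq_mul]
    push_cast; ring
  -- the section moving the divisor off the nodes
  obtain ⟨g₁, hg₁, hgv⟩ := exists_values d.C hmb c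
  have hone : ∀ i, valueAt (d.C.y i) (1 : F₂) = 1 := fun i => by
    rw [← map_one (algebraMap k F₂), valueAt_algebraMap]
  obtain ⟨-, ⟨G, hG, hGV, rfl⟩, hμG⟩ : (g₁, (1 : F₂)) ∈ P' := by
    rw [heq]
    exact ⟨hg₁, one_mem_rrSpace (nsmul_nonneg (poleDiv_nonneg _) m),
      fun i => by rw [hgv i, hone, mul_one]⟩
  rw [hμ, Prod.mk.injEq, div_eq_iff hψ₁, div_eq_iff hψ₂, one_mul] at hμG
  obtain ⟨q1, q2⟩ := hμG
  obtain ⟨i₀⟩ := d.C.nonempty
  have hg₁0 : g₁ ≠ 0 := fun h => hc0 i₀ (by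
    rw [← hgv i₀, h, ← map_zero (algebraMap k F₁), valueAt_algebraMap])
  have hgu : ∀ i, (d.C.x i).ord g₁ = 0 := fun i => by
    have h1 := ((d.C.x i).adicValuation_le_one_iff.mp (d.C.le_one_x hg₁ i)).resolve_left hg₁0
    by_contra hne
    have hlt : (d.C.x i).adicValuation g₁ < 1 := by
      rw [(d.C.x i).adicValuation_eq_exp_neg_ord hg₁0, ← exp_zero, exp_lt_exp]; omega
    exact hc0 i ((hgv i).symm.trans ((adicValuation_lt_one_iff hlt.le).mp hlt))
  have hG1 : (d.red ⟨G, hG⟩).1 ≠ 0 := by rw [q1]; exact mul_ne_zero hg₁0 hψ₁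
  have hG2 : (d.red ⟨G, hG⟩).2 ≠ 0 := by rw [q2]; exact hψ₂
  have hG0 := d.ne_zero_of_red_fst hG hG1
  -- redDiv at the nodes
  have hredD : ∀ ω, (p : ℤ) * d.redDiv (D' : Divisor K F) ω =
      d.C.secDiv 0 (d.red ⟨t, ht.1⟩) ω := fun ω => by
    rw [← d.mapDomain_divisorOf ht.1 ht.2.1 ht.2.2, ← hD, ← d.redDiv_apply, map_nsmul,
      Finsupp.smul_apply, nsmul_eq_mul]
  set E : Divisor K F := divisorOf G + m • d.D - (D' : Divisor K F) with hE
  have hE0 : 0 ≤ E := Finsupp.le_def.mpr fun v => by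
    have := neg_le_ord_of_le_exp hG0 ((hsub G).mp hGV v)
    simp only [hE, Finsupp.coe_zero, Pi.zero_apply, Finsupp.sub_apply, Finsupp.add_apply,
      divisorOf_apply] at this ⊢
    linarith
  have hmn : d.n₀ ≤ m := by unfold NodalDatum.N₀ at hm; omega
  have hEgood : d.IsGood E := isGood_of_redDiv_node d hE0 fun i => by
    refine mul_left_cancel₀ (Int.natCast_ne_zero.mpr hp) ?_
    rw [mul_zero, hE, map_sub, map_add, Finsupp.sub_apply, Finsupp.add_apply, mul_sub, hredD,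
      redDiv_node_D d hmn, add_zero, d.redDiv_apply, d.mapDomain_divisorOf hG hG1 hG2,
      Glued.secDiv_node, Glued.secDiv_node, d.red_mk ht.1, e₁, e₂, q1, q2,
      (d.C.x i).ord_mul hg₁0 hψ₁, hgu i, Curve.ord_pow', Curve.ord_pow']
    ring
  let D'' : Divisor.degZero (K := K) (F := F) :=
    ⟨(D' : Divisor K F) - divisorOf G, by
      rw [Divisor.mem_degZero, map_sub, D'.2, degree_divisorOf, sub_zero]⟩
  have hclass : Pic0.mk D'' = Pic0.mk D' := by
    refine QuotientAddGroup.eq.mpr ?_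
    rw [AddSubgroup.mem_addSubgroupOf]
    exact ⟨G, hG0, fun P => by simp [D'']⟩
  have hgood : d.IsGood (D'' : Divisor K F) := fun P hP i hi => by
    by_cases hEP : E P = 0
    · refine isGood_of_redDiv_node d (E := m • d.D) (nsmul_nonneg (poleDiv_nonneg _) m)
        (fun i => redDiv_node_D d hmn i) P ?_ i hi
      simp only [hE, D'', Finsupp.sub_apply, Finsupp.add_apply] at hEP hP
      intro h0
      exact hP (by rw [h0] at hEP; linarith)
    · exact hEgood P hEP i hi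
  set u : F₁ × F₂ := (g₁⁻¹, 1)
  have hun : d.C.UnitNodes u := ⟨inv_ne_zero hg₁0, one_ne_zero, fun i =>
    ⟨by rw [(d.C.x i).ord_inv, hgu i, neg_zero], (d.C.y i).ord_one⟩⟩
  have hsec : d.redDiv (D'' : Divisor K F) = d.C.secDiv 0 u := by
    refine Finsupp.ext fun ω => mul_left_cancel₀ (Int.natCast_ne_zero.mpr hp) ?_
    show (p : ℤ) * d.redDiv ((D' : Divisor K F) - divisorOf G) ω = _
    rw [map_sub, Finsupp.sub_apply, mul_sub, hredD, d.redDiv_apply,
      d.mapDomain_divisorOf hG hG1 hG2]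
    cases ω with
    | left Q hQ =>
      simp only [Glued.secDiv_left, d.red_mk, e₁, u, Curve.ord_pow']
      rw [show d.g₁.red ⟨G, hG.1⟩ = g₁ * ψ₁ from q1, Q.ord_mul hg₁0 hψ₁, Q.ord_inv]
      push_cast; ring
    | right Q hQ =>
      simp only [Glued.secDiv_right, d.red_mk, e₂, u, Curve.ord_pow']
      rw [show d.g₂.red ⟨G, hG.2⟩ = ψ₂ from q2, Q.ord_one]
      push_cast; ring
    | node i =>
      simp only [Glued.secDiv_node, d.red_mk, e₁, e₂, u, Curve.ord_pow']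
      rw [show d.g₁.red ⟨G, hG.1⟩ = g₁ * ψ₁ from q1, show d.g₂.red ⟨G, hG.2⟩ = ψ₂ from q2,
        (d.C.x i).ord_mul hg₁0 hψ₁, (d.C.x i).ord_inv, (d.C.y i).ord_one]
      ring
  refine ⟨fun i => (c i)⁻¹, D'', hclass, ⟨hgood, ?_, ?_⟩, u, hun, ?_, ?_, fun i => ?_⟩
  · rw [hsec, d.C.part₁_secDiv_zero hun, degree_divisorOf]
  · rw [hsec, d.C.part₂_secDiv_zero hun, degree_divisorOf]
  · rw [hsec, d.C.part₁_secDiv_zero hun]
  · rw [hsec, d.C.part₂_secDiv_zero hun]
  · show valueAt (d.C.x i) g₁⁻¹ = _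
    rw [valueAt_inv _ (hgu i), hgv i, hone, mul_one]

/-- **Roots on both components make the class toric.** -/
theorem exists_hasToric_of_roots {D' : Divisor.degZero (K := K) (F := F)} {t : F}
    (ht : IsDiscUnit d t) (hD : p • (D' : Divisor K F) = divisorOf t) {ψ₁ : F₁} {ψ₂ : F₂}
    (e₁ : d.g₁.red ⟨t, ht.1.1⟩ = ψ₁ ^ p) (e₂ : d.g₂.red ⟨t, ht.1.2⟩ = ψ₂ ^ p) :
    ∃ c, d.HasToric (Pic0.mk D') c := by
  classical
  set N : Divisor K F := (-(D' : Divisor K F)).mapRange (fun a => max a 0) (max_self 0)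
  have hN : 0 ≤ N := Finsupp.le_def.mpr fun v => by simp [N]
  obtain ⟨l, s, hs, -, hsN, s1, s2, -⟩ :=
    d.exists_section_ge hN ∅ fun _ _ => Finset.notMem_empty _
  have hs0 := d.ne_zero_of_red_fst hs s1
  have hsu : IsDiscUnit d s := ⟨hs, s1, s2⟩
  have htu : IsDiscUnit d (t * s ^ p) := ht.mul (hsu.pow p)
  let D₁ : Divisor.degZero (K := K) (F := F) := ⟨(D' : Divisor K F) + divisorOf s, by
    rw [Divisor.mem_degZero, map_add, D'.2, degree_divisorOf, add_zero]⟩
  have hclass : Pic0.mk D₁ = Pic0.mk D' := by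
    refine QuotientAddGroup.eq.mpr ?_
    rw [AddSubgroup.mem_addSubgroupOf]
    exact ⟨s⁻¹, inv_ne_zero hs0, fun P => by simp [D₁, Place.ord_inv]⟩
  rw [← hclass]
  refine exists_hasToric_of_roots_effective d hp (l := l) htu ?_ ?_
    (ψ₁ := ψ₁ * d.g₁.red ⟨s, hs.1⟩) (ψ₂ := ψ₂ * d.g₂.red ⟨s, hs.2⟩) ?_ ?_
  · show p • ((D' : Divisor K F) + divisorOf s) = _
    rw [smul_add, hD]
    ext v
    simp [v.ord_mul ht.ne_zero (pow_ne_zero p hs0), Curve.ord_pow']
  · refine Finsupp.le_def.mpr fun v => ?_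
    have h1 := neg_le_ord_of_le_exp hs0 (hsN v)
    have h2 : -((D' : Divisor K F) v) ≤ N v := by simp [N]
    simp only [D₁, Finsupp.coe_zero, Pi.zero_apply, Finsupp.sub_apply, Finsupp.add_apply,
      divisorOf_apply] at h1 ⊢
    linarith
  · rw [mul_pow, ← e₁, ← map_pow, ← map_mul]; rfl
  · rw [mul_pow, ← e₂, ← map_pow, ← map_mul]; rfl

end FermatAgent.MazurPrinciple.Away
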