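import Fermat.Agent.MazurPrinciple.Away.SwapLevel
import Fermat.Agent.MazurPrinciple.Away.ToricRoots
import Fermat.Agent.MazurPrinciple.Level
import Fermat.Agent.MazurPrinciple.Contraction

/-!
# Toric classes seen over `ℚ̄`

The reductions of `levelData` at `place₀ q` and of the torus datum over `ℂ` agree on functions
defined over `ℚ̄`; so a torsion class of level `q N'` whose function reduces to powers on both
components has a toric invariant.
-/

set_option autoImplicit false
set_option maxHeartbeats 1600000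

noncomputable section

open ModularCurve AlgebraicCurve

namespace FermatAgent.MazurPrinciple.Away

open FermatAgent.Curve FermatAgent.Curve.RR FermatAgent.Curve.Descent FermatAgent.ModFun
open FermatAgent.BadRed.Semistable FermatAgent.ModCurveTorsion FermatAgent.Igusa
open FermatAgent.ModCurve.Points (FieldC)

local notation "ℚbar" => AlgebraicClosure ℚ

attribute [local instance] neZero_prime charZero_of_algebraRat isFunctionField1_laurent

variable {q : ℕ} [Fact q.Prime] {N' : ℕ} [NeZero N'] (hco : q.Coprime N') [NeZero (q * N')]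

/-- Extending the constants does not change the reduction. -/
theorem levelGauss_red_emb {K : Type*} [Field K] [Algebra ℚ K] {A₀ : ValuationSubring ℚbar}
    {A : ValuationSubring K} {π : A →+* IsLocalRing.ResidueField A₀} (P : PlaceHom A₀ A π)
    [CharP (IsLocalRing.ResidueField A₀) q] (hA : A₀.LiesOverPrime q)
    {f : laurentBaseChange ℚbar (modularFunctionFieldFull (q * N'))}
    {f' : laurentBaseChange K (modularFunctionFieldFull (q * N'))}
    (e : (f' : LaurentSeries K) = coeffMap P.emb (f : LaurentSeries ℚbar))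
    (hf : f ∈ (levelGauss (placeHom q A₀ hA).surjective hco (placeHom q A₀ hA).arch).integers) :
    ∃ hf' : f' ∈ (levelGauss P.surjective hco P.arch).integers,
      (levelGauss P.surjective hco P.arch).red ⟨f', hf'⟩ =
        (levelGauss (placeHom q A₀ hA).surjective hco (placeHom q A₀ hA).arch).red ⟨f, hf⟩ := by
  obtain ⟨y, z, h⟩ : ∃ y z, IsSeriesRep A₀ (IsLocalRing.residue A₀) (f : LaurentSeries ℚbar) y z :=
    mem_fieldInt (q * N') hf
  have c1 : ∀ w : LaurentSeries A₀,
      coeffMap A.subtype (coeffMap P.embInt w) = coeffMap P.emb (coeffMap A₀.subtype w) := fun w => by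
    rw [coeffMap_coeffMap, coeffMap_coeffMap, coeffMap_congr P.subtype_comp_embInt]
  have c2 : ∀ w : LaurentSeries A₀,
      coeffMap π (coeffMap P.embInt w) = coeffMap (IsLocalRing.residue A₀) w := fun w => by
    rw [coeffMap_coeffMap, coeffMap_congr P.pi_comp_embInt]
  have h' : IsSeriesRep A π (f' : LaurentSeries K) (coeffMap P.embInt y) (coeffMap P.embInt z) :=
    ⟨by rw [c2]; exact h.1, by rw [c1, c1, e, ← map_mul, h.2]⟩
  obtain ⟨_, e0⟩ := seriesGauss_red_of_rep (M := q * N') q (placeHom q A₀ hA).surjective h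
  obtain ⟨hh, e1⟩ := seriesGauss_red_of_rep (M := q * N') q P.surjective h'
  have hh' : f' ∈ (levelGauss P.surjective hco P.arch).integers := hh
  refine ⟨hh', Subtype.ext ?_⟩
  refine e1.trans (Eq.trans ?_ e0.symm)
  rw [c2, c2]

attribute [local instance] qbarAlgebraC qbarAlgebraFieldC fieldBarAlgebraC
  qbar_isScalarTower_const qbar_isScalarTower_ext qbar_isConstantExtension isAlgClosed_kRes
  charP_kRes

variable [IsFunctionField1 (KRes q) (modularFunctionFieldFullC (KRes q) N')]

/-- **A class whose function reduces to powers on both components is toric.** -/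
theorem exists_hasTor_of_roots {p : ℕ} (hp : p ≠ 0)
    {D : Divisor.degZero (K := ℚbar) (F := FieldBar (q * N'))} {t : FieldBar (q * N')}
    (hD : p • (D : Divisor ℚbar (FieldBar (q * N'))) = divisorOf t)
    (u₁ : IsUnitAt (levelData q (place₀ q) (liesOverPrime_place₀ q) hco).g₁ t)
    (u₂ : IsUnitAt (levelData q (place₀ q) (liesOverPrime_place₀ q) hco).g₂ t)
    {ψ₁ ψ₂ : modularFunctionFieldFullC (KRes q) N'}
    (e₁ : (levelData q (place₀ q) (liesOverPrime_place₀ q) hco).g₁.red ⟨t, u₁.1⟩ = ψ₁ ^ p)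
    (e₂ : (levelData q (place₀ q) (liesOverPrime_place₀ q) hco).g₂.red ⟨t, u₂.1⟩ = ψ₂ ^ p) :
    ∃ c, HasTor q N' hco (Pic0.mk D) c := by
  set t' := algebraMap (FieldBar (q * N')) (FieldC (q * N')) t
  have hq := liesOverPrime_place₀ q
  obtain ⟨m₁, r₁⟩ := levelGauss_red_emb hco (placeHomC q) hq
    (f' := t') (f := t) (coe_algebraMap_fieldBar (q * N') t) u₁.1
  obtain ⟨m₂, r₂⟩ := levelGauss_red_emb hco (placeHomC q) hq
    (f' := atkinLehnerBar hco ℂ t') (f := atkinLehnerBar hco ℚbar t) (by
      rw [show atkinLehnerBar hco ℂ t' = _ from algebraMap_alBar hco t]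
      exact coe_algebraMap_fieldBar (q * N') _) u₂.1
  have i₁ : t' ∈ (torusDatum q N' hco).g₁.integers := m₁
  have i₂ : t' ∈ (torusDatum q N' hco).g₂.integers := m₂
  have q₁ : (torusDatum q N' hco).g₁.red ⟨t', i₁⟩ = ψ₁ ^ p := r₁.trans e₁
  have q₂ : (torusDatum q N' hco).g₂.red ⟨t', i₂⟩ = ψ₂ ^ p := r₂.trans e₂
  have n₁ : (torusDatum q N' hco).g₁.red ⟨t', i₁⟩ ≠ 0 := by rw [q₁, ← e₁]; exact u₁.2
  have n₂ : (torusDatum q N' hco).g₂.red ⟨t', i₂⟩ ≠ 0 := by rw [q₂, ← e₂]; exact u₂.2
  unfold HasTor
  rw [jBaseC_mk]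
  refine exists_hasToric_of_roots (torusDatum q N' hco) hp (t := t') ⟨⟨i₁, i₂⟩, n₁, n₂⟩ ?_ q₁ q₂
  show p • divBaseC (q * N') (D : Divisor ℚbar (FieldBar (q * N'))) = _
  rw [← map_nsmul, hD, divBaseC_divisorOf]

end FermatAgent.MazurPrinciple.Away
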