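import Fermat.Agent.MazurPrinciple.Away.Assembly
import Fermat.Agent.MazurPrinciple.General.Descent
import Fermat.Agent.MazurPrinciple.AwayThree.GoodPrime

/-!
# Eigen functions away from the residue characteristic reduce to powers

The reduction of an eigen function of level `q N` is a residual eigen function of level `N`. Its
orders are divisible by `p` at the auxiliary level and at the cusps, so at level `N`: for `p ≥ 5`
the degree is prime to `p`, and for `p = 3` a Hecke operator at a prime `≡ 2 mod 3` removes the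
elliptic points. As the system is absent at level `N` it is a `p`-th power.
-/

set_option autoImplicit false
set_option linter.style.haveILetI false
set_option maxHeartbeats 800000

noncomputable section

namespace FermatAgent.MazurPrinciple.Away

open AlgebraicCurve ModularCurve IsLocalRing
open FermatAgent.Curve (divisorOf IsFunctionField1)
open FermatAgent.BadRed.Semistable
open FermatAgent.BadRed
open FermatAgent.BadRed.AtP (rootK qExpand_heckeNorm rootK_primitive exists_rootUnit)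
open FermatAgent.JacCharts (GoodReductionDatum)
open FermatAgent.ModFun FermatAgent.ES

local notation "Qb" => AlgebraicClosure ℚ
local notation "𝐅" N:max => laurentBaseChange Qb (modularFunctionFieldFull N)

attribute [local instance] ModCurveTorsion.isFunctionField1_laurent
attribute [local instance] isAlgClosed_residue

/-- Adding the square of a prime `ℓ` to the level multiplies the index by a divisor of
`ℓ (ℓ + 1)`. -/
theorem exists_dedekindPsi_lcm_sq {ℓ N : ℕ} (hℓ : ℓ.Prime) (hN : N ≠ 0) :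
    ∃ k, dedekindPsi (Nat.lcm (ℓ ^ 2) N) = k * dedekindPsi N ∧ k ∣ ℓ * (ℓ + 1) := by
  by_cases h2 : ℓ ^ 2 ∣ N
  · exact ⟨1, by rw [Nat.lcm_eq_right h2, one_mul], one_dvd _⟩
  by_cases h1 : ℓ ∣ N
  · refine ⟨ℓ, ?_, dvd_mul_right _ _⟩
    obtain ⟨m, rfl⟩ := h1
    have hm : ℓ.Coprime m := hℓ.coprime_iff_not_dvd.mpr fun h => h2 (by
      rw [sq]; exact mul_dvd_mul_left _ h)
    rw [show Nat.lcm (ℓ ^ 2) (ℓ * m) = ℓ * m * ℓ by
      rw [sq, Nat.lcm_mul_left, hm.lcm_eq_mul]; ring,
      ModCurveTorsion.dedekindPsi_mul_of_dvd hN hℓ (dvd_mul_right ℓ m)]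
  · refine ⟨ℓ * (ℓ + 1), ?_, dvd_rfl⟩
    have hm : Nat.Coprime (ℓ ^ 2) N := (hℓ.coprime_iff_not_dvd.mpr h1).pow_left 2
    rw [hm.lcm_eq_mul, show ℓ ^ 2 * N = N * ℓ * ℓ by ring,
      ModCurveTorsion.dedekindPsi_mul_of_dvd (mul_ne_zero hN hℓ.ne_zero) hℓ (dvd_mul_left ℓ N),
      ModCurveTorsion.dedekindPsi_mul_of_not_dvd hN hℓ h1]
    ring

/-- The auxiliary level multiplies the index by a divisor of `12`. -/
theorem exists_dedekindPsi_lcm_auxLevel (q : ℕ) {N : ℕ} (hN : N ≠ 0) :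
    ∃ k, dedekindPsi (Nat.lcm (auxLevel q) N) = k * dedekindPsi N ∧ k ∣ 12 := by
  rw [auxLevel]
  split_ifs
  · obtain ⟨k, h1, h2⟩ := exists_dedekindPsi_lcm_sq Nat.prime_three hN
    exact ⟨k, h1, h2.trans (by norm_num)⟩
  · obtain ⟨k, h1, h2⟩ := exists_dedekindPsi_lcm_sq Nat.prime_two hN
    exact ⟨k, h1, h2.trans (by norm_num)⟩

variable {q p : ℕ} [hq : Fact q.Prime] [hp : Fact p.Prime] {A : ValuationSubring Qb}
  (hA : A.LiesOverPrime q) {N : ℕ} [NeZero N] [NeZero (q * N)] (hN : q.Coprime N)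
  [IsFunctionField1 (ResidueField A) (FibField A N)]

/-- **The residual eigen relation**, for an exponent other than the residue characteristic. -/
theorem exists_residual_eigen_away {ℓ : ℕ} [hℓ : Fact ℓ.Prime] [NeZero ℓ] [NeZero (ℓ * N)]
    [NeZero (ℓ * (q * N))] (hℓN : ℓ.Coprime (q * N)) {u g : 𝐅 (q * N)}
    (hu : IsUnitAt (levelData q A hA hN).g₁ u) {c : Qb} {a : ℤ}
    (hT : BadRed.AtP.heckeNorm Qb hℓN u = c • (u ^ a * g ^ p)) :
    ∃ (f : modularFunctionFieldBar N) (h : FibField A N),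
      (Igusa.Down.datum N hq.out ((Nat.Prime.coprime_iff_not_dvd hq.out).mp hN) hA).RedsTo f
          ((levelData q A hA hN).g₁.red ⟨u, hu.1⟩) ∧
        (Igusa.Down.datum N hq.out ((Nat.Prime.coprime_iff_not_dvd hq.out).mp hN) hA).RedsTo
          (Mazur.Step3.corrNorm N ℓ f)
          ((levelData q A hA hN).g₁.red ⟨u, hu.1⟩ ^ a * h ^ p) := by
  haveI := charP_residue_place q A hA
  haveI := Igusa.Down.isFunctionField1_bar N
  have hπ : Function.Surjective (residue A) := residue_surjective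
  set g₁ := (levelData q A hA hN).g₁
  set φ := g₁.red ⟨u, hu.1⟩ with hφ
  set d := Igusa.Down.datum N hq.out ((Nat.Prime.coprime_iff_not_dvd hq.out).mp hN) hA
  have hd : d.IsLaurent :=
    Igusa.Down.isLaurent_datum N hq.out ((Nat.Prime.coprime_iff_not_dvd hq.out).mp hN) hA
  obtain ⟨r, hr⟩ := exists_rootUnit A ℓ
  -- the norm of `u` is a unit
  have hTu : IsUnitAt g₁ (BadRed.AtP.heckeNorm Qb hℓN u) :=
    (AtP.levelHecke₁ q A hA hN ⊤ ⊤ (q : A) 1 (mul_one _).symm hℓN).isUnitAt u hu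
  have hg : g ≠ 0 := fun e => hTu.ne_zero (by
    rw [hT, e, zero_pow hp.out.ne_zero, mul_zero, smul_zero])
  obtain ⟨s, hs, hs'⟩ := g₁.exists_normalize g hg
  have hs0 : s ≠ 0 := fun e => hs' (by
    rw [g₁.red_congr (show s • g = 0 by rw [e, zero_smul]) hs]; exact map_zero g₁.red)
  obtain ⟨hua, hua'⟩ := exists_red_zpow g₁ hπ hu a
  have huaU : IsUnitAt g₁ (u ^ a) := ⟨hua, by rw [hua']; exact zpow_ne_zero _ hu.2⟩
  set c' := c * (s ^ p)⁻¹
  have hT' : BadRed.AtP.heckeNorm Qb hℓN u = c' • (u ^ a * (s • g) ^ p) := by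
    rw [hT, smul_pow, mul_smul_comm, smul_smul, mul_assoc,
      inv_mul_cancel₀ (pow_ne_zero _ hs0), mul_one]
  have hvu : IsUnitAt g₁ (u ^ a * (s • g) ^ p) := huaU.mul (IsUnitAt.pow (g := g₁) ⟨hs, hs'⟩ p)
  have hc' : c' ∈ A := g₁.mem_of_smul_mem hπ hvu.1 hvu.2 (hT' ▸ hTu.1)
  obtain ⟨ρ, hρ⟩ := IsAlgClosed.exists_pow_nat_eq (residue A ⟨c', hc'⟩) hp.out.pos
  set h := ρ • g₁.red ⟨s • g, hs⟩
  have hred : g₁.red ⟨BadRed.AtP.heckeNorm Qb hℓN u, hTu.1⟩ = φ ^ a * h ^ p := by
    rw [g₁.red_congr hT' hTu.1, g₁.red_smul hc' hvu.1, show (⟨u ^ a * (s • g) ^ p, hvu.1⟩ :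
        g₁.integers) = ⟨u ^ a, hua⟩ * ⟨s • g, hs⟩ ^ p from rfl, map_mul, map_pow, hua', smul_pow,
      hρ, mul_smul_comm]
  -- a lift at level `N` with the same reduction
  have hne : φ ≠ 0 := hu.2
  haveI : Nonempty (Place Qb (modularFunctionFieldBar N)) := ⟨Mazur.Step3.cInf N⟩
  obtain ⟨f, hf⟩ := exists_redsTo d hne
  obtain ⟨y', z', hy', hz', hz0', hxyz⟩ := hd.exists_fraction ⟨f, hf.mem⟩
  let Y : LaurentSeries A := ⟨fun n => ⟨_, hy' n⟩,
    ((y' : modularFunctionFieldBar N) : LaurentSeries Qb).isPWO_support.mono fun n hn e =>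
      hn (Subtype.ext e)⟩
  let Z : LaurentSeries A := ⟨fun n => ⟨_, hz' n⟩,
    ((z' : modularFunctionFieldBar N) : LaurentSeries Qb).isPWO_support.mono fun n hn e =>
      hn (Subtype.ext e)⟩
  have hY : coeffMap (residue A) Y = (d.red y' : LaurentSeries (ResidueField A)) :=
    HahnSeries.ext (funext fun n => (hd.coeff_red y' hy' n).symm)
  have hZ : coeffMap (residue A) Z = (d.red z' : LaurentSeries (ResidueField A)) :=
    HahnSeries.ext (funext fun n => (hd.coeff_red z' hz' n).symm)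
  have hrep : IsSeriesRep A (residue A) (f : LaurentSeries Qb) Y Z := by
    refine ⟨fun e => hz0' (Subtype.ext (hZ ▸ e)), ?_⟩
    have e1 := congrArg (fun w : d.integers => ((w : modularFunctionFieldBar N) :
      LaurentSeries Qb)) hxyz
    exact (congrArg _ (HahnSeries.ext rfl)).trans (e1.trans (HahnSeries.ext rfl))
  have hfφ : coeffMap (residue A) Y / coeffMap (residue A) Z =
      (φ : LaurentSeries (ResidueField A)) := by
    rw [hY, hZ, div_eq_iff (fun e => hz0' (Subtype.ext e)), ← MulMemClass.coe_mul, ← hf.2,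
      ← map_mul, hxyz]
  obtain ⟨y₀, z₀, hrep₀⟩ := exists_rep_of_mem hA hN hu.1
  have hφ₀ : coeffMap (residue A) y₀ / coeffMap (residue A) z₀ =
      (φ : LaurentSeries (ResidueField A)) := by
    obtain ⟨_, e⟩ := levelData_red_of_rep hA hN hrep₀
    exact e.symm
  obtain ⟨Y₀, Z₀, hrepT, eT⟩ := exists_rep_redHecke (π := residue A) hr
    (qExpand_heckeNorm hℓN (rootK_primitive hr) u) hrep₀
  obtain ⟨hTm, eTred⟩ := levelData_red_of_rep hA hN hrepT
  have hℓN' : ℓ.Coprime N := hℓN.coprime_dvd_right (dvd_mul_left N q)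
  obtain ⟨Y₁, Z₁, hrep₁, e₁⟩ := exists_rep_redHecke (π := residue A) hr
    (qExpand_heckeNorm hℓN' (rootK_primitive hr) f) hrep
  rw [← torsion_heckeNorm_eq hℓN'] at hrep₁
  obtain ⟨fb, hfb, efb⟩ := redsTo_of_seriesRep hd (f := Mazur.Step3.corrNorm N ℓ f) hrep₁
  refine ⟨f, h, hf, ?_⟩
  suffices fb = φ ^ a * h ^ p from this ▸ hfb
  rw [← hred]
  refine Subtype.ext (qExpand_injective (R := ResidueField A) ℓ ?_)
  rw [efb, eTred, eT, e₁, hfφ, hφ₀]

variable {M : ℕ} [NeZero M] (hd : N ∣ M) [IsFunctionField1 (ResidueField A) (FibField A M)]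

omit [IsFunctionField1 (ResidueField A) (FibField A N)]
  [IsFunctionField1 (ResidueField A) (FibField A M)] in
theorem fibBase_eq_fibIncl (x : FibField A N) : fibBase A hd x = AwayThree.fibIncl A hd x :=
  Subtype.ext rfl

include hA hN in
/-- **The residual step.** -/
theorem residualStep {W : WeierstrassCurve ℤ} (hp2 : p ≠ 2) (hW : W.Δ ≠ 0)
    (hss : W.IsSemistableModel) (hirr : W.ModRepIsIrreducible p) (hqp : q ≠ p)
    (hM : q.Coprime M) (hMaux : M = Nat.lcm (auxLevel q) N)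
    (hno : ¬ HasCongruentForm W.apOfModel p N (badSet W p (q * N))) :
    ResidualStep (M := M) hA hd hN p (badSet W p (q * N)) W.apOfModel := by
  intro t heig h₁ hcusp hord
  set S := badSet W p (q * N)
  set φ := (levelData q A hA hN).g₁.red ⟨t, h₁.1⟩ with hφdef
  have hφ : φ ≠ 0 := h₁.2
  have hqN : ¬ q ∣ N := (Nat.Prime.coprime_iff_not_dvd hq.out).mp hN
  have hMS : ∀ l : ℕ, l.Prime → l ∣ q * N → l ∈ S := fun l => mem_badSet_of_dvd W
  have : NeZero (q * M) := ⟨Nat.mul_ne_zero hq.out.ne_zero (NeZero.ne M)⟩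
  -- the eigen relations
  have hres : ∀ (l : ℕ) [NeZero l], l.Prime → ¬ l ∣ N → l ∉ S →
      ∃ f h, (Igusa.Down.datum N hq.out hqN hA).RedsTo f φ ∧
        (Igusa.Down.datum N hq.out hqN hA).RedsTo (Mazur.Step3.corrNorm N l f)
          (φ ^ W.apOfModel l * h ^ p) := fun l _ hl hlN hlS => by
    have : Fact l.Prime := ⟨hl⟩
    have : NeZero (l * N) := ⟨Nat.mul_ne_zero hl.ne_zero (NeZero.ne N)⟩
    have : NeZero (l * (q * N)) := ⟨Nat.mul_ne_zero hl.ne_zero (NeZero.ne _)⟩
    have hlc : l.Coprime (q * N) := hl.coprime_iff_not_dvd.mpr fun h => hlS (hMS l hl h)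
    obtain ⟨c, g, e⟩ := heig l hlc hlS
    exact exists_residual_eigen_away hA hN hlc h₁ e
  -- the orders at level `N`
  have hord₀ : ∀ Q : Place (ResidueField A) (FibField A N), (p : ℤ) ∣ Q.ord φ := by
    by_cases hp5 : 5 ≤ p
    · refine dvd_ord_of_fibBase hd ?_ hφ hord
      obtain ⟨k, hk, hk12⟩ := exists_dedekindPsi_lcm_auxLevel q (NeZero.ne N)
      rw [← hMaux] at hk
      rw [Nat.eq_of_mul_eq_mul_left (ModCurveTorsion.dedekindPsi_pos (NeZero.ne N))
        ((dedekindPsi_mul_finrankAlong_fibBase hA hd hN hM).trans (hk.trans (mul_comm _ _)))]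
      intro h
      have h12 : p ∣ 2 ^ 2 * 3 := h.trans hk12
      rcases (Fact.out : p.Prime).dvd_mul.mp h12 with h' | h'
      · have := Nat.le_of_dvd two_pos ((Fact.out : p.Prime).dvd_of_dvd_pow h'); omega
      · have := Nat.le_of_dvd three_pos h'; omega
    · obtain rfl : p = 3 := by
        have := (Fact.out : p.Prime).two_le
        have : p ≠ 4 := fun e => absurd (Fact.out : p.Prime) (by rw [e]; decide)
        omega
      have hS : RTLift.Finish.Setting W 3 := ⟨Or.inl rfl, hW, hss, hirr⟩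
      obtain ⟨l, hl, hlS, hl3, hal⟩ :=
        AwayThree.exists_good_prime hS (finite_badSet W hW 3 (q * N)).toFinset
      rw [Set.Finite.mem_toFinset] at hlS
      have : NeZero l := ⟨hl.ne_zero⟩
      have hlN : ¬ l ∣ N := fun h => hlS (hMS l hl (h.mul_left q))
      have haux : (5 ≤ q ∧ (4 ∣ M ∨ 9 ∣ M)) ∨ (q = 2 ∧ 9 ∣ M) := by
        by_cases h : q = 2
        · refine Or.inr ⟨h, ?_⟩
          rw [hMaux, auxLevel, if_pos h]
          exact Nat.dvd_lcm_left 9 N
        · refine Or.inl ⟨?_, Or.inl ?_⟩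
          · have := hq.out.two_le
            have : q ≠ 4 := fun e => absurd hq.out (by rw [e]; decide)
            omega
          · rw [hMaux, auxLevel, if_neg h]
            exact Nat.dvd_lcm_left 4 N
      exact General.dvd_ord_of_aux hA hqN ((Nat.Prime.coprime_iff_not_dvd hq.out).mp hM) hd haux
        hl hlN hl3 hal hφ (fun R => by rw [← fibBase_eq_fibIncl]; exact hord R) hcusp
        (hres l hl hlN hlS)
  exact exists_pow_eq_of_absent (Igusa.Down.isLaurent_datum N hq.out hqN hA)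
    (fun l hl hlN => hMS l hl (hlN.mul_left q)) hno hφ hord₀ hres

/-- The residual step of `AwaySteps`. -/
theorem residualStep_lcm {W : WeierstrassCurve ℤ} {p : ℕ} [Fact p.Prime] (hp2 : p ≠ 2)
    (hW : W.Δ ≠ 0) (hss : W.IsSemistableModel) (hirr : W.ModRepIsIrreducible p) {q N : ℕ}
    [Fact q.Prime] [NeZero N] [NeZero (q * N)] (hN : q.Coprime N) (hqp : q ≠ p)
    (hno : ¬ HasCongruentForm W.apOfModel p N (badSet W p (q * N))) {A : ValuationSubring Qb}
    (hA : A.LiesOverPrime q) [IsFunctionField1 (ResidueField A) (FibField A N)]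
    [IsFunctionField1 (ResidueField A) (FibField A (Nat.lcm (auxLevel q) N))]
    [NeZero (Nat.lcm (auxLevel q) N)] :
    ResidualStep (M := Nat.lcm (auxLevel q) N) hA (Nat.dvd_lcm_right _ N) hN p
      (badSet W p (q * N)) W.apOfModel := by
  have hq : q.Prime := Fact.out
  have hML : q.Coprime (Nat.lcm (auxLevel q) N) := hq.coprime_iff_not_dvd.mpr fun h' => by
    rcases hq.dvd_mul.mp (h'.trans (Nat.lcm_dvd_mul _ N)) with h'' | h''
    · exact hq.coprime_iff_not_dvd.mp (auxLevel_coprime hq) h''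
    · exact hq.coprime_iff_not_dvd.mp hN h''
  exact residualStep hA hN _ hp2 hW hss hirr hqp hML rfl hno

end FermatAgent.MazurPrinciple.Away

end
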