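import Fermat.Agent.MazurPrinciple.Away.Image
import Fermat.Agent.MazurPrinciple.Away.Residual

/-!
# Removing `q ≢ 1 mod p` from the level of an unramified residual system
-/

set_option autoImplicit false

noncomputable section

namespace FermatAgent.MazurPrinciple.Away

open FermatAgent.BadRed.Semistable

/-- The two steps hold. -/
theorem awaySteps : AwaySteps := by
  intro W p _ hp2 hW hss hirr q N _ _ _ hN _ hqp _ hno
  refine ⟨fun {_} _ _ => residualStep_lcm hp2 hW hss hirr hN hqp hno (liesOverPrime_place₀ q), ?_⟩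
  intro D t hD h₁ h₂ e₁ e₂
  obtain ⟨ψ₁, e₁⟩ := e₁
  obtain ⟨ψ₂, e₂⟩ := e₂
  exact exists_hasTor_of_roots hN (Fact.out : p.Prime).ne_zero hD h₁ h₂ e₁ e₂

/-- **Mazur's principle away from the residue characteristic.** -/
theorem qLoweringNe : Wiring.Final.QLoweringNe := qLoweringNe_of_steps awaySteps

end FermatAgent.MazurPrinciple.Away

end
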