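import Fermat.Agent.MazurPrinciple.Away.NodeFactor
import Fermat.Agent.BadRed.Semistable.Inject

/-!
# Moving a torsion divisor away from the nodes

If `n D' = div f` with `f` divisible by `n` on both components, then for a suitable `h` the
divisor `D' - div h` avoids the nodes, and `f / h ^ n` has non-zero reductions on both components,
with equal non-zero values at the nodes and orders divisible by `n` everywhere.
-/

set_option autoImplicit false
set_option linter.unusedSectionVars false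
set_option linter.style.haveILetI false

noncomputable section

namespace FermatAgent.MazurPrinciple.Away

open Polynomial IsLocalRing AlgebraicCurve
open FermatAgent.Curve FermatAgent.Curve.RR FermatAgent.BadRed.Semistable
open FermatAgent.BadRed.Carayol

/-- Order zero from a non-zero value. -/
theorem ord_eq_zero_of_value {k G : Type*} [Field k] [IsAlgClosed k] [Field G] [Algebra k G]
    [IsFunctionField1 k G] {v : Place k G} {f : G} (hf : v.adicValuation f ≤ 1)
    (h : valueAt v f ≠ 0) : f ≠ 0 ∧ v.ord f = 0 := by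
  rw [ne_eq, valueAt_eq_zero_iff v (mem_of_le_one hf), not_or] at h
  have := (mem_iff_ord_nonneg' v).mp (mem_of_le_one hf)
  exact ⟨h.1, by omega⟩

section Datum

variable {L : Type*} [Field L] [IsAlgClosed L] {A : ValuationSubring L} {k : Type*} [Field k]
  [IsAlgClosed k] {π : A →+* k} {E G₁ G₂ : Type*} [Field E] [Field G₁] [Field G₂]
  [Algebra L E] [Algebra k G₁] [Algebra k G₂] [IsFunctionField1 L E] [IsFunctionField1 k G₁]
  [IsFunctionField1 k G₂] [RRSetting L E] [RRSetting k G₁] [RRSetting k G₂] [Infinite k]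
variable (d : NodalDatum A π E G₁ G₂)

/-- Orders of the reductions are divisible by `n` when those of the function are. -/
theorem dvd_ord_red {t : E} (h : t ∈ d.int) (hu : d.C.UnitNodes (d.red ⟨t, h⟩)) {n : ℕ}
    (hord : ∀ P : Place L E, (n : ℤ) ∣ P.ord t) :
    (∀ Q : Place k G₁, (n : ℤ) ∣ Q.ord (d.red ⟨t, h⟩).1) ∧
      ∀ Q : Place k G₂, (n : ℤ) ∣ Q.ord (d.red ⟨t, h⟩).2 := by
  classical
  have hm : ∀ ω, (n : ℤ) ∣ Finsupp.mapDomain d.place (divisorOf (K := L) t) ω := fun ω => by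
    rw [d.mapDomain_place_apply]
    exact Finset.dvd_sum fun P _ => by
      split_ifs
      · rw [divisorOf_apply]; exact hord P
      · exact dvd_zero _
  rw [d.mapDomain_divisorOf h hu.1 hu.2.1] at hm
  refine ⟨fun Q => ?_, fun Q => ?_⟩
  · by_cases hQ : ∃ i, d.C.x i = Q
    · obtain ⟨i, rfl⟩ := hQ
      rw [(hu.2.2 i).1]; exact dvd_zero _
    · push Not at hQ
      simpa [Glued.secDiv_left] using hm (.left Q hQ)
  · by_cases hQ : ∃ i, d.C.y i = Q
    · obtain ⟨i, rfl⟩ := hQ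
      rw [(hu.2.2 i).2]; exact dvd_zero _
    · push Not at hQ
      simpa [Glued.secDiv_right] using hm (.right Q hQ)

/-- A divisor whose multiple is the divisor of a unit at the nodes is balanced. -/
theorem isBal_of_nsmul_eq {t : E} (h : t ∈ d.int) (hu : d.C.UnitNodes (d.red ⟨t, h⟩))
    (hg : d.IsGood (divisorOf (K := L) t)) {n : ℕ} (hn : 0 < n) {D : Divisor L E}
    (hD : n • D = divisorOf t) :
    d.IsBal D ∧ n • d.C.part₁ (d.redDiv D) = divisorOf (d.red ⟨t, h⟩).1 ∧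
      n • d.C.part₂ (d.redDiv D) = divisorOf (d.red ⟨t, h⟩).2 := by
  have e : n • d.redDiv D = d.C.secDiv 0 (d.red ⟨t, h⟩) := by
    rw [← map_nsmul, hD, d.redDiv_apply, d.mapDomain_divisorOf h hu.1 hu.2.1]
  have e₁ : n • d.C.part₁ (d.redDiv D) = divisorOf (d.red ⟨t, h⟩).1 := by
    rw [← map_nsmul, e, d.C.part₁_secDiv_zero hu]
  have e₂ : n • d.C.part₂ (d.redDiv D) = divisorOf (d.red ⟨t, h⟩).2 := by
    rw [← map_nsmul, e, d.C.part₂_secDiv_zero hu]
  refine ⟨⟨fun P hP => hg P ?_, ?_, ?_⟩, e₁, e₂⟩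
  · rw [← hD, Finsupp.smul_apply]
    exact smul_ne_zero hn.ne' hP
  · have := congrArg Divisor.degree e₁
    rw [map_nsmul, degree_divisorOf, smul_eq_zero] at this
    exact this.resolve_left hn.ne'
  · have := congrArg Divisor.degree e₂
    rw [map_nsmul, degree_divisorOf, smul_eq_zero] at this
    exact this.resolve_left hn.ne'

end Datum

section Chart

variable {q : ℕ} [Fact q.Prime] {W K F F₁ F₂ : Type*}
  [CommRing W] [IsDomain W] [IsDiscreteValuationRing W] [IsAlgClosed (IsLocalRing.ResidueField W)]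
  [Field K] [CharZero K] [Algebra W K] [IsFractionRing W K]
  [Field F] [Field F₁] [Field F₂] [Algebra K F] [Algebra K F₁] [Algebra K F₂]
  [Algebra W F] [Algebra W F₁] [Algebra W F₂]
  [IsScalarTower W K F] [IsScalarTower W K F₁] [IsScalarTower W K F₂]
  {T : QTower q K F F₁ F₂} {u : F}
variable {L : Type*} [Field L] [IsAlgClosed L] {A : ValuationSubring L} {k : Type*} [Field k]
  [IsAlgClosed k] {π : A →+* k} {E G₁ G₂ : Type*} [Field E] [Field G₁] [Field G₂]
  [Algebra L E] [Algebra k G₁] [Algebra k G₂] [IsFunctionField1 L E] [IsFunctionField1 k G₁]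
  [IsFunctionField1 k G₂] [RRSetting L E] [RRSetting k G₁] [RRSetting k G₂] [Infinite k]
variable {d : NodalDatum A π E G₁ G₂}

/-- Orders on the big curve are divisible when the function is divisible over the small field. -/
theorem dvd_ord_hom (C : ChartLink W T u d) {f : F₁} (hf : f ≠ 0) {n : ℕ}
    (hdiv : DivisibleOn K f n) (P : Place L E) : (n : ℤ) ∣ P.ord (C.hom f) := by
  obtain ⟨g, hg⟩ := hdiv (P.toValuationSubring.comap C.hom) fun c => by
    obtain ⟨a, b, -, rfl⟩ := IsFractionRing.div_surjective (A := W) c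
    rw [ValuationSubring.mem_comap, map_div₀, ← IsScalarTower.algebraMap_apply W K F₁,
      ← IsScalarTower.algebraMap_apply W K F₁, map_div₀, C.commutes, C.commutes, ← map_div₀]
    exact P.algebraMap_mem' _
  set V := P.toValuationSubring.comap C.hom
  have hgn : g ^ n ≠ 0 := fun e => (_root_.map_ne_zero V.valuation).mpr hf
    (by rw [hg, ← map_pow, e, map_zero])
  have h1 : V.valuation (f / g ^ n) = 1 := by
    rw [map_div₀, map_pow, hg, div_self]
    rw [← map_pow]; exact (_root_.map_ne_zero _).mpr hgn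
  have m1 : C.hom (f / g ^ n) ∈ P.toValuationSubring := (V.valuation_le_one_iff _).mp h1.le
  have m2 : (C.hom (f / g ^ n))⁻¹ ∈ P.toValuationSubring := by
    rw [← map_inv₀ C.hom]
    exact (V.valuation_le_one_iff _).mp (by rw [map_inv₀, h1, inv_one])
  have o1 := ord_nonneg_of_mem' P m1
  have o2 := ord_nonneg_of_mem' P m2
  have hne : C.hom (g ^ n) ≠ 0 := (_root_.map_ne_zero _).mpr hgn
  rw [P.ord_inv, map_div₀, ord_div P ((_root_.map_ne_zero _).mpr hf) hne, map_pow, ord_pow'] at o2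
  rw [map_div₀, ord_div P ((_root_.map_ne_zero _).mpr hf) hne, map_pow, ord_pow'] at o1
  exact ⟨P.ord (C.hom g), by omega⟩

variable (C : ChartLink W T u d) (hq : maximalIdeal W = Ideal.span {(q : W)})
  (D : ChartData W T u)
include hq D

/-- Reductions and values of a unit of the node ring. -/
theorem red_node {i : d.C.ι} (NC : NodeChart C i D.cusps) {x : F₁} (hl : Loc (T.t u) NC.P x)
    (hi : Loc (T.t u) NC.P x⁻¹) (hx : x ≠ 0) :
    ∃ h : C.hom x ∈ d.int, (d.red ⟨C.hom x, h⟩).1 ≠ 0 ∧ (d.red ⟨C.hom x, h⟩).2 ≠ 0 ∧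
      (d.C.x i).ord (d.red ⟨C.hom x, h⟩).1 = 0 ∧ (d.C.y i).ord (d.red ⟨C.hom x, h⟩).2 = 0 ∧
      valueAt (d.C.x i) (d.red ⟨C.hom x, h⟩).1 = valueAt (d.C.y i) (d.red ⟨C.hom x, h⟩).2 := by
  haveI := NC.isMax.isPrime
  haveI := NC.isMax
  set r : locRing NC.P := ⟨x, hl⟩
  have hr : IsUnit r := IsUnit.of_mul_eq_one ⟨x⁻¹, hi⟩ (Subtype.ext (mul_inv_cancel₀ hx))
  obtain ⟨h1, -⟩ := NC.ker₁ r
  obtain ⟨h2, -⟩ := NC.ker₂ r
  obtain ⟨c, hc⟩ := NC.res_surj r
  obtain ⟨v1, e1⟩ := NC.value₁ r c hc h1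
  obtain ⟨v2, e2⟩ := NC.value₂ r c hc h2
  have hc0 : π (C.κ c) ≠ 0 := fun e => by
    rw [C.pi_κ_eq_zero_iff hq, residue_eq_zero_iff, hq, Ideal.mem_span_singleton] at e
    obtain ⟨w, rfl⟩ := e
    have hq' : (q : locRing NC.P) ∈ maximalIdeal (locRing NC.P) := by
      rw [← NC.mul_eq, NC.max_eq]
      exact Ideal.mul_mem_right _ _ (Ideal.subset_span (Set.mem_insert _ _))
    have : locConst NC.P ((q : W) * w) ∈ maximalIdeal (locRing NC.P) := by
      rw [map_mul, map_natCast]; exact Ideal.mul_mem_right _ _ hq'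
    have hm := Ideal.add_mem _ hc this
    rw [sub_add_cancel] at hm
    exact hm hr
  obtain ⟨n1, o1⟩ := ord_eq_zero_of_value v1 (e1 ▸ hc0)
  obtain ⟨n2, o2⟩ := ord_eq_zero_of_value v2 (e2 ▸ hc0)
  exact ⟨⟨h1, h2⟩, n1, n2, o1, o2, e1.trans e2.symm⟩

/-- A unit of the node ring has no zero or pole over the node. -/
theorem ord_eq_zero_over_node {i : d.C.ι} (NC : NodeChart C i D.cusps) {x : F₁}
    (hl : Loc (T.t u) NC.P x) (hi : Loc (T.t u) NC.P x⁻¹) (hx : x ≠ 0) {P : Place L E}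
    (hP : d.place P = .node i) : P.ord (C.hom x) = 0 := by
  haveI := NC.isMax.isPrime
  obtain ⟨r, a, hr, hra⟩ := id hl
  have hr0 : (r : F₁) ≠ 0 := ne_zero_of_notMem hr
  have hrl : Loc (T.t u) NC.P (r : F₁) := loc_of_mem NC.isMax.ne_top r.2
  have hri : Loc (T.t u) NC.P (r : F₁)⁻¹ := loc_inv_of_notMem hr
  have ha0 : (a : F₁) ≠ 0 := hra ▸ mul_ne_zero hr0 hx
  have hai : Loc (T.t u) NC.P (a : F₁)⁻¹ := by
    rw [← hra, mul_inv]; exact hri.mul hi
  obtain ⟨na, hna⟩ := C.poles _ a.2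
  obtain ⟨nr, hnr⟩ := C.poles _ r.2
  set l := na + nr + d.n₀
  have key : ∀ z : F₁, z ≠ 0 → Loc (T.t u) NC.P z → Loc (T.t u) NC.P z⁻¹ →
      C.hom z ∈ riemannRochSpace (l • d.D) → P.ord (C.hom z) + l * d.D P = 0 := by
    intro z hz hzl hzi hrr
    obtain ⟨h, n1, n2, o1, o2, -⟩ := red_node C hq D NC hzl hzi hz
    have hnn := d.secDivF_nonneg ((_root_.map_ne_zero C.hom).mpr hz) hrr
    have hle := d.le_redDiv hnn P
    rw [d.redDiv_apply, d.mapDomain_secDivF (Nat.le_add_left _ _) h hrr n1 n2, hP,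
      Glued.secDiv_node, o1, o2, add_zero, d.secDivF_apply] at hle
    have hge := Finsupp.le_def.mp hnn P
    rw [d.secDivF_apply, Finsupp.coe_zero, Pi.zero_apply] at hge
    omega
  have hD : (0 : Divisor L E) ≤ d.D := poleDiv_nonneg _
  have hmono : ∀ m : ℕ, m ≤ l → (riemannRochSpace (m • d.D) : Set E) ⊆
      riemannRochSpace (l • d.D) := fun m hm z hz => by
    refine RR.riemannRochSpace_mono ?_ hz
    exact nsmul_le_nsmul_left hD hm
  have ka := key a ha0 (loc_of_mem NC.isMax.ne_top a.2) hai (hmono na (by omega) hna)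
  have kr := key r hr0 hrl hri (hmono nr (by omega) hnr)
  have : P.ord (C.hom (a : F₁)) = P.ord (C.hom (r : F₁)) + P.ord (C.hom x) := by
    rw [← hra, map_mul, P.ord_mul ((_root_.map_ne_zero _).mpr hr0) ((_root_.map_ne_zero _).mpr hx)]
  omega

/-- **Removing an `n`-th power.** -/
theorem exists_good_root {f : F₁} (hf : f ≠ 0) {n : ℕ} (hn : 0 < n) (hdiv : DivisibleOn K f n)
    (h₁ : ∃ g : F₁, FermatAgent.MazurPrinciple.IsUnitAt d.g₁ (C.hom (f / g ^ n)))
    (h₂ : ∃ g : F₁, FermatAgent.MazurPrinciple.IsUnitAt d.g₂ (C.hom (f / g ^ n))) :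
    ∃ h : F₁, h ≠ 0 ∧ ∃ hi : C.hom (f / h ^ n) ∈ d.int,
      d.C.UnitNodes (d.red ⟨_, hi⟩) ∧ d.IsGood (divisorOf (K := L) (C.hom (f / h ^ n))) ∧
      (∀ i, valueAt (d.C.x i) (d.red ⟨_, hi⟩).1 = valueAt (d.C.y i) (d.red ⟨_, hi⟩).2) ∧
      (∀ Q : Place k G₁, (n : ℤ) ∣ Q.ord (d.red ⟨_, hi⟩).1) ∧
      ∀ Q : Place k G₂, (n : ℤ) ∣ Q.ord (d.red ⟨_, hi⟩).2 := by
  obtain ⟨h, h0, hh⟩ := exists_root_at_nodes C hq D
    (fun i => (exists_nodeChart C hq D i).some) hf hn hdiv
    (exists_valuation_eq_pow C hq D hn h₁ h₂)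
  have hx : f / h ^ n ≠ 0 := div_ne_zero hf (pow_ne_zero n h0)
  obtain ⟨i₀⟩ := d.C.nonempty
  have hnode := fun i => red_node C hq D _ (hh i).1 (hh i).2 hx
  obtain ⟨hi, n1, n2, -⟩ := hnode i₀
  have hu : d.C.UnitNodes (d.red ⟨_, hi⟩) :=
    ⟨n1, n2, fun i => ⟨(hnode i).2.2.2.1, (hnode i).2.2.2.2.1⟩⟩
  have hord : ∀ P : Place L E, (n : ℤ) ∣ P.ord (C.hom (f / h ^ n)) := fun P => by
    rw [map_div₀, map_pow, ord_div P ((_root_.map_ne_zero _).mpr hf)
      (pow_ne_zero n ((_root_.map_ne_zero _).mpr h0)), ord_pow']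
    exact dvd_sub (dvd_ord_hom C hf hdiv P) (dvd_mul_right _ _)
  exact ⟨h, h0, hi, hu, fun P hP i e => hP (by
    rw [divisorOf_apply, ord_eq_zero_over_node C hq D _ (hh i).1 (hh i).2 hx e]),
    fun i => (hnode i).2.2.2.2.2, dvd_ord_red d hi hu hord⟩

end Chart

end FermatAgent.MazurPrinciple.Away
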