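import Fermat.Agent.MazurPrinciple.NodeChart
import Fermat.Agent.MazurPrinciple.Contraction
import Fermat.Agent.BadRed.Carayol.PointVal

/-!
# Removing an `n`-th power at all the nodes at once

If the orders of `f` are divisible by `n` away from the special fibre and on both components, then
near each node `f` is a unit times an `n`-th power (node rings are factorial), and one function
`h` serves all nodes: `f / h ^ n` is a unit at every node.
-/

set_option autoImplicit false
set_option linter.style.haveILetI false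

noncomputable section

namespace FermatAgent.MazurPrinciple.Away

open Polynomial IsLocalRing AlgebraicCurve
open FermatAgent.Curve FermatAgent.Curve.RR FermatAgent.BadRed.Semistable
open FermatAgent.BadRed.Carayol

section Points

variable {W L : Type*} [CommRing W] [IsDomain W] [IsDiscreteValuationRing W]
  [IsAlgClosed (IsLocalRing.ResidueField W)]
  [Field L] [Algebra W L] {u : L}

/-- At finitely many points, local unit times power decompositions come from one global root. -/
theorem exists_root_at_points (S : Finset (Ideal (chartRing W u)))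
    (hS : ∀ P ∈ S, P.IsMaximal) {f : L} {n : ℕ} (hn : 0 < n)
    (hdec : ∀ P ∈ S, ∃ ε g : L, ε ≠ 0 ∧ g ≠ 0 ∧ Loc u P ε ∧ Loc u P ε⁻¹ ∧ f = ε * g ^ n) :
    ∃ h : L, h ≠ 0 ∧ ∀ P ∈ S, Loc u P (f / h ^ n) ∧ Loc u P (f / h ^ n)⁻¹ := by
  classical
  rcases S.eq_empty_or_nonempty with rfl | ⟨P₀, hP₀⟩
  · exact ⟨1, one_ne_zero, fun P hP => absurd hP (Finset.notMem_empty P)⟩
  choose! ε g hε hg hεl hεi hfac using hdec
  -- elements of the chart clearing the denominators of `ε⁻¹`
  have hr : ∀ P ∈ S, ∃ r a : chartRing W u, r ∉ P ∧ (r : L) * (ε P)⁻¹ = a := fun P hP => hεi P hP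
  choose! r a hrP hra using hr
  -- elements in all the other points
  have hsep : ∀ P ∈ S, ∀ Q ∈ S, Q ≠ P → ∃ x : chartRing W u, x ∈ Q ∧ x ∉ P := fun P hP Q hQ hne =>
    SetLike.not_le_iff_exists.mp fun hle => hne ((hS Q hQ).eq_of_le (hS P hP).ne_top hle)
  choose! x hxQ hxP using hsep
  set lam : Ideal (chartRing W u) → chartRing W u := fun P => ∏ Q ∈ S.erase P, x P Q with hlam
  have hlamP : ∀ P ∈ S, lam P ∉ P := fun P hP h => by
    obtain ⟨Q, hQ, hm⟩ := ((hS P hP).isPrime.prod_mem_iff).mp h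
    exact hxP P hP Q (Finset.mem_of_mem_erase hQ) (Finset.ne_of_mem_erase hQ) hm
  have hlamQ : ∀ P ∈ S, ∀ Q ∈ S, Q ≠ P → lam Q ∈ P := fun P hP Q hQ hne =>
    Ideal.mem_of_dvd _ (Finset.dvd_prod_of_mem _ (Finset.mem_erase.mpr ⟨hne.symm, hP⟩))
      (hxQ Q hQ P hP hne.symm)
  set y : Ideal (chartRing W u) → L := fun P => (r P : L) * g P with hy
  set h : L := ∑ P ∈ S, (lam P : L) * y P with hh
  have key : ∀ (P) (hP : P ∈ S), haveI := (hS P hP).isPrime;
      Loc u P (h / g P) ∧ ¬ InMax P (h / g P) := by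
    intro P hP
    haveI := hS P hP
    have hy' : ∀ Q ∈ S, Loc u P (y Q / g P) := fun Q hQ => by
      refine loc_of_pow hn ?_
      have hc : y Q ^ n / f = (r Q : L) ^ (n - 1) * a Q := by
        rw [← hra Q hQ, hy, mul_pow, hfac Q hQ, ← mul_assoc, ← pow_succ, Nat.sub_add_cancel hn]
        have := hε Q hQ
        have := pow_ne_zero n (hg Q hQ)
        field_simp
      have : (y Q / g P) ^ n = ((r Q ^ (n - 1) * a Q : chartRing W u) : L) * ε P := by
        push_cast
        rw [← hc, div_pow, hfac P hP]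
        have := hε P hP
        have := pow_ne_zero n (hg P hP)
        field_simp
      rw [this]
      exact (loc_of_mem (hS P hP).ne_top (Subtype.mem _)).mul (hεl P hP)
    have hrest : InMax P (∑ Q ∈ S.erase P, (lam Q : L) * (y Q / g P)) := by
      refine Finset.sum_induction _ (InMax P) (fun _ _ => InMax.add)
        ⟨1, 0, P.ne_top_iff_one.mp (hS P hP).ne_top, P.zero_mem, by simp⟩ fun Q hQ => ?_
      exact (inMax_of_mem (hlamQ P hP Q (Finset.mem_of_mem_erase hQ)
        (Finset.ne_of_mem_erase hQ))).mul_right (hy' Q (Finset.mem_of_mem_erase hQ))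
    have hmain : (lam P : L) * (y P / g P) = ((lam P * r P : chartRing W u) : L) := by
      push_cast
      rw [hy]
      field_simp [hg P hP]
    have hsum : h / g P = ((lam P * r P : chartRing W u) : L) +
        ∑ Q ∈ S.erase P, (lam Q : L) * (y Q / g P) := by
      rw [hh, Finset.sum_div, ← Finset.add_sum_erase S _ hP]
      simp only [mul_div_assoc]
      rw [hmain]
    have hu' : ¬ InMax P ((lam P * r P : chartRing W u) : L) := fun hc =>
      ((hS P hP).isPrime.mem_or_mem (mem_of_inMax hc)).elim (hlamP P hP) (hrP P hP)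
    refine ⟨hsum ▸ (loc_of_mem (hS P hP).ne_top (Subtype.mem _)).add hrest.loc, fun hc => hu' ?_⟩
    have := hc.add hrest.neg
    rwa [hsum, add_neg_cancel_right] at this
  have hh0 : h ≠ 0 := fun e => by
    haveI := (hS P₀ hP₀).isPrime
    refine (key P₀ hP₀).2 ?_
    rw [e, zero_div]
    exact ⟨1, 0, P₀.ne_top_iff_one.mp (hS P₀ hP₀).ne_top, P₀.zero_mem, by simp⟩
  refine ⟨h, hh0, fun P hP => ?_⟩
  haveI := (hS P hP).isPrime
  obtain ⟨hl, hnm⟩ := key P hP
  have hi : Loc u P (h / g P)⁻¹ := ((inMax_or_loc_inv hl).resolve_left hnm).2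
  have e : f / h ^ n = ε P * ((h / g P)⁻¹) ^ n := by
    rw [hfac P hP, inv_div, div_pow]
    ring
  refine ⟨e ▸ (hεl P hP).mul (hi.pow n), ?_⟩
  rw [e, mul_inv, ← inv_pow, inv_inv]
  exact (hεi P hP).mul (hl.pow n)

end Points

section Chart

variable {q : ℕ} [Fact q.Prime] {W K F F₁ F₂ : Type*}
  [CommRing W] [IsDomain W] [IsDiscreteValuationRing W] [IsAlgClosed (IsLocalRing.ResidueField W)]
  [Field K] [CharZero K] [Algebra W K] [IsFractionRing W K]
  [Field F] [Field F₁] [Field F₂] [Algebra K F] [Algebra K F₁] [Algebra K F₂]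
  [Algebra W F] [Algebra W F₁] [Algebra W F₂]
  [IsScalarTower W K F] [IsScalarTower W K F₁] [IsScalarTower W K F₂]
  {T : QTower q K F F₁ F₂} {u : F}
variable {L : Type*} [Field L] [IsAlgClosed L] {A : ValuationSubring L} {k : Type*} [Field k]
  [IsAlgClosed k] {π : A →+* k} {E G₁ G₂ : Type*} [Field E] [Field G₁] [Field G₂]
  [Algebra L E] [Algebra k G₁] [Algebra k G₂] [IsFunctionField1 L E] [IsFunctionField1 k G₁]
  [IsFunctionField1 k G₂] [RRSetting L E] [RRSetting k G₁] [RRSetting k G₂]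
variable {d : NodalDatum A π E G₁ G₂}

/-- A unit for a reduction is a unit of its valuation ring. -/
theorem isUnitAt_pullRing {Gb : Type*} [Field Gb] [Algebra k Gb] {g : GaussRed A π E Gb}
    {hπ : Function.Surjective π} {φ : F₁ →+* E} {x : F₁}
    (h : FermatAgent.MazurPrinciple.IsUnitAt g (φ x)) :
    FermatAgent.BadRed.Carayol.IsUnitAt (pullRing g hπ φ) x := by
  refine le_antisymm (((pullRing g hπ φ).valuation_le_one_iff x).mpr h.1)
    (not_lt.mp fun hlt => h.2 ?_)
  obtain ⟨_, h0⟩ := mem_nonunits_pullRing.mp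
    (show x ∈ (pullRing g hπ φ).nonunits from hlt)
  exact h0

variable (C : ChartLink W T u d) (hq : maximalIdeal W = Ideal.span {(q : W)})
  (D : ChartData W T u)
include hq D

/-- The chart has just two vertical components. -/
theorem vertical_eq {V : ValuationSubring F₁} (hV : IsVertical W q (T.t u) V) :
    V = C.V₁ ∨ V = C.V₂ :=
  (level1_cases hq D hV).elim
    (fun h => Or.inr (can_unique hq D hV h (C.isVertical₂ hq) C.res₂))
    (fun h => Or.inl (oth_unique hq D hV h (C.isVertical₁ hq) C.res₁))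

/-- Divisibility on both components is divisibility at every vertical valuation. -/
theorem exists_valuation_eq_pow {f : F₁} {n : ℕ} (hn : 0 < n)
    (h₁ : ∃ g : F₁, FermatAgent.MazurPrinciple.IsUnitAt d.g₁ (C.hom (f / g ^ n)))
    (h₂ : ∃ g : F₁, FermatAgent.MazurPrinciple.IsUnitAt d.g₂ (C.hom (f / g ^ n)))
    (V : ValuationSubring F₁) (hV : IsVertical W q (T.t u) V) :
    ∃ g : F₁, V.valuation f = V.valuation g ^ n := by
  obtain ⟨g, hg⟩ : ∃ g : F₁, FermatAgent.BadRed.Carayol.IsUnitAt V (f / g ^ n) := by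
    rcases vertical_eq C hq D hV with rfl | rfl
    · exact h₁.imp fun g hg => isUnitAt_pullRing hg
    · exact h₂.imp fun g hg => isUnitAt_pullRing hg
  refine ⟨g, ?_⟩
  have hg0 : g ≠ 0 := fun e => hg.ne_zero (by rw [e, zero_pow hn.ne', div_zero])
  rw [FermatAgent.BadRed.Carayol.IsUnitAt, map_div₀, div_eq_one_iff_eq
    ((_root_.map_ne_zero _).mpr (pow_ne_zero n hg0)), map_pow] at hg
  exact hg

/-- At a node `f` is a unit times an `n`-th power. -/
theorem exists_decomp_node {i : d.C.ι} (NC : NodeChart C i D.cusps) {f : F₁} (hf : f ≠ 0) {n : ℕ}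
    (hn : 0 < n) (hdiv : DivisibleOn K f n)
    (hvert : ∀ V : ValuationSubring F₁, IsVertical W q (T.t u) V →
      ∃ g : F₁, V.valuation f = V.valuation g ^ n) :
    ∃ ε g : F₁, ε ≠ 0 ∧ g ≠ 0 ∧ Loc (T.t u) NC.P ε ∧ Loc (T.t u) NC.P ε⁻¹ ∧
      f = ε * g ^ n := by
  haveI := NC.isMax.isPrime
  have := D.finite_over₁
  have hin : ∀ r : locRing NC.P, r ∈ maximalIdeal (locRing NC.P) → InMax NC.P (r : F₁) :=
    fun r hr => (inMax_iff r.2).mpr hr
  have hX : NC.X ∈ maximalIdeal (locRing NC.P) :=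
    NC.max_eq ▸ Ideal.subset_span (Set.mem_insert _ _)
  have hY : NC.Y ∈ maximalIdeal (locRing NC.P) :=
    NC.max_eq ▸ Ideal.subset_span (Set.mem_insert_of_mem _ rfl)
  refine exists_unit_mul_pow (K := K) NC.P hq D.transcendental_t (finite_vertical₁ hq D)
    (fun V hV => rankOne₁ hq D hV) (hin _ hX) (hin _ hY) (fun y hy => ?_)
    ⟨C.V₁, C.isVertical₁ hq, fun z hz => ?_, NC.X, hin _ hX, ?_⟩ hn hf hdiv hvert
  · have hm : (⟨y, hy.loc⟩ : locRing NC.P) ∈ maximalIdeal (locRing NC.P) := (inMax_iff _).mp hy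
    rw [NC.max_eq, Ideal.mem_span_pair] at hm
    obtain ⟨c, e, hce⟩ := hm
    exact ⟨c, e, c.2, e.2, (congrArg (fun z : locRing NC.P => (z : F₁)) hce).symm⟩
  · obtain ⟨h, h0⟩ := mem_nonunits_pullRing.mp hz
    obtain ⟨h', hiff⟩ := NC.ker₁ ⟨z, NC.mem_of_chart _ z.2⟩
    exact mem_of_inMax (hin _ (Ideal.mem_of_dvd _ (hiff.mp h0) hY))
  · obtain ⟨h', hiff⟩ := NC.ker₁ NC.X
    exact isUnitAt_pullRing ⟨h', fun e => NC.not_dvd_Y (hiff.mp e)⟩

/-- One root serves all the nodes. -/
theorem exists_root_at_nodes (NC : ∀ i, NodeChart C i D.cusps) {f : F₁} (hf : f ≠ 0) {n : ℕ}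
    (hn : 0 < n) (hdiv : DivisibleOn K f n)
    (hvert : ∀ V : ValuationSubring F₁, IsVertical W q (T.t u) V →
      ∃ g : F₁, V.valuation f = V.valuation g ^ n) :
    ∃ h : F₁, h ≠ 0 ∧ ∀ i, Loc (T.t u) (NC i).P (f / h ^ n) ∧
      Loc (T.t u) (NC i).P (f / h ^ n)⁻¹ := by
  classical
  obtain ⟨h, h0, hh⟩ := exists_root_at_points (Finset.univ.image fun i => (NC i).P)
    (fun P hP => by
      obtain ⟨i, -, rfl⟩ := Finset.mem_image.mp hP
      exact (NC i).isMax) (f := f) hn (fun P hP => by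
      obtain ⟨i, -, rfl⟩ := Finset.mem_image.mp hP
      exact exists_decomp_node C hq D (NC i) hf hn hdiv hvert)
  exact ⟨h, h0, fun i => hh _ (Finset.mem_image.mpr ⟨i, Finset.mem_univ _, rfl⟩)⟩

end Chart

end FermatAgent.MazurPrinciple.Away
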