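import Fermat.Agent.BadRed.Semistable.Symmetry

/-!
# Symmetries exchanging the two components of a nodal datum

A semilinear automorphism exchanging the components and fixing the nodes acts on toric invariants
by the inverse of the residual automorphism. The reduction of places is determined by its effect
on divisors of functions and on the pole divisor of the coordinate.
-/

set_option autoImplicit false
set_option linter.unusedSectionVars false

noncomputable section

open WithZero AlgebraicCurve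

namespace FermatAgent.MazurPrinciple.Away

open FermatAgent.Curve FermatAgent.Curve.RR FermatAgent.BadRed.Semistable

section Place

variable {K : Type*} [Field K] [IsAlgClosed K] {A : ValuationSubring K} {k : Type*}
    [Field k] [IsAlgClosed k] {π : A →+* k} {F F₁ F₂ : Type*} [Field F] [Field F₁] [Field F₂]
    [Algebra K F] [Algebra k F₁] [Algebra k F₂] [IsFunctionField1 K F] [IsFunctionField1 k F₁]
    [IsFunctionField1 k F₂] [RRSetting K F] [RRSetting k F₁] [RRSetting k F₂] [Infinite k]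
variable (d : NodalDatum A π F F₁ F₂)

/-- The pole divisor of the coordinate reduces to the poles of the two coordinates. -/
theorem mapDomain_place_poleDiv {g : F} (h : g ∈ d.int) (h1 : (d.red ⟨g, h⟩).1 ≠ 0)
    (h2 : (d.red ⟨g, h⟩).2 ≠ 0)
    (hx : ∀ i, (poleDiv (d.red ⟨g, h⟩).1 : Divisor k F₁) (d.C.x i) = 0)
    (hy : ∀ i, (poleDiv (d.red ⟨g, h⟩).2 : Divisor k F₂) (d.C.y i) = 0)
    (hdeg : Divisor.degree (poleDiv g : Divisor K F) =
      Divisor.degree (poleDiv (d.red ⟨g, h⟩).1 : Divisor k F₁) +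
        Divisor.degree (poleDiv (d.red ⟨g, h⟩).2 : Divisor k F₂)) :
    Finsupp.mapDomain d.place (poleDiv g : Divisor K F) =
      Finsupp.mapDomain d.C.toPt₁ (poleDiv (d.red ⟨g, h⟩).1 : Divisor k F₁) +
        Finsupp.mapDomain d.C.toPt₂ (poleDiv (d.red ⟨g, h⟩).2 : Divisor k F₂) := by
  classical
  set u := d.red ⟨g, h⟩ with hu
  set a := Finsupp.mapDomain d.place (poleDiv g : Divisor K F) with ha
  set b := Finsupp.mapDomain d.C.toPt₁ (poleDiv u.1 : Divisor k F₁) +
    Finsupp.mapDomain d.C.toPt₂ (poleDiv u.2 : Divisor k F₂) with hb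
  have hg0 : g ≠ 0 := d.ne_zero_of_red_fst h h1
  have hnn : ∀ ω, 0 ≤ a ω := fun ω => by
    rw [ha, Finsupp.mapDomain, Finsupp.sum_apply]
    refine Finset.sum_nonneg fun P _ => ?_
    dsimp only
    rw [Finsupp.single_apply]
    split_ifs
    · exact Finsupp.le_def.mp (poleDiv_nonneg g) P
    · exact le_rfl
  have hle : ∀ ω, -(d.C.secDiv 0 u ω) ≤ a ω := fun ω => by
    have e := d.mapDomain_divisorOf h h1 h2
    have hz : 0 ≤ (divisorOf g + poleDiv g : Divisor K F) := Finsupp.le_def.mpr fun P => by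
      simp only [Finsupp.coe_zero, Pi.zero_apply, Finsupp.add_apply, divisorOf_apply, poleDiv_apply]
      omega
    have h0 : 0 ≤ Finsupp.mapDomain d.place (divisorOf g + poleDiv g : Divisor K F) ω := by
      rw [Finsupp.mapDomain, Finsupp.sum_apply]
      refine Finset.sum_nonneg fun P _ => ?_
      dsimp only
      rw [Finsupp.single_apply]
      split_ifs
      · exact Finsupp.le_def.mp hz P
      · exact le_rfl
    rw [Finsupp.mapDomain_add, e, Finsupp.add_apply, ← hu, ← ha] at h0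
    omega
  have hba : ∀ ω, 0 ≤ (a - b) ω := fun ω => by
    rw [Finsupp.sub_apply, sub_nonneg, hb, Finsupp.add_apply]
    cases ω with
    | left Q hQ =>
      rw [Glued.mapDomain_apply_fibre _ _ _ Q (fun x => d.C.toPt₁_eq_left_iff hQ),
        Glued.mapDomain_apply_empty _ _ _ (fun x => d.C.toPt₂_ne_left x Q hQ), add_zero,
        poleDiv_apply]
      have := hle (.left Q hQ)
      rw [Glued.secDiv_left] at this
      exact max_le (by simpa using this) (hnn _)
    | right Q hQ =>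
      rw [Glued.mapDomain_apply_fibre _ _ _ Q (fun x => d.C.toPt₂_eq_right_iff hQ),
        Glued.mapDomain_apply_empty _ _ _ (fun x => d.C.toPt₁_ne_right x Q hQ), zero_add,
        poleDiv_apply]
      have := hle (.right Q hQ)
      rw [Glued.secDiv_right] at this
      exact max_le (by simpa using this) (hnn _)
    | node i =>
      rw [Glued.mapDomain_apply_fibre _ _ _ (d.C.x i) (fun x => d.C.toPt₁_eq_node_iff),
        Glued.mapDomain_apply_fibre _ _ _ (d.C.y i) (fun x => d.C.toPt₂_eq_node_iff), hx, hy,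
        add_zero]
      exact hnn _
  have hsum : (a - b).sum (fun _ x => x) = 0 := by
    rw [Finsupp.sum_sub_index (fun _ _ _ => rfl), ha, hb,
      Finsupp.sum_add_index' (fun _ => rfl) (fun _ _ _ => rfl),
      Finsupp.sum_mapDomain_index (fun _ => rfl) (fun _ _ _ => rfl),
      Finsupp.sum_mapDomain_index (fun _ => rfl) (fun _ _ _ => rfl),
      Finsupp.sum_mapDomain_index (fun _ => rfl) (fun _ _ _ => rfl),
      ← degree_eq_sum, ← degree_eq_sum, ← degree_eq_sum, hdeg, sub_self]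
  ext ω
  by_contra hne
  have hω : ω ∈ (a - b).support := by
    rw [Finsupp.mem_support_iff, Finsupp.sub_apply]
    omega
  exact Finsupp.mem_support_iff.mp hω
    ((Finset.sum_eq_zero_iff_of_nonneg fun τ _ => hba τ).mp hsum ω hω)

/-- A map on places reducing divisors of functions and the pole divisor is the reduction. -/
theorem place_unique_of_mapDomain (r : Place K F → d.C.Pt)
    (hr : ∀ (f : F) (h : f ∈ d.int), (d.red ⟨f, h⟩).1 ≠ 0 → (d.red ⟨f, h⟩).2 ≠ 0 →
      Finsupp.mapDomain r (divisorOf f) = d.C.secDiv 0 (d.red ⟨f, h⟩))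
    (hD : Finsupp.mapDomain r d.D = Finsupp.mapDomain d.place d.D) : r = d.place := by
  classical
  funext P
  by_contra hne
  obtain ⟨s, hs, h1, h2, hv, hT⟩ := d.C.exists_separating (d.place P) {r P}
    (by simpa using fun e : d.place P = r P => hne e.symm) (b := d.N₁) (by
      unfold NodalDatum.N₁; simp)
  obtain ⟨f, hf, hfs, hfr⟩ := d.exists_lift_vanishing le_rfl P hs hv
  have hnn : d.n₀ ≤ d.N₁ := by unfold NodalDatum.N₁ NodalDatum.N₀; omega
  have hfL := d.sub_le (NodalDatum.single_one_nonneg P) hfs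
  have a1 : (d.red ⟨f, hf⟩).1 ≠ 0 := hfr ▸ h1
  have a2 : (d.red ⟨f, hf⟩).2 ≠ 0 := hfr ▸ h2
  have hf0 := d.ne_zero_of_red_fst hf a1
  have hle : Finsupp.single P 1 ≤ d.secDivF d.N₁ f :=
    single_le hf0 hfs
  have key : Finsupp.mapDomain r (d.secDivF d.N₁ f) = d.C.secDiv d.N₁ s := by
    rw [← hfr, ← d.mapDomain_secDivF hnn hf hfL a1 a2, NodalDatum.secDivF, Finsupp.mapDomain_add,
      Finsupp.mapDomain_add, hr f hf a1 a2, d.mapDomain_divisorOf hf a1 a2]
    congr 1
    rw [show d.N₁ • d.D = ((d.N₁ : ℤ)) • d.D from (natCast_zsmul _ _).symm,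
      Finsupp.mapDomain_smul, Finsupp.mapDomain_smul, hD]
  have hpos : 1 ≤ Finsupp.mapDomain r (d.secDivF d.N₁ f) (r P) := by
    have h0 : 0 ≤ Finsupp.mapDomain r (d.secDivF d.N₁ f - Finsupp.single P 1) (r P) := by
      rw [Finsupp.mapDomain, Finsupp.sum_apply]
      refine Finset.sum_nonneg fun Q _ => ?_
      dsimp only
      rw [Finsupp.single_apply]
      split_ifs
      · exact Finsupp.le_def.mp (sub_nonneg.mpr hle) Q
      · exact le_rfl
    rw [Finsupp.mapDomain_sub, Finsupp.sub_apply, Finsupp.mapDomain_single,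
      Finsupp.single_eq_same] at h0
    omega
  rw [key] at hpos
  refine hT (r P) (Finset.mem_singleton_self _) ?_
  exact (d.C.mem_support_secDiv hs h1 h2 (r P)).mp (Finsupp.mem_support_iff.mpr (by omega))
where
  single_le {n : ℕ} {P : Place K F} {f : F} (hf0 : f ≠ 0)
      (hfs : f ∈ d.sub n (Finsupp.single P 1)) : Finsupp.single P 1 ≤ d.secDivF n f :=
    Finsupp.le_def.mpr fun Q => by
      have := neg_le_ord_of_le_exp hf0 (hfs Q)
      rw [d.secDivF_apply]
      simp only [Finsupp.sub_apply, Finsupp.smul_apply, nsmul_eq_mul] at this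
      linarith

end Place

variable {K : Type*} [Field K] [IsAlgClosed K] {A : ValuationSubring K} {k : Type*}
    [Field k] [IsAlgClosed k] {π : A →+* k} {F G : Type*} [Field F] [Field G]
    [Algebra K F] [Algebra k G] [IsFunctionField1 K F] [IsFunctionField1 k G]
    [RRSetting K F] [RRSetting k G] [Infinite k]

/-- A semilinear symmetry exchanging the components and fixing the nodes. -/
structure Swap (d : NodalDatum A π F G G) where
  Φ : SemilinearAut K F
  Φ₀ : SemilinearAut k G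
  mem₁ : ∀ f, Φ • f ∈ d.g₁.integers ↔ f ∈ d.g₂.integers
  mem₂ : ∀ f, Φ • f ∈ d.g₂.integers ↔ f ∈ d.g₁.integers
  red₁ : ∀ f (h : f ∈ d.g₂.integers),
    d.g₁.red ⟨Φ • f, (mem₁ f).mpr h⟩ = Φ₀ • d.g₂.red ⟨f, h⟩
  red₂ : ∀ f (h : f ∈ d.g₁.integers),
    d.g₂.red ⟨Φ • f, (mem₂ f).mpr h⟩ = Φ₀ • d.g₁.red ⟨f, h⟩
  fix_x : ∀ i, Φ₀ • d.C.y i = d.C.x i
  fix_y : ∀ i, Φ₀ • d.C.x i = d.C.y i
  z_mem : d.z ∈ d.int
  red_z : d.red ⟨d.z, z_mem⟩ = (d.C.z₁, d.C.z₂)

namespace Swap

variable {d : NodalDatum A π F G G} (s : Swap d)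

theorem x_ne {Q : Place k G} (h : ∀ i, d.C.y i ≠ Q) (i : d.C.ι) : d.C.x i ≠ s.Φ₀ • Q := fun e =>
  h i (MulAction.injective s.Φ₀ ((s.fix_x i).trans e))

theorem y_ne {Q : Place k G} (h : ∀ i, d.C.x i ≠ Q) (i : d.C.ι) : d.C.y i ≠ s.Φ₀ • Q := fun e =>
  h i (MulAction.injective s.Φ₀ ((s.fix_y i).trans e))

/-- The action on the points of the glued curve. -/
def act : d.C.Pt → d.C.Pt
  | .left Q h => .right (s.Φ₀ • Q) (s.y_ne h)
  | .right Q h => .left (s.Φ₀ • Q) (s.x_ne h)
  | .node i => .node i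

theorem act_injective : Function.Injective s.act := by
  intro a b e
  cases a <;> cases b <;> simp only [act, Glued.Pt.left.injEq, Glued.Pt.right.injEq,
    Glued.Pt.node.injEq, reduceCtorEq] at e ⊢
  all_goals first
    | exact MulAction.injective _ e
    | exact e

theorem act_toPt₁ (Q : Place k G) : s.act (d.C.toPt₁ Q) = d.C.toPt₂ (s.Φ₀ • Q) := by
  by_cases h : ∃ i, d.C.x i = Q
  · obtain ⟨i, rfl⟩ := h
    rw [s.fix_y, d.C.toPt₁_x, d.C.toPt₂_y]
    rfl
  · push Not at h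
    rw [d.C.toPt₁_of_ne Q h, d.C.toPt₂_of_ne _ (s.y_ne h)]
    rfl

theorem act_toPt₂ (Q : Place k G) : s.act (d.C.toPt₂ Q) = d.C.toPt₁ (s.Φ₀ • Q) := by
  by_cases h : ∃ i, d.C.y i = Q
  · obtain ⟨i, rfl⟩ := h
    rw [s.fix_x, d.C.toPt₂_y, d.C.toPt₁_x]
    rfl
  · push Not at h
    rw [d.C.toPt₂_of_ne Q h, d.C.toPt₁_of_ne _ (s.x_ne h)]
    rfl

theorem mapDomain_act_toPt₁ (E : Divisor k G) :
    Finsupp.mapDomain s.act (Finsupp.mapDomain d.C.toPt₁ E) =
      Finsupp.mapDomain d.C.toPt₂ (s.Φ₀ • E) := by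
  rw [← Finsupp.mapDomain_comp, SemilinearAut.divisor_smul_def, ← Finsupp.mapDomain_comp]
  exact congrArg (fun φ => Finsupp.mapDomain φ E) (funext s.act_toPt₁)

theorem mapDomain_act_toPt₂ (E : Divisor k G) :
    Finsupp.mapDomain s.act (Finsupp.mapDomain d.C.toPt₂ E) =
      Finsupp.mapDomain d.C.toPt₁ (s.Φ₀ • E) := by
  rw [← Finsupp.mapDomain_comp, SemilinearAut.divisor_smul_def, ← Finsupp.mapDomain_comp]
  exact congrArg (fun φ => Finsupp.mapDomain φ E) (funext s.act_toPt₂)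

theorem poleDiv_smul {F' : Type*} [Field F'] {k' : Type*} [Field k'] [Algebra k' F']
    [IsAlgClosed k'] [IsFunctionField1 k' F'] (g : SemilinearAut k' F') (f : F') :
    g • (poleDiv f : Divisor k' F') = poleDiv (g • f) := by
  ext v
  rw [SemilinearAut.divisor_smul_apply, poleDiv_apply, poleDiv_apply]
  conv_rhs => rw [← smul_inv_smul g v]
  rw [SemilinearAut.ord_smul]

theorem int_smul {f : F} (h : f ∈ d.int) :
    ∃ h' : s.Φ • f ∈ d.int,
      d.red ⟨s.Φ • f, h'⟩ = (s.Φ₀ • (d.red ⟨f, h⟩).2, s.Φ₀ • (d.red ⟨f, h⟩).1) := by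
  refine ⟨⟨(s.mem₁ f).mpr h.2, (s.mem₂ f).mpr h.1⟩, ?_⟩
  rw [d.red_mk, d.red_mk, s.red₁ f h.2, s.red₂ f h.1]

theorem int_of_smul {f : F} (h : s.Φ • f ∈ d.int) : f ∈ d.int :=
  ⟨(s.mem₂ f).mp h.2, (s.mem₁ f).mp h.1⟩

theorem place_smul (P : Place K F) : d.place (s.Φ • P) = s.act (d.place P) := by
  have hr := place_unique_of_mapDomain d (fun Q => s.act (d.place (s.Φ⁻¹ • Q))) ?_ ?_
  · have := congrFun hr (s.Φ • P)
    simpa using this.symm
  · intro f hf h1 h2
    obtain ⟨g, rfl⟩ : ∃ g, s.Φ • g = f := ⟨s.Φ⁻¹ • f, smul_inv_smul _ _⟩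
    have hg := s.int_of_smul hf
    obtain ⟨h', e⟩ := s.int_smul hg
    have e' : d.red ⟨s.Φ • g, hf⟩ = (s.Φ₀ • (d.red ⟨g, hg⟩).2, s.Φ₀ • (d.red ⟨g, hg⟩).1) := e
    rw [e'] at h1 h2 ⊢
    have g1 : (d.red ⟨g, hg⟩).1 ≠ 0 := fun e0 => h2 (by simp [e0])
    have g2 : (d.red ⟨g, hg⟩).2 ≠ 0 := fun e0 => h1 (by simp [e0])
    rw [divisorOf_semilinear_smul, SemilinearAut.divisor_smul_def, ← Finsupp.mapDomain_comp,
      show ((fun Q => s.act (d.place (s.Φ⁻¹ • Q))) ∘ fun v => s.Φ • v) = s.act ∘ d.place from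
        funext fun v => by simp, Finsupp.mapDomain_comp, d.mapDomain_divisorOf hg g1 g2,
      Glued.secDiv, Glued.secDiv, Finsupp.mapDomain_add, s.mapDomain_act_toPt₁,
      s.mapDomain_act_toPt₂]
    simp only [Nat.cast_zero, zero_smul, add_zero]
    rw [divisorOf_semilinear_smul, divisorOf_semilinear_smul, add_comm]
  · have hz' : s.Φ • (s.Φ⁻¹ • d.z) = d.z := smul_inv_smul _ _
    have hg : s.Φ⁻¹ • d.z ∈ d.int := s.int_of_smul (by rw [hz']; exact s.z_mem)
    obtain ⟨h', e⟩ := s.int_smul hg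
    set u := d.red ⟨s.Φ⁻¹ • d.z, hg⟩ with hu
    rw [d.red_congr hz' h', show d.red ⟨d.z, _⟩ = (d.C.z₁, d.C.z₂) from s.red_z] at e
    have e1 : s.Φ₀ • u.2 = d.C.z₁ := (congrArg Prod.fst e).symm
    have e2 : s.Φ₀ • u.1 = d.C.z₂ := (congrArg Prod.snd e).symm
    have z1 : d.C.z₁ ≠ 0 := fun h0 => d.C.transcendental₁ (h0 ▸ isAlgebraic_zero)
    have z2 : d.C.z₂ ≠ 0 := fun h0 => d.C.transcendental₂ (h0 ▸ isAlgebraic_zero)
    have hp1 : s.Φ₀ • (poleDiv u.2 : Divisor k G) = d.C.D₁ := by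
      rw [poleDiv_smul, e1]; rfl
    have hp2 : s.Φ₀ • (poleDiv u.1 : Divisor k G) = d.C.D₂ := by
      rw [poleDiv_smul, e2]; rfl
    have hxy : ∀ (E : Divisor k G) (Q : Place k G), (s.Φ₀ • E) (s.Φ₀ • Q) = E Q := fun E Q =>
      SemilinearAut.divisor_smul_apply_smul _ _ _
    have hB := mapDomain_place_poleDiv d hg
      (fun h0 => z2 (by rw [← e2, h0, smul_zero])) (fun h0 => z1 (by rw [← e1, h0, smul_zero]))
      (fun i => by rw [← hxy, hp2, s.fix_y, Glued.D₂_y])
      (fun i => by rw [← hxy, hp1, s.fix_x, Glued.D₁_x])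
      (by
        have a0 : Divisor.degree (poleDiv (s.Φ⁻¹ • d.z) : Divisor K F) =
            Divisor.degree (d.D : Divisor K F) := by
          rw [← poleDiv_smul, SemilinearAut.degree_smul]; rfl
        rw [a0, d.degree_D, Glued.deg_eq, ← hp1, ← hp2, SemilinearAut.degree_smul,
          SemilinearAut.degree_smul, add_comm])
    have hD : d.D = s.Φ • (poleDiv (s.Φ⁻¹ • d.z) : Divisor K F) := by
      rw [poleDiv_smul, hz']; rfl
    have hR : Finsupp.mapDomain d.place d.D =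
        Finsupp.mapDomain d.C.toPt₁ d.C.D₁ + Finsupp.mapDomain d.C.toPt₂ d.C.D₂ := by
      have h0 := mapDomain_place_poleDiv d s.z_mem
        (by rw [s.red_z]; exact z1) (by rw [s.red_z]; exact z2)
        (fun i => by rw [s.red_z]; exact d.C.D₁_x i) (fun i => by rw [s.red_z]; exact d.C.D₂_y i)
        (by rw [s.red_z]; exact d.degree_eq)
      rw [s.red_z] at h0
      exact h0
    rw [hR]
    conv_lhs => rw [hD]
    rw [SemilinearAut.divisor_smul_def, ← Finsupp.mapDomain_comp,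
      show ((fun Q => s.act (d.place (s.Φ⁻¹ • Q))) ∘ fun v => s.Φ • v) = s.act ∘ d.place from
        funext fun v => by simp, Finsupp.mapDomain_comp, hB, Finsupp.mapDomain_add,
      s.mapDomain_act_toPt₁, s.mapDomain_act_toPt₂, hp1, hp2, add_comm]

theorem redDiv_smul (D : Divisor K F) :
    d.redDiv (s.Φ • D) = Finsupp.mapDomain s.act (d.redDiv D) :=
  d.redDiv_smul_of_place s.Φ s.place_smul D

theorem part₁_mapDomain (E : d.C.Pt →₀ ℤ) :
    d.C.part₁ (Finsupp.mapDomain s.act E) = s.Φ₀ • d.C.part₂ E := by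
  ext Q
  rw [SemilinearAut.divisor_smul_apply, Glued.part₁_apply, Glued.part₂_apply]
  conv_lhs => rw [← smul_inv_smul s.Φ₀ Q, ← s.act_toPt₂]
  exact Finsupp.mapDomain_apply s.act_injective E _

theorem part₂_mapDomain (E : d.C.Pt →₀ ℤ) :
    d.C.part₂ (Finsupp.mapDomain s.act E) = s.Φ₀ • d.C.part₁ E := by
  ext Q
  rw [SemilinearAut.divisor_smul_apply, Glued.part₁_apply, Glued.part₂_apply]
  conv_lhs => rw [← smul_inv_smul s.Φ₀ Q, ← s.act_toPt₁]
  exact Finsupp.mapDomain_apply s.act_injective E _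

theorem isBal_smul {D : Divisor K F} (h : d.IsBal D) : d.IsBal (s.Φ • D) := by
  refine ⟨d.place_ne_node_smul s.Φ s.place_smul s.act_injective (fun _ => rfl) h, ?_, ?_⟩
  · rw [s.redDiv_smul, s.part₁_mapDomain, SemilinearAut.degree_smul]; exact h.2.2
  · rw [s.redDiv_smul, s.part₂_mapDomain, SemilinearAut.degree_smul]; exact h.2.1

/-- **The toric invariant is inverted and moved by the residual automorphism.** -/
theorem hasToric_smul {x : Pic0 K F} {c : d.C.ι → k} (h : d.HasToric x c) :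
    d.HasToric (s.Φ • x) (fun i => (SemilinearAut.baseAut s.Φ₀ (c i))⁻¹) := by
  have hne : ∀ i, c i ≠ 0 := fun i => NodalDatum.HasToric.ne_zero d h i
  obtain ⟨D, rfl, hb, u, hu, e1, e2, hc⟩ := h
  refine ⟨SemilinearAut.degZeroSMulHom s.Φ D, (SemilinearAut.pic0_smul_mk s.Φ D).symm,
    s.isBal_smul hb, (s.Φ₀ • u.2, s.Φ₀ • u.1),
    ⟨(smul_ne_zero_iff_ne _).mpr hu.2.1, (smul_ne_zero_iff_ne _).mpr hu.1, fun i => ⟨?_, ?_⟩⟩,
    ?_, ?_, fun i => ?_⟩
  · conv_lhs => rw [← s.fix_x i]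
    rw [SemilinearAut.ord_smul]
    exact (hu.2.2 i).2
  · conv_lhs => rw [← s.fix_y i]
    rw [SemilinearAut.ord_smul]
    exact (hu.2.2 i).1
  · rw [SemilinearAut.coe_degZeroSMulHom, s.redDiv_smul, s.part₁_mapDomain, e2,
      divisorOf_semilinear_smul]
  · rw [SemilinearAut.coe_degZeroSMulHom, s.redDiv_smul, s.part₂_mapDomain, e1,
      divisorOf_semilinear_smul]
  · show valueAt (d.C.x i) (s.Φ₀ • u.2) = _ * valueAt (d.C.y i) (s.Φ₀ • u.1)
    conv_lhs => rw [← s.fix_x i, valueAt_semilinear_smul]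
    conv_rhs => rw [← s.fix_y i, valueAt_semilinear_smul, hc i, map_mul, ← mul_assoc]
    rw [inv_mul_cancel₀ ((_root_.map_ne_zero _).mpr (hne i)), one_mul]

end Swap

end FermatAgent.MazurPrinciple.Away

end
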