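import Fermat.Agent.MazurPrinciple.Away.Swap
import Fermat.Agent.BadRed.Semistable.ToricTorsion

/-!
# Atkin-Lehner composed with Frobenius on the toric torsion of `J₀(q N')`

Atkin-Lehner exchanges the two components at `q`; composed with a Frobenius element at `q` it
fixes every node, so it multiplies the toric torsion of order prime to `q` by `-q`.
-/

set_option autoImplicit false
set_option linter.unusedSectionVars false
set_option maxHeartbeats 1600000

noncomputable section

open ModularCurve AlgebraicCurve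

namespace FermatAgent.MazurPrinciple.Away

open FermatAgent.Curve FermatAgent.Curve.RR FermatAgent.Curve.Descent FermatAgent.ModFun
open FermatAgent.BadRed.Semistable FermatAgent.ModCurveTorsion FermatAgent.Igusa FermatAgent.ES
open FermatAgent.ModCurve.Points (FieldC)

attribute [local instance] neZero_prime charZero_of_algebraRat isFunctionField1_laurent

section Level

variable {K : Type*} [Field K] [Algebra ℚ K] {q : ℕ} [Fact q.Prime] {N' : ℕ} [NeZero N']
  (hco : q.Coprime N') [NeZero (q * N')] {A₀ : ValuationSubring (AlgebraicClosure ℚ)}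
  {A : ValuationSubring K} {π : A →+* IsLocalRing.ResidueField A₀} (P : PlaceHom A₀ A π)
  [CharP (IsLocalRing.ResidueField A₀) q] (hA : A₀.LiesOverPrime q)
  [IsAlgClosed K]
  [IsFunctionField1 K (laurentBaseChange K (modularFunctionFieldFull (q * N')))]
  [IsAlgClosed (IsLocalRing.ResidueField A₀)]
  [IsFunctionField1 (IsLocalRing.ResidueField A₀)
    (modularFunctionFieldFullC (IsLocalRing.ResidueField A₀) N')]
  [RRSetting K (laurentBaseChange K (modularFunctionFieldFull (q * N')))]
  [RRSetting (IsLocalRing.ResidueField A₀)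
    (modularFunctionFieldFullC (IsLocalRing.ResidueField A₀) N')]
  [Infinite (IsLocalRing.ResidueField A₀)]
  (a : PlaceAut A π)

/-- Atkin-Lehner as a semilinear automorphism. -/
def alAut (L : Type*) [Field L] [Algebra ℚ L] :
    SemilinearAut L (laurentBaseChange L (modularFunctionFieldFull (q * N'))) :=
  SemilinearAut.ofAlgAut (atkinLehnerBar hco L)

theorem z_mem_int : (levelDatum hco P hA).z ∈ (levelDatum hco P hA).int :=
  ⟨(level_twist hco P).mem, (level_twist hco P).mem'⟩

theorem red_z_eq : (levelDatum hco P hA).red ⟨(levelDatum hco P hA).z, z_mem_int hco P hA⟩ =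
    ((levelDatum hco P hA).C.z₁, (levelDatum hco P hA).C.z₂) :=
  Prod.ext rfl (level_twist hco P).red_twist

/-- Atkin-Lehner composed with a Frobenius element exchanges the components. -/
def frobSwap (h : a.θ = frobeniusEquiv (IsLocalRing.ResidueField A₀) q) :
    Swap (levelDatum hco P hA) where
  Φ := a.lvl (q * N') * alAut hco K
  Φ₀ := a.fib N'
  mem₁ f := by
    rw [mul_smul]
    exact a.mem_levelGauss_iff hco P (atkinLehnerBar hco K f)
  mem₂ f := by
    rw [mul_smul]
    show atkinLehnerBar hco K (a.lvl (q * N') • atkinLehnerBar hco K f) ∈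
      (levelGauss P.surjective hco P.arch).integers ↔ _
    rw [a.lvl_atkinLehnerBar hco, atkinLehnerBar_atkinLehnerBar]
    exact a.mem_levelGauss_iff hco P f
  red₁ f hf := by
    obtain ⟨h', e⟩ := a.levelGauss_red hco P (f := atkinLehnerBar hco K f) hf
    refine Eq.trans ?_ e
    exact congrArg (levelGauss P.surjective hco P.arch).red
      (Subtype.ext (mul_smul (a.lvl (q * N')) (alAut hco K) f))
  red₂ f hf := by
    obtain ⟨h', e⟩ := a.levelGauss_red hco P (f := f) hf
    refine Eq.trans ?_ e
    refine congrArg (levelGauss P.surjective hco P.arch).red (Subtype.ext ?_)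
    show atkinLehnerBar hco K ((a.lvl (q * N') * alAut hco K) • f) = _
    rw [mul_smul]
    show atkinLehnerBar hco K (a.lvl (q * N') • atkinLehnerBar hco K f) = _
    rw [a.lvl_atkinLehnerBar hco, atkinLehnerBar_atkinLehnerBar]
  fix_x i := by
    have e : a.fib N' = fibPhi (IsLocalRing.ResidueField A₀) q N' := by
      rw [PlaceAut.fib, h]; rfl
    rw [e]
    exact (levelDatum_y hco P hA i).2
  fix_y i := by
    have e : a.fib N' = fibPhi (IsLocalRing.ResidueField A₀) q N' := by
      rw [PlaceAut.fib, h]; rfl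
    rw [e]
    exact (levelDatum_y hco P hA i).1.symm
  z_mem := z_mem_int hco P hA
  red_z := red_z_eq hco P hA

end Level

section Toric

local notation "GQ" => AlgebraicClosure ℚ ≃ₐ[ℚ] AlgebraicClosure ℚ
local notation "ℚbar" => AlgebraicClosure ℚ

variable {q : ℕ} [Fact q.Prime] {N' : ℕ} [NeZero N'] (hco : q.Coprime N') [NeZero (q * N')]

/-- Atkin-Lehner on `J₀(q N')`. -/
def alJ : JZero (q * N') →+ JZero (q * N') :=
  DistribSMul.toAddMonoidHom (JZero (q * N')) (alAut hco ℚbar)

theorem alJ_alJ (x : JZero (q * N')) : alJ hco (alJ hco x) = x := by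
  show alAut hco ℚbar • alAut hco ℚbar • x = x
  rw [← mul_smul]
  have e : alAut hco ℚbar * alAut hco ℚbar = 1 := by
    rw [alAut, ← map_mul, ← map_one SemilinearAut.ofAlgAut]
    exact congrArg _ (AlgEquiv.ext fun f => atkinLehnerBar_atkinLehnerBar hco ℚbar f)
  rw [e, one_smul]

theorem galois_smul_alJ (σ : GQ) (x : JZero (q * N')) : σ • alJ hco x = alJ hco (σ • x) := by
  show arithmeticGalois (modularFunctionFieldFull (q * N')) σ • alAut hco ℚbar • x =
    alAut hco ℚbar • arithmeticGalois (modularFunctionFieldFull (q * N')) σ • x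
  rw [← mul_smul, ← mul_smul]
  refine congrArg (fun g : SemilinearAut ℚbar (modularFunctionFieldBar (q * N')) => g • x)
    (Subtype.ext (Prod.ext (RingEquiv.ext fun f => ?_) (RingEquiv.ext fun c => rfl)))
  exact atkinLehnerBar_arithmeticRingAut hco ℚbar σ f

attribute [local instance] qbarAlgebraC qbarAlgebraFieldC fieldBarAlgebraC
  qbar_isScalarTower_const qbar_isScalarTower_ext qbar_isConstantExtension

theorem algebraMap_alBar (y : FieldBar (q * N')) :
    atkinLehnerBar hco ℂ (algebraMap (FieldBar (q * N')) (FieldC (q * N')) y) =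
      algebraMap (FieldBar (q * N')) (FieldC (q * N')) (atkinLehnerBar hco ℚbar y) := by
  let ι := IsScalarTower.toAlgHom ℚbar (FieldBar (q * N')) (FieldC (q * N'))
  refine DFunLike.congr_fun (show ((atkinLehnerBar hco ℂ).toAlgHom.restrictScalars ℚbar).comp ι =
    ι.comp (atkinLehnerBar hco ℚbar).toAlgHom from algHom_ext_toBaseChange ℚbar fun z => ?_) y
  have e : ∀ w : modularFunctionFieldFull (q * N'),
      algebraMap (FieldBar (q * N')) (FieldC (q * N')) (toBaseChange ℚbar _ w) =
        toBaseChange ℂ _ w := fun w => Subtype.ext (by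
    rw [coe_algebraMap_fieldBar, coe_toBaseChange, coe_toBaseChange, coeffEmb, coeffEmb,
      coeffMap_coeffMap]
    exact coeffMap_congr (Subsingleton.elim _ _) _)
  show atkinLehnerBar hco ℂ (algebraMap _ _ (toBaseChange ℚbar _ z)) =
    algebraMap _ _ (atkinLehnerBar hco ℚbar (toBaseChange ℚbar _ z))
  rw [e, atkinLehnerBar_toBaseChange, atkinLehnerBar_toBaseChange, e]

theorem jBaseC_alJ (x : JZero (q * N')) :
    jBaseC (q * N') (alJ hco x) = alAut hco ℂ • jBaseC (q * N') x := by
  have hcomm : ∀ y : FieldBar (q * N'),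
      alAut hco ℂ • algebraMap (FieldBar (q * N')) (FieldC (q * N')) y =
        algebraMap (FieldBar (q * N')) (FieldC (q * N')) (alAut hco ℚbar • y) :=
    algebraMap_alBar hco
  obtain ⟨D, rfl⟩ := Pic0.mk_surjective x
  show jBaseC (q * N') (alAut hco ℚbar • Pic0.mk D) = _
  rw [SemilinearAut.pic0_smul_mk, jBaseC_mk, jBaseC_mk, SemilinearAut.pic0_smul_mk]
  congr 1
  refine Subtype.ext ?_
  show divBaseC (q * N') (alAut hco ℚbar • (D : Divisor ℚbar (FieldBar (q * N')))) =
    alAut hco ℂ • divBaseC (q * N') (D : Divisor ℚbar (FieldBar (q * N')))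
  generalize (D : Divisor ℚbar (FieldBar (q * N'))) = E
  induction E using Finsupp.induction_linear with
  | zero => rw [smul_zero, map_zero, smul_zero]
  | add a b ha hb => rw [smul_add, map_add, map_add, smul_add, ha, hb]
  | single P n =>
    rw [SemilinearAut.smul_single]
    show extDivisor ℂ (FieldC (q * N')) _ = _ • extDivisor ℂ (FieldC (q * N')) _
    rw [extDivisor_single, extDivisor_single, SemilinearAut.smul_single,
      smul_extPlace_of_comm _ _ hcomm]

attribute [local instance] isAlgClosed_kRes charP_kRes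

variable [IsFunctionField1 (KRes q) (modularFunctionFieldFullC (KRes q) N')] {hco}

/-- **Frobenius is `-q` times Atkin-Lehner on the toric torsion.** -/
theorem frobenius_smul_alJ {n : ℕ} (hn : n.Coprime q) {σ : GQ}
    (hσ : (place₀ q).IsFrobeniusAt σ q) {x : JZero (q * N')} {c : Node q N' hco → KRes q}
    (hx : n • x = 0) (h : HasTor q N' hco x c) : σ • alJ hco x = -(q • x) := by
  obtain ⟨a, hθ, ha⟩ := exists_placeAut (N' := N') hσ.mem_decompositionSubgroup
  have hθ' : a.θ = frobeniusEquiv (KRes q) q := by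
    rw [hθ]
    refine RingEquiv.ext fun y => ?_
    show (⟨σ, hσ.mem_decompositionSubgroup⟩ : (place₀ q).decompositionSubgroup ℚ) • y = _
    rw [hσ.smul_residue_eq, frobeniusEquiv_apply, frobenius_def]
  refine HasTor.eq (c := (c ^ q)⁻¹) hn ?_ ?_ ?_ (h.nsmul q).neg
  · rw [← GalRep.galois_nsmul, ← map_nsmul, hx, map_zero]
    exact smul_zero (A := JZero (q * N')) σ
  · rw [neg_nsmul, smul_comm, hx, nsmul_zero, neg_zero]
  · have h' := (frobSwap hco (placeHomC q) (liesOverPrime_place₀ q) a hθ').hasToric_smul h
    rw [HasTor, ha, jBaseC_alJ, ← mul_smul]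
    have e : (fun i => (SemilinearAut.baseAut (a.fib N') (c i))⁻¹) = (c ^ q)⁻¹ := funext fun i => by
      show (a.θ (c i))⁻¹ = _
      rw [hθ', frobeniusEquiv_apply, frobenius_def]
      rfl
    change NodalDatum.HasToric (torusDatum q N' hco) _
      (fun i => (SemilinearAut.baseAut (a.fib N') (c i))⁻¹) at h'
    rw [e] at h'
    exact h'

/-- Frobenius commutes with Atkin-Lehner, so it is `-q` times it. -/
theorem frobenius_smul_eq {n : ℕ} (hn : n.Coprime q) {σ : GQ}
    (hσ : (place₀ q).IsFrobeniusAt σ q) {x : JZero (q * N')} {c : Node q N' hco → KRes q}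
    (hx : n • x = 0) (h : HasTor q N' hco x c) : σ • x = -(q • alJ hco x) := by
  have e := congrArg (alJ hco) (frobenius_smul_alJ hn hσ hx h)
  rwa [galois_smul_alJ, ← galois_smul_alJ, ← galois_smul_alJ, alJ_alJ, map_neg, map_nsmul] at e

end Toric

end FermatAgent.MazurPrinciple.Away

end
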